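import Fermat.Agent.RT.Assembly.Forms
import Fermat.Agent.EC.Rep.Residual

/-!
# Residual modularity from congruences outside a finite set

A congruence outside a finite set between a form of level `M` and the traces of a curve extends to
all good primes prime to `M p`, by comparing the Galois representations. Hence, for the Frey
curve, modularity of the representation and residual modularity of the integral model agree
(`modularRepOfLevel_iff`, used in `RT/Frey/ModularSquarefree`).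
-/

set_option autoImplicit false

noncomputable section

open Polynomial CongruenceSubgroup ModularFormClass

namespace Fermat.Agent.RT.Mazur

variable (W : WeierstrassCurve ℤ) (p M : ℕ)

/-- A normalised eigenform of level `M` congruent to the traces of `W` outside a finite set. -/
def IsModularOutside : Prop :=
  ∃ (g : CuspForm (Gamma0 M) 2) (_ : g.IsNormalizedEigenform) (𝔪 : Ideal (integralClosure ℤ ℂ))
    (T : Finset ℕ), 𝔪.IsMaximal ∧ (p : integralClosure ℤ ℂ) ∈ 𝔪 ∧
      ∀ l, l.Prime → l ∉ T → ∃ c : integralClosure ℤ ℂ,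
        (c : ℂ) = qCoeff g l ∧ c - ((W.apOfModel l : ℤ) : integralClosure ℤ ℂ) ∈ 𝔪

variable {W p M}

theorem isModularOutside_of_isResiduallyModular (hΔ : W.Δ ≠ 0) (hM : M ≠ 0)
    (h : W.IsResiduallyModularOfLevel p M) : IsModularOutside W p M := by
  classical
  obtain ⟨g, 𝔪, hg, h𝔪, hp, hcong⟩ := h
  refine ⟨g, hg, 𝔪, insert p (M.primeFactors ∪ W.Δ.natAbs.primeFactors), h𝔪, hp,
    fun l hl hlT => ?_⟩
  simp only [Finset.mem_union, Finset.mem_insert, not_or] at hlT
  exact hcong l hl (fun h => hlT.2.2 (Nat.mem_primeFactors.mpr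
    ⟨hl, Int.natCast_dvd.mp h, Int.natAbs_ne_zero.mpr hΔ⟩))
    (fun h => hlT.2.1 (Nat.mem_primeFactors.mpr ⟨hl, h, hM⟩)) hlT.1

/-- The congruence extends to all good primes prime to the level and `p`. -/
theorem isResiduallyModular_of_outside [Fact p.Prime] [NeZero M] (hΔ : W.Δ ≠ 0)
    (hD : ∀ (N p : ℕ) [NeZero N] [Fact p.Prime], Nonempty (GaloisReps.HeckeGaloisModel N p))
    (h : IsModularOutside W p M) : W.IsResiduallyModularOfLevel p M := by
  classical
  obtain ⟨g, hg, 𝔪, T, h𝔪, hp, hcong⟩ := h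
  obtain ⟨θ, hθ⟩ := GaloisReps.exists_eigenform_character hg
  let _ : Field (integralClosure ℤ ℂ ⧸ 𝔪) := Ideal.Quotient.field 𝔪
  have hpF : CharP (integralClosure ℤ ℂ ⧸ 𝔪) p := by
    refine (CharP.charP_iff_prime_eq_zero Fact.out).mpr ?_
    rw [← map_natCast (Ideal.Quotient.mk 𝔪), Ideal.Quotient.eq_zero_iff_mem]
    exact hp
  let _ : Algebra (ZMod p) (integralClosure ℤ ℂ ⧸ 𝔪) := ZMod.algebra _ p
  let F := AlgebraicClosure (integralClosure ℤ ℂ ⧸ 𝔪)
  let _ : Algebra (ZMod p) F := ((algebraMap (integralClosure ℤ ℂ ⧸ 𝔪) F).comp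
    (algebraMap (ZMod p) (integralClosure ℤ ℂ ⧸ 𝔪))).toAlgebra
  have : CharP F p :=
    charP_of_injective_algebraMap (algebraMap (ZMod p) F).injective p
  let φ : integralClosure ℤ ℂ →+* F :=
    (algebraMap (integralClosure ℤ ℂ ⧸ 𝔪) F).comp (Ideal.Quotient.mk 𝔪)
  obtain ⟨D⟩ := hD M p
  -- the residual representation of `g`
  obtain ⟨ρ, hρ, -⟩ := GaloisReps.exists_residual_of_model D (φ.comp θ)
  have hφ : ∀ {c : integralClosure ℤ ℂ} {a : ℤ}, c - (a : integralClosure ℤ ℂ) ∈ 𝔪 →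
      φ c = (a : F) := fun {c a} hc => by
    rw [RingHom.comp_apply, (Ideal.Quotient.mk_eq_mk_iff_sub_mem _ _).mpr hc, map_intCast,
      map_intCast]
  have hcharW : ∀ {l : ℕ} (hl : l.Prime) (hgood : W.IsGoodPrimeFor l) (hlp : l ≠ p)
      {A : ValuationSubring (AlgebraicClosure ℚ)} (hA : A.LiesOverPrime l)
      {σ : AlgebraicClosure ℚ ≃ₐ[ℚ] AlgebraicClosure ℚ} (hσ : A.IsFrobeniusAt σ l),
      LinearMap.charpoly (((EC.Rep.residualRep W p hΔ).baseChange F).ρ σ) =
        X ^ 2 - C ((W.apOfModel l : ℤ) : F) * X + C (l : F) := by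
    intro l hl hgood hlp A hA σ hσ
    refine (LinearMap.charpoly_baseChange _ F).trans ?_
    rw [EC.Rep.charpoly_residualRep_frobenius hΔ hl hgood hlp hA hσ]
    simp only [Polynomial.map_add, Polynomial.map_sub, Polynomial.map_mul,
      Polynomial.map_pow, map_X,
      Polynomial.map_intCast, Polynomial.map_natCast, map_intCast, map_natCast]
    exact congrArg₂ (fun a b : F[X] => X ^ 2 - a * X + b)
      (map_intCast (C : F →+* F[X]) (W.apOfModel l)).symm (map_natCast (C : F →+* F[X]) l).symm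
  -- it has the characteristic polynomials of `W[p]`, by Chebotarev
  have hall := Assembly.charpoly_eq_of_frobenius ρ ((EC.Rep.residualRep W p hΔ).baseChange F)
    (T ∪ insert p (M.primeFactors ∪ W.Δ.natAbs.primeFactors)) fun l hl hlT A hA σ hσ => by
      simp only [Finset.mem_union, Finset.mem_insert, not_or] at hlT
      have hlM : ¬ l ∣ M * p := fun h => (hl.dvd_mul.mp h).elim
        (fun h => hlT.2.2.1 (Nat.mem_primeFactors.mpr ⟨hl, h, NeZero.ne M⟩))
        fun h => hlT.2.1 ((Nat.prime_dvd_prime_iff_eq hl Fact.out).mp h)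
      have hgood : W.IsGoodPrimeFor l := fun h => hlT.2.2.2 (Nat.mem_primeFactors.mpr
        ⟨hl, Int.natCast_dvd.mp h, Int.natAbs_ne_zero.mpr hΔ⟩)
      obtain ⟨c, hc, hcm⟩ := hcong l hl hlT.1
      rw [hρ l hl hlM A hA σ hσ, hcharW hl hgood hlT.2.1 hA hσ, RingHom.comp_apply,
        show θ (HeckeDuality.heckeOp M 2 l hl) = c from Subtype.ext ((hθ l hl).trans hc.symm),
        hφ hcm]
  refine ⟨g, 𝔪, hg, h𝔪, hp, fun l hl hgood hlM hlp => ⟨θ (HeckeDuality.heckeOp M 2 l hl),
    hθ l hl, ?_⟩⟩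
  -- at any good prime compare the traces of Frobenius
  obtain ⟨A, hA⟩ := Arith.exists_liesOverPrime hl
  obtain ⟨σ, hσ⟩ := Arith.exists_isFrobeniusAt hA hl
  have hlMp : ¬ l ∣ M * p := fun h => (hl.dvd_mul.mp h).elim hlM
    fun h => hlp ((Nat.prime_dvd_prime_iff_eq hl Fact.out).mp h)
  have e := hall σ
  rw [hρ l hl hlMp A hA σ hσ, hcharW hl hgood hlp hA hσ] at e
  have e1 := congrArg (fun f => Polynomial.coeff f 1) e
  simp [Polynomial.coeff_X_pow, Polynomial.coeff_C] at e1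
  rw [← Ideal.Quotient.mk_eq_mk_iff_sub_mem]
  refine (algebraMap (integralClosure ℤ ℂ ⧸ 𝔪) F).injective ?_
  rw [map_intCast (Ideal.Quotient.mk 𝔪), map_intCast]
  exact neg_inj.mp e1

/-- Modularity of the Frey representation in terms of its integral model. -/
theorem modularRepOfLevel_iff (P : FreyPackage) [Fact P.p.Prime] [NeZero M]
    (hD : ∀ (N p : ℕ) [NeZero N] [Fact p.Prime], Nonempty (GaloisReps.HeckeGaloisModel N p)) :
    P.ModularRepOfLevel M ↔ P.freyCurveInt.IsResiduallyModularOfLevel P.p M := by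
  classical
  have hF : P.freyCurveInt.IsIntegralModelOf P.freyCurve :=
    ⟨1, by rw [one_smul, EC.Reduction.Frey.freyCurve_eq_map]⟩
  constructor
  · rintro ⟨g, W, 𝔪, hg, hW, h𝔪, hp, hcong⟩
    have hE : P.freyCurve.IsElliptic := Fermat.Agent.Mazur.Small.frey_isElliptic P
    have hWΔ : W.Δ ≠ 0 := fun h0 => by
      obtain ⟨C, hC⟩ := hW
      have : (W.map (Int.castRingHom ℚ)).IsElliptic := hC ▸ inferInstance
      simpa [h0] using this.isUnit.ne_zero
    refine isResiduallyModular_of_outside (EC.Reduction.Frey.Δ_ne_zero P) hD ⟨g, hg, 𝔪,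
      insert P.p (M.primeFactors ∪ W.Δ.natAbs.primeFactors ∪
        P.freyCurveInt.Δ.natAbs.primeFactors), h𝔪, hp, fun l hl hlT => ?_⟩
    simp only [Finset.mem_union, Finset.mem_insert, not_or] at hlT
    have hlW : W.IsGoodPrimeFor l := fun h => hlT.2.1.2 (Nat.mem_primeFactors.mpr
      ⟨hl, Int.natCast_dvd.mp h, Int.natAbs_ne_zero.mpr hWΔ⟩)
    have hlF : P.freyCurveInt.IsGoodPrimeFor l := fun h => hlT.2.2 (Nat.mem_primeFactors.mpr
      ⟨hl, Int.natCast_dvd.mp h, Int.natAbs_ne_zero.mpr (EC.Reduction.Frey.Δ_ne_zero P)⟩)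
    obtain ⟨c, hc, hcm⟩ := hcong l hl hlW
      (fun h => hlT.2.1.1 (Nat.mem_primeFactors.mpr ⟨hl, h, NeZero.ne M⟩)) hlT.1
    refine ⟨c, hc, ?_⟩
    obtain ⟨t, ht⟩ := (ZMod.intCast_eq_intCast_iff_dvd_sub _ _ _).mp
      (Assembly.apOfModel_cast_eq (E := P.freyCurve) (p := P.p) hW hF hl hlW hlF hlT.1)
    have e : c - (P.freyCurveInt.apOfModel l : integralClosure ℤ ℂ) =
        (c - (W.apOfModel l : integralClosure ℤ ℂ)) - (P.p : integralClosure ℤ ℂ) * t := by
      have ht' := congrArg (fun z : ℤ => (z : integralClosure ℤ ℂ)) ht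
      push_cast at ht'
      linear_combination -ht'
    rw [e]
    exact sub_mem hcm (Ideal.mul_mem_right _ _ hp)
  · rintro ⟨g, 𝔪, hg, h𝔪, hp, hcong⟩
    exact ⟨g, P.freyCurveInt, 𝔪, hg, hF, h𝔪, hp, hcong⟩

end Fermat.Agent.RT.Mazur
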