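import Fermat.Agent.RT.Mazur.Scale
import Fermat.Agent.Semistable.Echelon
import Fermat.Agent.Semistable.Levels

/-!
# Bases of spaces of series with fixed coefficients

A finite dimensional space of series stable under a set of coefficientwise automorphisms has a
basis with fixed coefficients; for two expansions it can be chosen integral with independent
reductions.
-/

set_option autoImplicit false

noncomputable section

namespace Fermat.Agent.RT.Mazur

open Fermat.Agent.Semistable Fermat.Agent.Arith ModularCurve

attribute [local instance 10000] SubalgebraClass.toAlgebra HahnSeries.powerSeriesAlgebra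

/-- Shortcut: the search through `LaurentSeries` is slow. -/
local instance (priority := 10000) fixedBasisModule (N : ℕ) : Module QBar (FB N) :=
  Algebra.toModule

/-- Shortcut. -/
local instance (priority := 10000) fixedBasisDecidableEq {N : ℕ} {W : Submodule QBar (FB N)}
    {B : Set (Module.Dual QBar W)} : DecidableEq B := Classical.decEq _

theorem coeff_coe_smul {N : ℕ} (c : QBar) (x : FB N) (n : ℤ) :
    (((c • x : FB N)) : LSer).coeff n = c * (x : LSer).coeff n := by
  rw [show ((c • x : FB N) : LSer) = algebraMap QBar LSer c * (x : LSer) from by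
      rw [Algebra.smul_def c x]; rfl,
    algebraMap_laurentSeries_eq_single, HahnSeries.coeff_single_zero_mul]

/-- A stable space of functions has a basis with fixed coefficients. -/
theorem exists_fixed_basis {N : ℕ} (S : Set GQ) (W : Submodule QBar (FB N))
    [FiniteDimensional QBar W]
    (hW : ∀ τ ∈ S, ∀ x ∈ W, arithmeticRingAut (modularFunctionFieldFull N) τ x ∈ W) :
    ∃ b : Fin (Module.finrank QBar W) → FB N, (∀ i, b i ∈ W) ∧ LinearIndependent QBar b ∧
      ∀ i, ∀ τ ∈ S, arithmeticRingAut (modularFunctionFieldFull N) τ (b i) = b i := by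
  classical
  let φ : ℤ → Module.Dual QBar W := fun n =>
    { toFun := fun x => ((x : FB N) : LSer).coeff n
      map_add' := fun x y => by simp
      map_smul' := fun c x => coeff_coe_smul c (x : FB N) n }
  -- finitely many coefficients give coordinates on `W`
  obtain ⟨B, hB, hBspan, hBli⟩ := exists_linearIndependent QBar (Set.range φ)
  have : Finite B := hBli.finite
  have := Fintype.ofFinite B
  let L : W →ₗ[QBar] (B → QBar) := LinearMap.pi fun β => (β.1 : Module.Dual QBar W)
  have hLinj : Function.Injective L := by
    rw [← LinearMap.ker_eq_bot, Submodule.eq_bot_iff]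
    intro x hx
    have hall : ∀ f ∈ Submodule.span QBar B, f x = 0 := by
      intro f hf
      induction hf using Submodule.span_induction with
      | mem f hf => exact congrFun hx ⟨f, hf⟩
      | zero => rfl
      | add f g _ _ hf hg => rw [LinearMap.add_apply, hf, hg, add_zero]
      | smul c f _ hf => rw [LinearMap.smul_apply, hf, smul_zero]
    refine Subtype.ext (Subtype.ext (HahnSeries.ext (funext fun n => ?_)))
    exact hall (φ n) (hBspan ▸ Submodule.subset_span ⟨n, rfl⟩)
  have hcard : Fintype.card B = Module.finrank QBar W := by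
    refine le_antisymm ?_ ?_
    · exact hBli.fintype_card_le_finrank.trans Subspace.dual_finrank_eq.le
    · simpa using LinearMap.finrank_le_finrank_of_injective hLinj
  have hLbij : Function.Bijective L :=
    ⟨hLinj, (LinearMap.injective_iff_surjective_of_finrank_eq_finrank
      (by simp [hcard])).mp hLinj⟩
  let E := LinearEquiv.ofBijective L hLbij
  let e : Fin (Module.finrank QBar W) ≃ B := (Fintype.equivFinOfCardEq hcard).symm
  -- the basis dual to them
  let b : Fin (Module.finrank QBar W) → W := fun i => E.symm (Pi.single (e i) 1)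
  refine ⟨fun i => (b i : FB N), fun i => (b i).2, ?_, fun i τ hτ => ?_⟩
  · have h1 : LinearIndependent QBar fun i => (Pi.single (e i) 1 : B → QBar) :=
      (funext fun i => (Pi.basisFun_apply QBar B (e i)) :
        ⇑(Pi.basisFun QBar B) ∘ e = fun i => (Pi.single (e i) 1 : B → QBar)) ▸
        (Pi.basisFun QBar B).linearIndependent.comp e e.injective
    exact (h1.map' E.symm.toLinearMap E.symm.ker).map' W.subtype W.ker_subtype
  · have hmem := hW τ hτ _ (b i).2
    -- a conjugate has the same coordinates, hence is equal
    have hval : L ⟨_, hmem⟩ = L (b i) := by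
      funext β
      obtain ⟨n, hn⟩ := hB β.2
      have hval' : ∀ y : W, L y β = ((y : FB N) : LSer).coeff n := fun y => by
        show (β.1 : Module.Dual QBar W) y = _
        rw [← hn]
        rfl
      have hb : L (b i) β = Pi.single (M := fun _ : B => QBar) (e i) 1 β :=
        congrFun (E.apply_symm_apply _) β
      have hb' : ((b i : FB N) : LSer).coeff n = Pi.single (M := fun _ : B => QBar) (e i) 1 β := by
        rw [← hval', hb]
      rw [hval', hval', coe_arithmeticRingAut, coeff_coeffMap, hb']
      rcases eq_or_ne β (e i) with h | h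
      · rw [h, Pi.single_eq_same]; exact map_one _
      · rw [Pi.single_eq_of_ne h]; exact map_zero _
    exact congrArg Subtype.val (hLinj hval)

variable {A : ValuationSubring QBar} {q : ℕ}

/-- A fixed quotient of integral series is a quotient of fixed integral series. -/
theorem fracOver_fixedField {H : Subgroup GQ} (hH : H ≤ A.inertiaSubgroupIn ℚ) {x : LSer}
    (hx : x ∈ fracS A) (hfix : ∀ τ ∈ H, coeffMap (τ : QBar →+* QBar) x = x) :
    FracOver A (IntermediateField.fixedField H) x := by
  have hmem : ∀ y : LSer, (∀ τ ∈ H, coeffMap (τ : QBar →+* QBar) y = y) → ∀ n,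
      y.coeff n ∈ (algebraMap (IntermediateField.fixedField H) QBar).fieldRange := fun y hy n =>
    ⟨⟨y.coeff n, fun τ => by
      have h := congrArg (fun s : LSer => s.coeff n) (hy τ.1 τ.2)
      simp only [coeff_coeffMap] at h
      exact h⟩, rfl⟩
  obtain ⟨a, ha, b, hb, hb0, hab⟩ := mem_fracS.mp hx
  obtain ⟨c, hc, hc0, hbc⟩ := exists_fixed_multiple hb hb0
  have hab' : x * (b * c) = a * c := by rw [← mul_assoc, hab]
  exact ⟨a * c, mul_mem ha hc, b * c, mul_mem hb hc, mul_ne_zero hb0 hc0, hab',
    hmem _ fun τ hτ => by rw [← hab', map_mul, hfix τ hτ, hbc τ (hH hτ)],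
    hmem _ fun τ hτ => hbc τ (hH hτ)⟩

variable {N : ℕ} [NeZero N] {S : Type*} [Finite S] [Nonempty S]

omit [NeZero N] in
/-- A stable space of functions has as many fixed elements with independent reductions as its
dimension. -/
theorem exists_fixed_redBasis (hA : A.LiesOverPrime q) (hq : q.Prime) {H : Subgroup GQ}
    (hH : H ≤ A.inertiaSubgroupIn ℚ) (ι : S → (FB N →ₐ[QBar] LSer))
    (hι : ∀ s x, ι s x ∈ fracS A)
    (hcomm : ∀ τ ∈ H, ∀ s x, ι s (arithmeticRingAut (modularFunctionFieldFull N) τ x) =
      coeffMap (τ : QBar →+* QBar) (ι s x))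
    (W : Submodule QBar (FB N)) [FiniteDimensional QBar W]
    (hW : ∀ τ ∈ H, ∀ x ∈ W, arithmeticRingAut (modularFunctionFieldFull N) τ x ∈ W) :
    ∃ w : Fin (Module.finrank QBar W) → FB N, ∃ h : ∀ a s, ι s (w a) ∈ locS A,
      (∀ a, w a ∈ W) ∧ (∀ a s, ∀ τ ∈ H, coeffMap (τ : QBar →+* QBar) (ι s (w a)) = ι s (w a)) ∧
      LinearIndependent (Res A) fun a s => redL A ⟨ι s (w a), h a s⟩ := by
  classical
  -- a fixed basis
  obtain ⟨y, hy, hyi, hyfix⟩ := exists_fixed_basis (H : Set GQ) W hW
  set L := IntermediateField.fixedField H with hL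
  let v : Fin (Module.finrank QBar W) → (S → LSer) := fun i s => ι s (y i)
  have hvi : LinearIndependent L v := by
    let Φ : FB N →ₗ[QBar] (S → LSer) :=
      { toFun := fun x s => ι s x
        map_add' := fun x x' => funext fun s => map_add (ι s) x x'
        map_smul' := fun c x => funext fun s => by
          show ι s (c • x) = c • ι s x
          rw [Algebra.smul_def, map_mul, AlgHom.commutes, smul_eq_algebraMap_mul]
          rfl }
    have hΦ : Φ.ker = ⊥ := by
      rw [Submodule.eq_bot_iff]
      intro x hx
      obtain ⟨s⟩ := ‹Nonempty S›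
      exact (map_eq_zero (ι s)).mp (congrFun hx s)
    exact (hyi.map' Φ hΦ).restrict_scalars fun c d h => Subtype.ext (by simpa using h)
  -- its span over the fixed field
  set V : Submodule L (S → LSer) := Submodule.span L (Set.range v)
  have hVdim : Module.finrank L V = Module.finrank QBar W := by
    rw [finrank_span_eq_card hvi, Fintype.card_fin]
  have hVmem : ∀ x ∈ V, ∃ z ∈ W, (∀ s, ι s z = x s) ∧
      ∀ τ ∈ H, arithmeticRingAut (modularFunctionFieldFull N) τ z = z := by
    intro x hx
    induction hx using Submodule.span_induction with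
    | mem x hx =>
      obtain ⟨i, rfl⟩ := hx
      exact ⟨y i, hy i, fun s => rfl, hyfix i⟩
    | zero => exact ⟨0, W.zero_mem, fun s => map_zero _, fun τ _ => map_zero _⟩
    | add x x' _ _ hx hx' =>
      obtain ⟨z, hz, hzs, hzf⟩ := hx
      obtain ⟨z', hz', hzs', hzf'⟩ := hx'
      exact ⟨z + z', W.add_mem hz hz', fun s => by rw [map_add, hzs, hzs']; rfl,
        fun τ hτ => by rw [map_add, hzf τ hτ, hzf' τ hτ]⟩
    | smul c x _ hx =>
      obtain ⟨z, hz, hzs, hzf⟩ := hx
      refine ⟨(c : QBar) • z, W.smul_mem _ hz, fun s => ?_, fun τ hτ => ?_⟩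
      · rw [Algebra.smul_def, map_mul, AlgHom.commutes, hzs, Pi.smul_apply, smul_eq_algebraMap_mul]
        rfl
      · rw [Algebra.smul_def, map_mul, hzf τ hτ, arithmeticRingAut_algebraMap]
        exact congrArg (· * z) (congrArg _ (c.2 ⟨τ, hτ⟩))
  have : FiniteDimensional L V := FiniteDimensional.span_of_finite L (Set.finite_range v)
  -- an echelon basis there has independent reductions
  obtain ⟨u, hu, huV, hui⟩ := echelon hA hq (L := L) V fun x hx s => by
    obtain ⟨z, -, hzs, hzf⟩ := hVmem x hx
    rw [← hzs s]
    exact fracOver_fixedField hH (hι s z) fun τ hτ => by rw [← hcomm τ hτ, hzf τ hτ]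
  choose z hzW hzs hzf using fun a => hVmem _ (huV a)
  let e : Fin (Module.finrank QBar W) ≃ Fin (Module.finrank L V) :=
    finCongr hVdim.symm
  refine ⟨fun i => z (e i), fun i s => (hzs (e i) s).symm ▸ hu (e i) s, fun i => hzW _,
    fun i s τ hτ => by rw [← hcomm τ hτ, hzf (e i) τ hτ], ?_⟩
  convert hui.comp e e.injective using 1
  funext i s
  exact redL_congr _ _ (hzs (e i) s)

end Fermat.Agent.RT.Mazur

end
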