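import Fermat.Agent.Semistable.SeriesLemmas
import Fermat.Agent.Mazur.Eisenstein.Unram

/-!
# The order at `q` of a series with coefficients in the inertia field

A nonzero quotient of integral series whose coefficients are fixed by the inertia group is a power
of `q` times a series with nonzero reduction; the exponent is its order.
-/

set_option autoImplicit false

noncomputable section

namespace Fermat.Agent.RT.Mazur

open Fermat.Agent.Semistable Fermat.Agent.Arith ModularCurve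

variable (A : ValuationSubring QBar)

/-- All coefficients are fixed by the inertia group at `A`. -/
def InertiaFixed (x : LSer) : Prop :=
  ∀ τ ∈ A.inertiaSubgroupIn ℚ, coeffMap (τ : QBar →+* QBar) x = x

/-- Integral at `A` with nonzero reduction, in the field of quotients of integral series. -/
def IsGUnit (x : LSer) : Prop := ∃ h : x ∈ locS A, redL A ⟨x, h⟩ ≠ 0

variable {A}

/-- The elements of the inertia group are inertial. -/
theorem isInertial_of_mem {τ : GQ} (hτ : τ ∈ A.inertiaSubgroupIn ℚ) : IsInertial A τ where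
  mem _ ha := map_mem_of_mem_decomposition (mem_inertia_iff_forall_mem.mp hτ).1 ha
  residue_eq a ha := residue_eq_iff.mpr ((mem_inertia_iff_forall_mem.mp hτ).2 a ha)

theorem IsGUnit.ne_zero {x : LSer} (hx : IsGUnit A x) : x ≠ 0 := by
  rintro rfl
  obtain ⟨h, hne⟩ := hx
  exact hne (by rw [show (⟨0, h⟩ : locS A) = 0 from rfl, map_zero])

/-- The series `1` is a Gauss unit. -/
theorem isGUnit_one : IsGUnit A (1 : LSer) :=
  ⟨one_mem _, by rw [show (⟨1, one_mem _⟩ : locS A) = 1 from rfl, map_one]; exact one_ne_zero⟩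

/-- Products of series with nonzero reduction have nonzero reduction. -/
theorem IsGUnit.mul {x y : LSer} (hx : IsGUnit A x) (hy : IsGUnit A y) : IsGUnit A (x * y) := by
  obtain ⟨hx', hx⟩ := hx
  obtain ⟨hy', hy⟩ := hy
  refine ⟨mul_mem hx' hy', ?_⟩
  rw [show (⟨x * y, mul_mem hx' hy'⟩ : locS A) = ⟨x, hx'⟩ * ⟨y, hy'⟩ from rfl, map_mul]
  exact mul_ne_zero hx hy

/-- The inverse of a series with nonzero reduction has nonzero reduction. -/
theorem IsGUnit.inv {x : LSer} (hx : IsGUnit A x) : IsGUnit A x⁻¹ := by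
  obtain ⟨hx', hne⟩ := hx
  obtain ⟨h, e⟩ := inv_mem_locS hx' hne
  exact ⟨h, by rw [e]; exact inv_ne_zero hne⟩

/-- Products of inertia-fixed series are inertia-fixed. -/
theorem InertiaFixed.mul {x y : LSer} (hx : InertiaFixed A x) (hy : InertiaFixed A y) :
    InertiaFixed A (x * y) := fun τ hτ => by rw [map_mul, hx τ hτ, hy τ hτ]

/-- The inverse of an inertia-fixed series is inertia-fixed. -/
theorem InertiaFixed.inv {x : LSer} (hx : InertiaFixed A x) : InertiaFixed A x⁻¹ :=
  fun τ hτ => by rw [map_inv₀, hx τ hτ]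

/-- The series `1` is fixed by inertia. -/
theorem inertiaFixed_one : InertiaFixed A (1 : LSer) := fun _ _ => map_one _

/-- Powers of an inertia-fixed series are inertia-fixed. -/
theorem InertiaFixed.pow {x : LSer} (hx : InertiaFixed A x) (n : ℕ) : InertiaFixed A (x ^ n) :=
  fun τ hτ => by rw [map_pow, hx τ hτ]

/-- Integral powers of an inertia-fixed series are inertia-fixed. -/
theorem InertiaFixed.zpow {x : LSer} (hx : InertiaFixed A x) (n : ℤ) : InertiaFixed A (x ^ n) :=
  fun τ hτ => by rw [map_zpow₀, hx τ hτ]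

/-- The coefficients of `coeffMap τ x` are the `τ`-images of those of `x`. -/
theorem coeff_coeffMap (τ : GQ) (x : LSer) (n : ℤ) :
    (coeffMap (τ : QBar →+* QBar) x).coeff n = τ (x.coeff n) := coeffMap_coeff _ _ _

theorem InertiaFixed.coeff {x : LSer} (hx : InertiaFixed A x) (n : ℤ) {τ : GQ}
    (hτ : τ ∈ A.inertiaSubgroupIn ℚ) : τ (x.coeff n) = x.coeff n := by
  have h := congrArg (fun s : LSer => s.coeff n) (hx τ hτ)
  simpa only [coeff_coeffMap] using h

theorem inertiaFixed_algebraMap {a : QBar} (ha : ∀ τ ∈ A.inertiaSubgroupIn ℚ, τ a = a) :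
    InertiaFixed A (algebraMap QBar LSer a) := fun τ hτ => by
  rw [coeffMap_algebraMap]
  exact congrArg _ (ha τ hτ)

/-- The constant `q ^ n` is inertia-fixed. -/
theorem inertiaFixed_natCast_zpow (q : ℕ) (n : ℤ) :
    InertiaFixed A (algebraMap QBar LSer ((q : QBar) ^ n)) :=
  inertiaFixed_algebraMap fun τ _ => by rw [map_zpow₀, map_natCast]

/-- An integral series has finitely many conjugates under a subgroup, itself among them. -/
theorem finite_coeffMap_orbit (H : Subgroup GQ) {b : LSer} (hb : b ∈ intS A) :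
    ((fun τ : GQ => coeffMap (τ : QBar →+* QBar) b) '' (H : Set GQ)).Finite ∧
      b ∈ (fun τ : GQ => coeffMap (τ : QBar →+* QBar) b) '' (H : Set GQ) := by
  obtain ⟨⟨L, hL, hbL⟩, -⟩ := mem_intS.mp hb
  let ev : (L →ₐ[ℚ] QBar) → ℤ → QBar := fun φ n => φ ⟨b.coeff n, hbL n⟩
  refine ⟨Set.Finite.of_finite_image ((Set.finite_range ev).subset ?_)
    (f := fun x : LSer => x.coeff) (fun x _ y _ h => HahnSeries.ext h), 1, one_mem _, ?_⟩
  · rintro _ ⟨_, ⟨τ, -, rfl⟩, rfl⟩
    exact ⟨(τ : QBar ≃ₐ[ℚ] QBar).toAlgHom.comp L.val, funext fun n => (coeff_coeffMap τ b n).symm⟩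
  · show coeffMap (((1 : GQ) : QBar →+* QBar)) b = b
    rw [show ((1 : GQ) : QBar →+* QBar) = RingHom.id QBar from RingHom.ext fun _ => rfl,
      coeffMap_id]

/-- The product of the finitely many inertia conjugates of an integral series is fixed by inertia
and is a multiple of it. -/
theorem exists_fixed_multiple {b : LSer} (hb : b ∈ intS A) (hb0 : b ≠ 0) :
    ∃ c ∈ intS A, c ≠ 0 ∧ InertiaFixed A (b * c) := by
  classical
  obtain ⟨hO, hb1⟩ := finite_coeffMap_orbit (A.inertiaSubgroupIn ℚ) hb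
  have hb_mem : b ∈ hO.toFinset := hO.mem_toFinset.mpr hb1
  have hmem : ∀ x ∈ hO.toFinset, x ∈ intS A ∧ x ≠ 0 := by
    intro x hx
    obtain ⟨τ, hτ, rfl⟩ := hO.mem_toFinset.mp hx
    exact ⟨(isInertial_of_mem hτ).coeffMap_mem hb, (map_ne_zero _).mpr hb0⟩
  refine ⟨∏ x ∈ hO.toFinset.erase b, x, prod_mem fun x hx =>
    (hmem x (Finset.mem_of_mem_erase hx)).1,
    Finset.prod_ne_zero_iff.mpr fun x hx => (hmem x (Finset.mem_of_mem_erase hx)).2, fun τ hτ => ?_⟩
  rw [Finset.mul_prod_erase _ (fun x => x) hb_mem, map_prod]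
  have hinj : Function.Injective (coeffMap (τ : QBar →+* QBar)) :=
    (coeffMap (τ : QBar →+* QBar)).injective
  have himg : hO.toFinset.image (coeffMap (τ : QBar →+* QBar)) = hO.toFinset := by
    refine Finset.eq_of_subset_of_card_le (fun y hy => ?_)
      (Finset.card_image_of_injective _ hinj).ge
    obtain ⟨x, hx, rfl⟩ := Finset.mem_image.mp hy
    obtain ⟨τ', hτ', rfl⟩ := hO.mem_toFinset.mp hx
    refine hO.mem_toFinset.mpr ⟨τ * τ', mul_mem hτ hτ', ?_⟩
    rw [coeffMap_coeffMap]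
    rfl
  conv_rhs => rw [← himg]
  rw [Finset.prod_image fun x _ y _ h => hinj h]

variable {q : ℕ}

theorem zpow_isUnit_imp (hA : A.LiesOverPrime q) (hq : q.Prime) {k : ℤ}
    (h : A.valuation ((q : QBar) ^ k) = 1) : k = 0 := by
  have h0 := (Mazur.Eisenstein.ordAt_eq_zero_iff hA hq
    (zpow_ne_zero k (Nat.cast_ne_zero.mpr hq.ne_zero))).mpr h
  rw [Mazur.Eisenstein.ordAt_prime_zpow hA hq] at h0
  exact_mod_cast h0

/-- An element of the inertia field is a power of `q` times a unit. -/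
theorem exists_zpow_mul_unit (hA : A.LiesOverPrime q) (hq : q.Prime) {a : QBar} (ha : a ≠ 0)
    (hfix : ∀ τ ∈ A.inertiaSubgroupIn ℚ, τ a = a) :
    ∃ k : ℤ, (q : QBar) ^ (-k) * a ∈ A ∧ (q : QBar) ^ (-k) * a ∉ A.nonunits := by
  obtain ⟨k, hk⟩ := Mazur.Eisenstein.exists_int_ordAt hA hq ha hfix
  have hq0 : (q : QBar) ^ (-k) ≠ 0 := zpow_ne_zero _ (Nat.cast_ne_zero.mpr hq.ne_zero)
  have hu := (Mazur.Eisenstein.ordAt_eq_zero_iff hA hq (mul_ne_zero hq0 ha)).mp (by
    rw [Mazur.Eisenstein.ordAt_mul hA hq hq0 ha, Mazur.Eisenstein.ordAt_prime_zpow hA hq, hk]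
    push_cast; ring)
  exact ⟨k, (A.valuation_le_one_iff _).mp hu.le, fun h => by
    rw [ValuationSubring.mem_nonunits_iff, hu] at h; exact lt_irrefl _ h⟩

/-- A unit constant has nonzero reduction. -/
theorem isGUnit_algebraMap {a : QBar} (ha : a ∈ A) (hu : a ∉ A.nonunits) :
    IsGUnit A (algebraMap QBar LSer a) :=
  ⟨algebraMap_mem_locS ha, by
    rw [redL_algebraMap ha]
    exact fun h => hu ((residue_eq_zero_iff ha).mp ((map_eq_zero _).mp h))⟩

/-- Two scalings of the same series with nonzero reductions differ by a unit. -/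
theorem valuation_eq_of_isGUnit {x : LSer} {a b : QBar}
    (ha : IsGUnit A (algebraMap QBar LSer a * x))
    (hb : IsGUnit A (algebraMap QBar LSer b * x)) : A.valuation a = A.valuation b := by
  have ha0 : a ≠ 0 := fun h => ha.ne_zero (by rw [h, map_zero, zero_mul])
  have hb0 : b ≠ 0 := fun h => hb.ne_zero (by rw [h, map_zero, zero_mul])
  have hx0 : x ≠ 0 := right_ne_zero_of_mul ha.ne_zero
  have hu : IsGUnit A (algebraMap QBar LSer (a / b)) := by
    have h := ha.mul hb.inv
    rwa [← div_eq_mul_inv, mul_div_mul_right _ _ hx0, ← map_div₀] at h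
  have hle : ∀ {c : QBar}, c ≠ 0 → IsGUnit A (algebraMap QBar LSer c) → A.valuation c ≤ 1 := by
    intro c hc hc'
    obtain ⟨h, hne⟩ := hc'
    by_contra hgt
    have hinv : c⁻¹ ∈ A.nonunits := by
      rw [ValuationSubring.mem_nonunits_iff, map_inv₀]
      exact inv_lt_one_of_one_lt₀ (not_le.mp hgt)
    obtain ⟨hm, e⟩ := redL_const_mul (mem_of_mem_nonunits hinv) h
    rw [(residue_eq_zero_iff _).mpr hinv, map_zero, zero_mul,
      redL_congr hm (one_mem (locS A)) (by rw [← map_mul, inv_mul_cancel₀ hc, map_one]),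
      show (⟨1, one_mem _⟩ : locS A) = 1 from rfl, map_one] at e
    exact one_ne_zero e
  have hab : a / b ≠ 0 := div_ne_zero ha0 hb0
  have h1 := hle hab hu
  have h2 := hle (inv_ne_zero hab) (by rw [map_inv₀]; exact hu.inv)
  rw [map_inv₀, inv_le_one₀ (zero_lt_iff.mpr ((Valuation.ne_zero_iff _).mpr hab))] at h2
  have h3 : A.valuation (a / b) = 1 := le_antisymm h1 h2
  rwa [map_div₀, div_eq_one_iff_eq ((Valuation.ne_zero_iff _).mpr hb0)] at h3

/-- Scaling by a power of `q`. -/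
theorem exists_zpow_isGUnit (hA : A.LiesOverPrime q) (hq : q.Prime) {x : LSer} (hx : x ∈ fracS A)
    (h0 : x ≠ 0) (hfix : InertiaFixed A x) :
    ∃ n : ℤ, IsGUnit A (algebraMap QBar LSer ((q : QBar) ^ (-n)) * x) := by
  obtain ⟨a, ha, b, hb, hb0, hab⟩ := mem_fracS.mp hx
  obtain ⟨c, hc, hc0, hfb⟩ := exists_fixed_multiple hb hb0
  set b' := b * c
  have hb' : b' ∈ intS A := mul_mem hb hc
  have hab' : x * b' = a * c := by rw [← mul_assoc, hab]
  have key : ∀ y : LSer, y ∈ intS A → y ≠ 0 → InertiaFixed A y →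
      ∃ k : ℤ, IsGUnit A (algebraMap QBar LSer ((q : QBar) ^ (-k)) * y) := by
    intro y hy hy0 hyf
    obtain ⟨e, he0, hey, hred, m, hm⟩ := exists_scale_intS hA hq hy hy0
    have hefix : ∀ τ ∈ A.inertiaSubgroupIn ℚ, τ e = e := fun τ hτ => by
      rw [hm, map_inv₀, hyf.coeff m hτ]
    obtain ⟨k, hk, hku⟩ := exists_zpow_mul_unit hA hq (inv_ne_zero he0)
      fun τ hτ => by rw [map_inv₀, hefix τ hτ]
    refine ⟨k, ?_⟩
    have hg : IsGUnit A (algebraMap QBar LSer e * y) :=
      ⟨intS_le_locS hey, by rw [redL_of_mem_intS ⟨_, hey⟩]; exact hred⟩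
    have h := (isGUnit_algebraMap hk hku).mul hg
    rwa [← mul_assoc, ← map_mul, mul_assoc, inv_mul_cancel₀ he0, mul_one] at h
  have hb'0 : b' ≠ 0 := mul_ne_zero hb0 hc0
  obtain ⟨k, hk⟩ := key _ hb' hb'0 hfb
  obtain ⟨l, hl⟩ := key _ (mul_mem ha hc) (by rw [← hab']; exact mul_ne_zero h0 hb'0)
    (by rw [← hab']; exact hfix.mul hfb)
  refine ⟨l - k, ?_⟩
  have h := hl.mul hk.inv
  have hq0 : (q : QBar) ≠ 0 := Nat.cast_ne_zero.mpr hq.ne_zero
  rw [← hab', ← div_eq_mul_inv, mul_div_mul_comm, mul_div_assoc, div_self hb'0, mul_one,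
    ← map_div₀, ← zpow_sub₀ hq0] at h
  rwa [show -(l - k) = -l - -k by ring]

open Classical in
/-- The order at `q` of an inertia-fixed series. -/
def gOrd (A : ValuationSubring QBar) (q : ℕ) (x : LSer) : ℤ :=
  if h : ∃ n : ℤ, IsGUnit A (algebraMap QBar LSer ((q : QBar) ^ (-n)) * x) then h.choose else 0

/-- The order is `n` if dividing by `q ^ n` gives a series with nonzero reduction. -/
theorem gOrd_eq (hA : A.LiesOverPrime q) (hq : q.Prime) {x : LSer} {n : ℤ}
    (h : IsGUnit A (algebraMap QBar LSer ((q : QBar) ^ (-n)) * x)) : gOrd A q x = n := by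
  rw [gOrd, dif_pos ⟨n, h⟩]
  have hv := valuation_eq_of_isGUnit
    (Exists.choose_spec (⟨n, h⟩ : ∃ m : ℤ,
      IsGUnit A (algebraMap QBar LSer ((q : QBar) ^ (-m)) * x))) h
  set m := Exists.choose (⟨n, h⟩ : ∃ m : ℤ,
    IsGUnit A (algebraMap QBar LSer ((q : QBar) ^ (-m)) * x))
  have hq0 : A.valuation (q : QBar) ≠ 0 :=
    (Valuation.ne_zero_iff _).mpr (Nat.cast_ne_zero.mpr hq.ne_zero)
  have := zpow_isUnit_imp hA hq (k := -m - -n) (by
    rw [map_zpow₀, zpow_sub₀ hq0, ← map_zpow₀, ← map_zpow₀, hv,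
      div_self ((Valuation.ne_zero_iff _).mpr (zpow_ne_zero _ (Nat.cast_ne_zero.mpr hq.ne_zero)))])
  omega

/-- Dividing a series by `q` to the power of its order gives nonzero reduction. -/
theorem gOrd_spec (hA : A.LiesOverPrime q) (hq : q.Prime) {x : LSer} (hx : x ∈ fracS A)
    (h0 : x ≠ 0) (hfix : InertiaFixed A x) :
    IsGUnit A (algebraMap QBar LSer ((q : QBar) ^ (-gOrd A q x)) * x) := by
  obtain ⟨n, hn⟩ := exists_zpow_isGUnit hA hq hx h0 hfix
  rwa [gOrd_eq hA hq hn]

/-- A series with nonzero reduction has order zero. -/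
theorem gOrd_of_isGUnit (hA : A.LiesOverPrime q) (hq : q.Prime) {x : LSer} (hx : IsGUnit A x) :
    gOrd A q x = 0 :=
  gOrd_eq hA hq (by simpa using hx)

/-- The order of a product is the sum of the orders. -/
theorem gOrd_mul (hA : A.LiesOverPrime q) (hq : q.Prime) {x y : LSer} (hx : x ∈ fracS A)
    (hy : y ∈ fracS A) (hx0 : x ≠ 0) (hy0 : y ≠ 0) (hfx : InertiaFixed A x)
    (hfy : InertiaFixed A y) : gOrd A q (x * y) = gOrd A q x + gOrd A q y := by
  refine gOrd_eq hA hq ?_
  rw [neg_add, zpow_add₀ (Nat.cast_ne_zero.mpr hq.ne_zero), map_mul, mul_mul_mul_comm]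
  exact (gOrd_spec hA hq hx hx0 hfx).mul (gOrd_spec hA hq hy hy0 hfy)

end Fermat.Agent.RT.Mazur

end
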