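import Fermat.Agent.FiniteFlat.Instance
import Fermat.Agent.EichlerShimura.Congruence
import Fermat.Agent.Semistable.Spaces
import Fermat.Agent.RT.MazurP.HeckeSeries

/-!
# Hecke correspondences on the reduced curve

At a level `M` invertible in the residue field the reduction of divisors is onto, respects
principal divisors and intertwines the Hecke correspondences with those of the reduced curve.

See `redJ_surjective` and `redJ_hecke`.
-/

set_option autoImplicit false

noncomputable section

open AlgebraicCurve ModularCurve IsLocalRing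
open Fermat.Agent.FiniteFlat Fermat.Agent.Semistable

namespace Fermat.Agent.RT.Mazur

/-- Shortcut: the search through `LaurentSeries` is slow. -/
local instance (priority := 10000) fbAlgebra (N : ℕ) : Algebra Arith.QBar (FB N) :=
  SubalgebraClass.toAlgebra (FB N)

/-! ## Correspondences and divisors of functions -/

section Generic

variable {K F F' : Type*} [Field K] [Field F] [Field F'] [Algebra K F] [Algebra K F']
  [FF.IsFunctionField K F] [FF.IsFunctionField K F']

/-- A correspondence sends the divisor of a function to that of a norm. -/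
theorem correspondence_div (φ ψ : F →ₐ[K] F') {f : F} (hf : f ≠ 0) :
    letI := algebraAlong ψ
    Divisor.correspondence φ ψ (FF.isIntegralAlong φ) (FF.isIntegralAlong ψ) (FF.div K f) =
      FF.div K (Algebra.norm F (φ f)) := by
  let _ := algebraAlong ψ
  rw [Divisor.correspondence_apply]
  refine Finsupp.ext fun v => ?_
  have h1 : Divisor.pullbackAlong φ (FF.isIntegralAlong _) (FF.div K f) = FF.div K (φ f) := by
    ext w
    rw [Divisor.pullbackAlong_apply, FF.div_apply, FF.div_apply, Place.ord_restrictAlong]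
  rw [h1, FF.div_apply]
  exact FF.normFormulaAlong ψ (FF.finiteAlong _) _ ((_root_.map_ne_zero _).mpr hf) _
    (fun w => rfl) v

theorem exists_div_eq {D : Divisor K F} (hD : D ∈ Divisor.principal (K := K) (F := F)) :
    ∃ f : F, f ≠ 0 ∧ D = FF.div K f := by
  obtain ⟨f, hf, h⟩ := hD
  exact ⟨f, hf, Finsupp.ext fun v => (h v).trans (FF.div_apply f v).symm⟩

end Generic

attribute [local instance 2000] Module.Free.of_divisionRing

variable {A : ValuationSubring Arith.QBar} {M : ℕ} [NeZero M] (hM : (M : Res A) ≠ 0)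

/-- Series with primitive denominator lie in the lattice of level `M`. -/
theorem mem_lattice_of_mul_eq (x : FB M) {d p : RedTorsion.serInt A}
    (hd : RedTorsion.serRed A d ≠ 0) (hx : (x : LSer) * (d : LSer) = p) :
    ∃ hm : x ∈ (lattice hM).S,
      (redF (lattice hM) ⟨x, hm⟩ : LaurentSeries (Res A)) * RedTorsion.serRed A d =
        RedTorsion.serRed A p := by
  obtain ⟨hm, hr⟩ := RedTorsion.mem_model_S_of_mul_eq EichlerShimura.hFb hM hd hx
  exact ⟨hm, hr⟩

/-- Integral series as integral series over `A`. -/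
theorem serRed_eq_red (a : intS A) :
    RedTorsion.serRed A ⟨(a : LSer), RedTorsion.mem_serInt.mpr (coeff_mem A a)⟩ = red A a := by
  ext n
  rw [RedTorsion.coeff_serRed, coeff_red]

/-- The local ring on series lies in the lattice, with the same reduction. -/
theorem mem_lattice_of_locS {x : FB M} (hx : (x : LSer) ∈ locS A) :
    ∃ hm : x ∈ (lattice hM).S,
      (redF (lattice hM) ⟨x, hm⟩ : LaurentSeries (Res A)) = redL A ⟨_, hx⟩ := by
  obtain ⟨a, b, hb, hab⟩ := (mem_locS A).mp hx
  obtain ⟨hm, hr⟩ := mem_lattice_of_mul_eq hM x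
    (d := ⟨_, RedTorsion.mem_serInt.mpr (coeff_mem A b)⟩)
    (p := ⟨_, RedTorsion.mem_serInt.mpr (coeff_mem A a)⟩) (by rwa [serRed_eq_red]) hab
  refine ⟨hm, ?_⟩
  rw [redL_eq ⟨_, hx⟩ hb hab, eq_div_iff hb]
  simpa only [serRed_eq_red] using hr

/-! ## Reduction of divisors and classes -/

section Div

variable [FF.IsFunctionField Arith.QBar (FB M)] [FF.IsFunctionField (Res A) (KM A M)]

/-- Reduction of divisors at level `M`. -/
abbrev redD : Divisor Arith.QBar (FB M) →+ Divisor (Res A) (KM A M) :=
  FiniteFlat.redDiv (FiniteFlat.goodRed hM)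

theorem redD_mem_principal {D : Divisor Arith.QBar (FB M)}
    (hD : D ∈ Divisor.principal (K := Arith.QBar) (F := FB M)) :
    redD hM D ∈ Divisor.principal (K := Res A) (F := KM A M) := by
  obtain ⟨f, hf, rfl⟩ := exists_div_eq hD
  obtain ⟨c, g, hc, hg, rfl⟩ := FiniteFlat.exists_primitive (lattice hM) hf
  have hg0 : (g : FB M) ≠ 0 := fun e => hf (by rw [e, smul_zero])
  rw [FiniteFlat.div_smul hc hg0]
  exact (FiniteFlat.redDiv_div (FiniteFlat.goodRed hM) g hg).symm ▸ FF.div_mem_principal hg

theorem exists_place_reduction (Q : Place (Res A) (KM A M)) :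
    ∃ P, FiniteFlat.redPlace (FiniteFlat.goodRed hM) P = Q := by
  obtain ⟨u, -, hu⟩ := FF.exists_uniformizer Q
  obtain ⟨g, rfl⟩ := (lattice hM).surj u
  have hne : redF (lattice hM) g ≠ 0 := fun e => by
    rw [e, Q.ord_zero] at hu
    exact zero_ne_one hu
  by_contra hno
  have h := congrArg (fun D => D Q) (FiniteFlat.redDiv_div (FiniteFlat.goodRed hM) g hne)
  rw [FiniteFlat.redDiv_apply, Finsupp.mapDomain_of_notMem_range _ Q (fun ⟨P, hP⟩ => hno ⟨P, hP⟩),
    FF.div_apply] at h
  exact one_ne_zero (hu.symm.trans h.symm)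

theorem redD_surjective : Function.Surjective (redD hM) :=
  Finsupp.mapDomain_surjective fun Q => exists_place_reduction hM Q

theorem degree_redD (D : Divisor Arith.QBar (FB M)) :
    Divisor.degree (redD hM D) = Divisor.degree D :=
  FiniteFlat.degree_redDiv _ D

/-- Reduction of divisor classes at level `M`. -/
def redJ : JZero M →+ Pic0 (Res A) (KM A M) :=
  QuotientAddGroup.map _ _
    (((redD hM).domRestrict (Divisor.degZero (K := Arith.QBar) (F := FB M))).codRestrict
      (Divisor.degZero (K := Res A) (F := KM A M))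
      fun D => Divisor.mem_degZero.mpr ((degree_redD hM _).trans (Divisor.mem_degZero.mp D.2)))
    fun D hD => by
      rw [AddSubgroup.mem_addSubgroupOf] at hD
      exact redD_mem_principal hM hD

/-- The reduction of the class of a divisor is the class of its reduction. -/
theorem redJ_mk (D : Divisor.degZero (K := Arith.QBar) (F := FB M)) :
    redJ hM (Pic0.mk D) = Pic0.mk ⟨redD hM D, Divisor.mem_degZero.mpr
      ((degree_redD hM _).trans (Divisor.mem_degZero.mp D.2))⟩ := rfl

theorem redJ_surjective : Function.Surjective (redJ hM) := by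
  intro y
  obtain ⟨E, rfl⟩ := Pic0.mk_surjective y
  obtain ⟨D, hD⟩ := redD_surjective hM (E : Divisor (Res A) (KM A M))
  refine ⟨Pic0.mk ⟨D, Divisor.mem_degZero.mpr ?_⟩, ?_⟩
  · rw [← degree_redD hM, hD]
    exact Divisor.mem_degZero.mp E.2
  · rw [redJ_mk]
    exact congrArg Pic0.mk (Subtype.ext hD)

end Div

/-! ## The correspondences on the reduced curve -/

section Maps

variable (A M) (l : ℕ) [NeZero l]

/-- The inclusion of level `M` in level `M l` on the reduced curve. -/
def resAlpha : KM A M →ₐ[Res A] KM A (M * l) where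
  toFun x := ⟨(x : LaurentSeries (Res A)), full_degeneracyC_le _ (dvd_mul_right M l) x.2⟩
  map_one' := rfl
  map_mul' _ _ := rfl
  map_zero' := rfl
  map_add' _ _ := rfl
  commutes' _ := rfl

omit [NeZero M] in
theorem qExpand_mem_KM (x : KM A M) :
    qExpand (Res A) l (x : LaurentSeries (Res A)) ∈ KM A (M * l) := by
  rw [← qExpandAlgHomC_apply]
  exact full_degeneracyC_map_le _ M l ⟨x, x.2, rfl⟩

/-- `q ↦ q^l` from level `M` to level `M l` on the reduced curve. -/
def resBeta : KM A M →ₐ[Res A] KM A (M * l) where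
  toFun x := ⟨qExpand (Res A) l (x : LaurentSeries (Res A)), qExpand_mem_KM A M l x⟩
  map_one' := Subtype.ext (map_one (qExpand (Res A) l))
  map_mul' _ _ := Subtype.ext (map_mul (qExpand (Res A) l) _ _)
  map_zero' := Subtype.ext (map_zero (qExpand (Res A) l))
  map_add' _ _ := Subtype.ext (map_add (qExpand (Res A) l) _ _)
  commutes' c := Subtype.ext ((qExpandAlgHomC (Res A) l).commutes c)

variable {A M l}

omit [NeZero M] in
theorem coe_resBeta (x : KM A M) :
    (resBeta A M l x : LaurentSeries (Res A)) = qExpand (Res A) l (x : LaurentSeries (Res A)) :=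
  rfl

variable (hMl : ((M * l : ℕ) : Res A) ≠ 0)

include hM hMl in
theorem redF_alpha (f : (lattice hM).S) :
    ∃ hm : heckeAlphaBar Arith.QBar M l (f : FB M) ∈ (lattice hMl).S,
      redF (lattice hMl) ⟨_, hm⟩ = resAlpha A M l (redF (lattice hM) f) := by
  obtain ⟨d, p, hd, hfd⟩ := FiniteFlat.exists_series_frac hM f
  obtain ⟨hm, hr⟩ := mem_lattice_of_mul_eq hMl (heckeAlphaBar Arith.QBar M l (f : FB M)) hd hfd
  exact ⟨hm, Subtype.ext (mul_right_cancel₀ hd
    (hr.trans (FiniteFlat.redF_mul_eq hM f hd hfd).symm))⟩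

include hM hMl in
theorem redF_beta (f : (lattice hM).S) :
    ∃ hm : heckeBetaBar Arith.QBar M l (f : FB M) ∈ (lattice hMl).S,
      redF (lattice hMl) ⟨_, hm⟩ = resBeta A M l (redF (lattice hM) f) := by
  obtain ⟨⟨_, d, rfl⟩, ⟨_, p, rfl⟩, hd, hfd⟩ := FiniteFlat.exists_series_frac hM f
  have hd0 : RedTorsion.serRed A ⟨_, d, rfl⟩ ≠ 0 := hd
  replace hd : coeffMap (residue A) d ≠ 0 := fun e =>
    hd0 ((RedTorsion.serRed_coeffMap d _).trans e)
  have hr0 := FiniteFlat.redF_mul_eq hM f (d := ⟨_, d, rfl⟩) (p := ⟨_, p, rfl⟩) hd0 hfd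
  rw [RedTorsion.serRed_coeffMap, RedTorsion.serRed_coeffMap] at hr0
  obtain ⟨hm, hr⟩ := mem_lattice_of_mul_eq hMl (heckeBetaBar Arith.QBar M l (f : FB M))
    (d := ⟨_, qExpand A l d, rfl⟩) (p := ⟨_, qExpand A l p, rfl⟩)
    (by rw [RedTorsion.serRed_coeffMap, coeffMap_qExpand]; exact (_root_.map_ne_zero _).mpr hd)
    (by
      show (heckeBetaBar Arith.QBar M l (f : FB M) : LSer) * coeffMap A.subtype (qExpand A l d) =
        coeffMap A.subtype (qExpand A l p)
      rw [coeffMap_qExpand, coeffMap_qExpand, coe_heckeBetaBar, ← map_mul]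
      exact congrArg _ hfd)
  rw [RedTorsion.serRed_coeffMap, RedTorsion.serRed_coeffMap, coeffMap_qExpand,
    coeffMap_qExpand] at hr
  refine ⟨hm, Subtype.ext (mul_right_cancel₀ ((_root_.map_ne_zero (qExpand (Res A) l)).mpr hd)
    (hr.trans ?_))⟩
  rw [coe_resBeta, ← map_mul, hr0]

variable [FF.IsFunctionField Arith.QBar (FB M)] [FF.IsFunctionField (Res A) (KM A M)]
  [FF.IsFunctionField Arith.QBar (FB (M * l))] [FF.IsFunctionField (Res A) (KM A (M * l))]

include hM hMl in
/-- The inclusions have the same degree. -/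
theorem finrankAlong_resAlpha :
    finrankAlong Arith.QBar (heckeAlphaBar Arith.QBar M l) =
      finrankAlong (Res A) (resAlpha A M l) := by
  let := algebraAlong (heckeAlphaBar Arith.QBar M l)
  let : Module (FB M) (FB (M * l)) := Algebra.toModule
  let := algebraAlong (resAlpha A M l)
  let : Module (KM A M) (KM A (M * l)) := Algebra.toModule
  have : FiniteDimensional (FB M) (FB (M * l)) := FF.finiteAlong (heckeAlphaBar Arith.QBar M l)
  have : FiniteDimensional (KM A M) (KM A (M * l)) := FF.finiteAlong (resAlpha A M l)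
  have hxj : RedTorsion.jF (F := FB (M * l)) EichlerShimura.hFb =
      algebraMap (FB M) (FB (M * l)) (RedTorsion.jF (F := FB M) EichlerShimura.hFb) :=
    Subtype.ext rfl
  have hkj : RedTorsion.jF (K := Res A) (N := M * l) (F := KM A (M * l)) rfl =
      algebraMap (KM A M) (KM A (M * l)) (RedTorsion.jF (K := Res A) (N := M) (F := KM A M) rfl) :=
    Subtype.ext rfl
  have e1 := (FF.finite_and_finrank_adjoin_algebraMap (F' := FB (M * l))
    (RedTorsion.transcendental_jF (F := FB M) EichlerShimura.hFb)).2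
  have e2 := (FF.finite_and_finrank_adjoin_algebraMap (F' := KM A (M * l))
    (RedTorsion.transcendental_jF (K := Res A) (N := M) (F := KM A M) rfl)).2
  rw [← hxj, ← FiniteFlat.finrank_residue_j hMl, hkj, e2, FiniteFlat.finrank_residue_j hM] at e1
  have := RedTorsion.finiteDimensional_jF (F := FB M) EichlerShimura.hFb
    (Nat.cast_ne_zero.mpr (NeZero.ne M))
  exact (mul_left_cancel₀ Module.finrank_pos.ne' e1).symm

variable (A M l) in
/-- The Hecke correspondence on divisors of the reduced curve. -/
def resT : Divisor (Res A) (KM A M) →+ Divisor (Res A) (KM A M) :=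
  Divisor.correspondence (resBeta A M l) (resAlpha A M l)
    (FF.isIntegralAlong _) (FF.isIntegralAlong _)

variable (A M l) in
/-- The Hecke operator on the classes of the reduced curve. -/
def resTJ : Pic0 (Res A) (KM A M) →+ Pic0 (Res A) (KM A M) :=
  Pic0.correspondence (resBeta A M l) (resAlpha A M l)
    (FF.isIntegralAlong _) (FF.isIntegralAlong _) (FF.fundamentalIdentityAlong _ _)
    (FF.finiteAlong _) (FF.normFormulaAlong _ _)

omit [FF.IsFunctionField Arith.QBar ↥(FB M)] [FF.IsFunctionField Arith.QBar ↥(FB (M * l))] in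
/-- The Hecke operator on classes is induced by the correspondence on divisors. -/
theorem resTJ_mk (D : Divisor.degZero (K := Res A) (F := KM A M)) :
    resTJ A M l (Pic0.mk D) = Pic0.mk (Pic0.degZeroCorrespondence (resBeta A M l) (resAlpha A M l)
      (FF.isIntegralAlong _) (FF.isIntegralAlong _) (FF.fundamentalIdentityAlong _ _) D) :=
  rfl

variable (A M l) in
/-- The norm defining the correspondence on the reduced curve. -/
def resNorm (z : KM A M) : KM A M :=
  letI := algebraAlong (resAlpha A M l)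
  Algebra.norm (KM A M) (resBeta A M l z)

omit [FF.IsFunctionField Arith.QBar ↥(FB M)] [FF.IsFunctionField Arith.QBar ↥(FB (M * l))] in
/-- The correspondence sends the divisor of `z` to the divisor of its norm. -/
theorem resT_div {z : KM A M} (hz : z ≠ 0) :
    resT A M l (FF.div (Res A) z) = FF.div (Res A) (resNorm A M l z) :=
  correspondence_div _ _ hz

omit [FF.IsFunctionField Arith.QBar ↥(FB M)] [FF.IsFunctionField Arith.QBar ↥(FB (M * l))] in
/-- The norm of a nonzero function is nonzero. -/
theorem resNorm_ne_zero {z : KM A M} (hz : z ≠ 0) : resNorm A M l z ≠ 0 := by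
  let := algebraAlong (resAlpha A M l)
  let : Module (KM A M) (KM A (M * l)) := Algebra.toModule
  have : Module.Finite (KM A M) (KM A (M * l)) := FF.finiteAlong (resAlpha A M l)
  exact Algebra.norm_ne_zero_iff.mpr ((_root_.map_ne_zero (resBeta A M l)).mpr hz)

include hMl in
/-- The Hecke norm reduces to the norm on the reduced curve. -/
theorem redF_heckeNorm (f : (lattice hM).S) :
    ∃ hm : MazurP.heckeNorm M l (f : FB M) ∈ (lattice hM).S,
      redF (lattice hM) ⟨_, hm⟩ = resNorm A M l (redF (lattice hM) f) := by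
  obtain ⟨hb, hb'⟩ := redF_beta hM hMl f
  have hfr := finrankAlong_resAlpha (l := l) hM hMl
  let := algebraAlong (heckeAlphaBar Arith.QBar M l)
  let : Module (FB M) (FB (M * l)) := Algebra.toModule
  let := algebraAlong (resAlpha A M l)
  let : Module (KM A M) (KM A (M * l)) := Algebra.toModule
  have : FiniteDimensional (KM A M) (KM A (M * l)) := FF.finiteAlong (resAlpha A M l)
  have hC : LatticeCompat (lattice hM) (lattice hMl) := fun g => redF_alpha hM hMl g
  obtain ⟨hm, hr⟩ := FiniteFlat.exists_redF_norm hC hfr ⟨_, hb⟩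
  refine ⟨hm, hr.trans ?_⟩
  rw [hb']
  rfl

/-- The Hecke correspondence on divisors at level `M`. -/
abbrev barT (M l : ℕ) [NeZero M] [NeZero l] [FF.IsFunctionField Arith.QBar (FB M)]
    [FF.IsFunctionField Arith.QBar (FB (M * l))] :
    Divisor Arith.QBar (FB M) →+ Divisor Arith.QBar (FB M) :=
  Divisor.correspondence (heckeBetaBar Arith.QBar M l) (heckeAlphaBar Arith.QBar M l)
    (FF.isIntegralAlong _) (FF.isIntegralAlong _)

include hMl in
/-- Reduction intertwines the correspondences on divisors of degree zero. -/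
theorem redD_barT (D : Divisor Arith.QBar (FB M))
    (hD : D ∈ Divisor.degZero (K := Arith.QBar) (F := FB M)) :
    redD hM (barT M l D) = resT A M l (redD hM D) := by
  let δ : Divisor Arith.QBar (FB M) →+ Divisor (Res A) (KM A M) :=
    (redD hM).comp (barT M l) - (resT A M l).comp (redD hM)
  refine sub_eq_zero.mp (EichlerShimura.eq_zero_of_degree_zero hM δ (fun E hE => ?_) D hD)
  obtain ⟨y, hy, hyk, hne, rfl⟩ := EichlerShimura.exists_eq_div hE
  obtain ⟨hm, hr⟩ := FiniteFlat.seriesCompat hM y hy
  set f : (lattice hM).S := ⟨⟨_, hy⟩, hm⟩ with hfdef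
  have hf : redF (lattice hM) f ≠ 0 := fun e => hne (hr.symm.trans (congrArg Subtype.val e))
  have hf0 : (f : FB M) ≠ 0 := fun e => hf (by
    rw [show f = 0 from Subtype.ext e, map_zero])
  obtain ⟨hm', hr'⟩ := redF_heckeNorm hM hMl f
  have hN0 : redF (lattice hM) ⟨_, hm'⟩ ≠ 0 := hr' ▸ resNorm_ne_zero hf
  show redD hM (barT M l (FF.div _ (f : FB M))) - resT A M l (redD hM (FF.div _ (f : FB M))) = 0
  rw [show redD hM (FF.div _ (f : FB M)) = FF.div (Res A) (redF (lattice hM) f) from
      FiniteFlat.redDiv_div (FiniteFlat.goodRed hM) f hf, resT_div hf, sub_eq_zero,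
    show barT M l (FF.div _ (f : FB M)) = FF.div _ (MazurP.heckeNorm M l (f : FB M)) from
      correspondence_div _ _ hf0, ← hr']
  exact FiniteFlat.redDiv_div (FiniteFlat.goodRed hM) ⟨_, hm'⟩ hN0

include hMl in
/-- Reduction intertwines the Hecke operators. -/
theorem redJ_hecke (hl : l.Prime) (x : JZero M) :
    redJ hM (heckeOperatorBar M ⟨l, hl⟩ x) = resTJ A M l (redJ hM x) := by
  obtain ⟨D, rfl⟩ := Pic0.mk_surjective x
  have hop : heckeOperatorBar M ⟨l, hl⟩ (Pic0.mk D) = Pic0.mk (Pic0.degZeroCorrespondence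
      (heckeBetaBar Arith.QBar M l) (heckeAlphaBar Arith.QBar M l) (FF.isIntegralAlong _)
      (FF.isIntegralAlong _) (FF.fundamentalIdentityAlong _ _) D) := by
    refine (heckeOperatorBar_apply M ⟨l, hl⟩ _).trans ?_
    exact DFunLike.congr_fun (heckeOperatorAlong_eq (L := Arith.QBar) (N := M) (ℓ := l)
      (FF.isIntegralAlong _) (FF.isIntegralAlong _) (FF.fundamentalIdentityAlong _ _)
      (FF.finiteAlong _) (FF.normFormulaAlong _ _)) _
  rw [hop, redJ_mk, redJ_mk, resTJ_mk]
  exact congrArg Pic0.mk (Subtype.ext (redD_barT hM hMl D D.2))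

variable {q : ℕ}

include hM hMl in
/-- The norm on the reduced curve has the expansion of the Hecke image. -/
theorem resNorm_series (hA : A.LiesOverPrime q) (hq : q.Prime) (hl : l.Prime) (hlM : ¬ l ∣ M)
    (hlq : ¬ q ∣ l) (z : KM A M) :
    MazurP.IsHeckeImage l (z : LaurentSeries (Res A))
    (resNorm A M l z : LaurentSeries (Res A)) := by
  obtain ⟨x, hx⟩ := red1_surjective M hM z.2
  have hxL : ((x : FB M) : LSer) ∈ locS A := (mem_loc1 M).mp x.2
  rw [red1_eq] at hx
  obtain ⟨hm, hr⟩ := mem_lattice_of_locS hM hxL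
  have hf : redF (lattice hM) ⟨_, hm⟩ = z := Subtype.ext (hr.trans hx)
  obtain ⟨hm', hr'⟩ := redF_heckeNorm hM hMl ⟨_, hm⟩
  rw [hf] at hr'
  intro η hη
  obtain ⟨ζ, hζ, rfl⟩ := MazurP.exists_resRoot hA hq hlq η hη
  obtain ⟨hN, hN'⟩ := MazurP.heckeProd_mem_locS hζ.pow_eq_one hxL
  have hq' := MazurP.qExpand_heckeNorm hl hlM hζ (x : FB M)
  obtain ⟨hy, hy'⟩ := MazurP.locS_of_qExpand (l := l) hA hq
    (y := (MazurP.heckeNorm M l (x : FB M) : LSer)) (Semistable.mem_fracS_of_mem _) (hq' ▸ hN)
  obtain ⟨hm'', hr''⟩ := mem_lattice_of_locS hM hy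
  rw [← hr', hr'', hy', redL_congr _ hN hq', hN', hx]

end Maps

end Fermat.Agent.RT.Mazur
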