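import Fermat.Agent.Semistable.Classes
import Fermat.Agent.RT.Mazur.OrdersBasic

/-!
# Pairs of expansions with bounded poles

Powers of `j` in both expansions at level `q M` and their cancellation in the spaces of bounded
poles, the existence of meeting points, and: reductions of constant shape are diagonal.
-/

set_option autoImplicit false

noncomputable section

namespace Fermat.Agent.RT.Mazur

open ModularCurve AlgebraicCurve Polynomial
open Fermat.Agent.Semistable Fermat.Agent.Arith

-- these only shorten instance searches (the instances found are unchanged)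
attribute [-instance] RingHom.Finite.instFinite IsScalarTower.left IsScalarTower.of_algHom
  Submodule.idemSemiring
  Submodule.instIdemCommSemiring
attribute [local instance 3000] Semistable.instAlgebraKM
attribute [local instance 2000] HahnSeries.powerSeriesAlgebra SubalgebraClass.toAlgebra
  Module.Free.of_divisionRing RingHom.instRingHomClass RingHomClass.toAddMonoidHomClass
  RingHomClass.toNonUnitalRingHomClass

variable {A : ValuationSubring QBar} {q : ℕ} [hq : Fact q.Prime] [CharP (Res A) q]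
  {M : ℕ} [NeZero M] [FF.IsFunctionField (Res A) (KM A M)]

variable (h : Setup A M q)

theorem pi_smul_apply' (c : Res A) (r : Fin 2 → LaurentSeries (Res A)) (s : Fin 2) :
    (c • r) s = algebraMap (Res A) (LaurentSeries (Res A)) c * r s := by
  rw [Pi.smul_apply, Igusa.hsmul_eq]

theorem mul_pi_smul (c : Res A) (r r' : Fin 2 → LaurentSeries (Res A)) :
    r * (c • r') = c • (r * r') := by
  funext s
  rw [Pi.mul_apply, pi_smul_apply', pi_smul_apply', Pi.mul_apply]
  exact mul_left_comm _ _ _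

/-- Multiplication of pairs by a pair. -/
def mulPair (r : Fin 2 → LaurentSeries (Res A)) :
    (Fin 2 → LaurentSeries (Res A)) →ₗ[Res A] (Fin 2 → LaurentSeries (Res A)) where
  toFun x := r * x
  map_add' := mul_add r
  map_smul' c x := mul_pi_smul c r x

/-- The `k`-th power of `j` in both expansions. -/
def jPow (A : ValuationSubring QBar) (q k : ℕ) [NeZero q] : Fin 2 → LaurentSeries (Res A) :=
  ![jqModC (Res A) ^ k, qExpand (Res A) q (jqModC (Res A)) ^ k]

omit [CharP (Res A) q] in
/-- Powers of `j` in both expansions add their exponents. -/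
theorem jPow_add (a b : ℕ) : jPow A q (a + b) = jPow A q a * jPow A q b := by
  funext s; fin_cases s <;> simp [jPow, pow_add]

omit [CharP (Res A) q] in
/-- The power `j ^ (a b)` in both expansions is the `b`-th power of `j ^ a`. -/
theorem jPow_mul (a b : ℕ) : jPow A q (a * b) = jPow A q a ^ b := by
  funext s; fin_cases s <;> simp [jPow, pow_mul]

omit [CharP (Res A) q] in
/-- Powers of `j` have nonzero expansions on both sides. -/
theorem jPow_ne_zero (k : ℕ) (s : Fin 2) : jPow A q k s ≠ 0 := by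
  have hj : jqModC (Res A) ≠ 0 := fun h =>
    RedTorsion.transcendental_jqModC (Res A) (h ▸ isAlgebraic_zero)
  fin_cases s
  · exact pow_ne_zero k hj
  · exact pow_ne_zero k ((_root_.map_ne_zero _).mpr hj)

omit [NeZero M] [FF.IsFunctionField (Res A) ↥(KM A M)] in
theorem jPow_apply (k : ℕ) (s : Fin 2) :
    jPow A q k s = (((jK A M) ^ (sideDeg q s * k) : KM A M) : LaurentSeries (Res A)) := by
  rw [IntermediateField.coe_pow, coe_jK]
  fin_cases s
  · simp [jPow, sideDeg]
  · show qExpand (Res A) q (jqModC (Res A)) ^ k = jqModC (Res A) ^ (q * k)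
    rw [pow_mul, pow_eq_qExpand_gen_one]

omit [NeZero M] in
/-- `j ^ k` has poles bounded by `k` times the cusps on the reduced curve. -/
theorem jK_pow_mem_Hk (k : ℕ) : jK A M ^ k ∈ Hk A M k := by
  induction k with
  | zero => rw [pow_zero]; exact one_mem_polesSpace _ _
  | succ k ih =>
    rw [pow_succ]
    refine mul_mem_polesSpace ih ?_
    rw [RedTorsion.mem_polesSpace]
    intro v
    refine FF.mem_ordGe_of_le v ?_
    rw [FF.poles_apply, Nat.cast_one, one_mul]
    omega

omit hq [CharP (Res A) q] [NeZero M] in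
/-- The bounds on the poles of pairs add under multiplication. -/
theorem mul_mem_Pk {a b : ℕ} {r r' : Fin 2 → LaurentSeries (Res A)} (hr : r ∈ Pk A M q a)
    (hr' : r' ∈ Pk A M q b) : r * r' ∈ Pk A M q (a + b) := by
  rw [mem_Pk] at hr hr' ⊢
  obtain ⟨h0, h0'⟩ := (mem_HkS A M).mp hr.1
  obtain ⟨h1, h1'⟩ := (mem_HkS A M).mp hr.2
  obtain ⟨g0, g0'⟩ := (mem_HkS A M).mp hr'.1
  obtain ⟨g1, g1'⟩ := (mem_HkS A M).mp hr'.2
  rw [mul_add]
  exact ⟨coe_mem_HkS.mpr (mul_mem_polesSpace h0' g0'), coe_mem_HkS.mpr (mul_mem_polesSpace h1' g1')⟩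

omit [NeZero M] in
/-- The pair of expansions of `j ^ k` satisfies the bound `k`. -/
theorem jPow_mem_Pk (k : ℕ) : jPow A q k ∈ Pk A M q k := by
  rw [mem_Pk, jPow_apply (M := M), jPow_apply (M := M)]
  exact ⟨coe_mem_HkS.mpr (by simpa [sideDeg] using jK_pow_mem_Hk k),
    coe_mem_HkS.mpr (by simpa [sideDeg] using jK_pow_mem_Hk (q * k))⟩

omit [NeZero M] in
/-- Cancelling a power of `j` lowers the pole bounds. -/
theorem cancel_jPow {a a' b k : ℕ} {r : Fin 2 → LaurentSeries (Res A)} (hr : r ∈ Pk A M q a)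
    (hkr : jPow A q k * r ∈ Pk A M q b) (hb : b ≤ k + a') : r ∈ Pk A M q a' := by
  have key : ∀ s, r s ∈ HkS A M (sideDeg q s * a') := by
    intro s
    rw [Pk, Submodule.mem_pi] at hr hkr
    obtain ⟨h0, h0'⟩ := (mem_HkS A M).mp (hr s trivial)
    obtain ⟨g0, g0'⟩ := (mem_HkS A M).mp (hkr s trivial)
    refine (mem_HkS A M).mpr ⟨h0, cancel_poles (μ := jK A M ^ (sideDeg q s * k))
      (e := sideDeg q s * k) (fun v hv => ⟨pow_ne_zero _ fun h => by simp [h] at hv, ?_⟩)
      (b' := sideDeg q s * b) (by rw [← mul_add]; exact Nat.mul_le_mul_left _ hb) h0' ?_⟩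
    · rw [FF.ord_pow]
    · convert g0' using 1
      exact Subtype.ext (by
        rw [IntermediateField.coe_mul, ← jPow_apply (M := M)]
        rfl)
  rw [Pk, Submodule.mem_pi]
  exact fun s _ => key s

/-- The meeting points exist when the genus at level `q M` is large enough. -/
theorem nonempty_pt_of_genus_ineq (hid : ((q : ℤ) - 1) * dedekindPsi M ≤
    12 * ((genusFF QBar (FB (q * M)) : ℤ) + 1 - 2 * genusFF QBar (FB M))) : Nonempty (Pt h) := by
  obtain ⟨n₁, hfin, hn₁⟩ := h.exists_gap
  obtain ⟨n₂, hn₂⟩ := exists_finrank_eq (A := A) M q h.hM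
  have hn : n₂ ≤ n₁ + n₂ := Nat.le_add_left _ _
  obtain ⟨a1, a2, a3⟩ := hn₂ _ hn
  obtain ⟨-, -, b3⟩ := hn₂ (q * (n₁ + n₂)) (hn.trans (Nat.le_mul_of_pos_left _ hq.out.pos))
  have hle : (genusFF (Res A) (KM A M) : ℤ) ≤ genusFF QBar (FB M) := by
    obtain ⟨hf, hd⟩ := finrank_redSub q h.hA (iota1 M) (fun _ x => mem_fracS_of_mem x)
      (HM M (n₁ + n₂))
    let pr : (Unit → LaurentSeries (Res A)) →ₗ[Res A] LaurentSeries (Res A) := LinearMap.proj ()
    have hp : Function.Injective pr := fun a b e => funext fun _ => e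
    have hsub : (redSub A (iota1 M) (HM M (n₁ + n₂))).map pr ≤ HkS A M (n₁ + n₂) := by
      rintro _ ⟨s, hs, rfl⟩
      obtain ⟨x, hx, rfl⟩ := mem_redSub.mp hs
      exact red1_mem_HkS M q h.hA h.hM hx
    have : FiniteDimensional (Res A) (HkS A M (n₁ + n₂)) := by unfold HkS; infer_instance
    have e := Submodule.finrank_mono hsub
    rw [← (Submodule.equivMapOfInjective pr hp _).finrank_eq, hd, finrank_HkS] at e
    omega
  have hψ : (dedekindPsi (q * M) : ℤ) = (q + 1) * dedekindPsi M := by
    rw [Gamma0.dedekindPsi_mul_of_not_dvd hq.out h.hqM]; push_cast; ring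
  obtain ⟨-, hdim⟩ := hn₁ _ (Nat.le_add_right n₁ n₂)
  rw [Module.finrank_prod, (finrank_Bn M q h.hqM h.hA _).2] at hdim
  have hpos : (0 : ℤ) < ((q : ℤ) - 1) * dedekindPsi M :=
    mul_pos (by have := hq.out.two_le; omega) (by exact_mod_cast dedekindPsi_pos M)
  obtain ⟨hfin', hcard, -⟩ := h.bijective_pt
  refine (Nat.card_pos_iff.mp (Nat.pos_of_ne_zero fun h0 => ?_)).1
  rw [hcard] at h0
  rw [h0, add_zero] at hdim
  rw [hψ] at a2
  push_cast at b3
  push_cast at a2 a3
  nlinarith

/-- The meeting points exist if `4` or `9` divides `M`. -/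
theorem nonempty_pt_of_dvd {L : ℕ} (hL : L = 4 ∨ L = 9) (hd : L ∣ M) : Nonempty (Pt h) :=
  nonempty_pt_of_genus_ineq h (genus_identity_of_dvd (M := M) h.hqM hL hd).ge

/-- Reductions of constant shape are diagonal. -/
theorem exists_smul_one_of_nonempty [Nonempty (Pt h)] : ∃ n₀ : ℕ, ∀ n, n₀ ≤ n →
    ∀ r ∈ Bn A M q h.hqM n, r ∈ Pk A M q 0 → ∃ β : Res A, r = β • 1 := by
  have := Arith.residueField_isAlgClosed A
  obtain ⟨n₁, hn₁⟩ := h.exists_glued
  obtain ⟨χ⟩ := ‹Nonempty (Pt h)›
  refine ⟨n₁, fun n hn r hr hr0 => ?_⟩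
  rw [mem_Pk, mul_zero] at hr0
  have hconst : ∀ z ∈ HkS A M 0, ∃ b : Res A, z = algebraMap (Res A) _ b := by
    intro z hz
    obtain ⟨hz0, hz'⟩ := (mem_HkS A M).mp hz
    have h1 : Module.finrank (Res A) (riemannRochSpace (0 : Divisor (Res A) (KM A M))) = 1 :=
      by
        have := FF.ell_zero (K := Res A) (F := KM A M)
        simp only [FF.ell] at this
        exact_mod_cast this
    have hone : (1 : KM A M) ∈ riemannRochSpace (0 : Divisor (Res A) (KM A M)) := by
      have := one_mem_polesSpace (K := Res A) (jK A M) 0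
      rwa [zero_nsmul] at this
    rw [Hk, zero_nsmul] at hz'
    obtain ⟨b, hb⟩ := exists_smul_eq_of_finrank_eq_one h1
      (x := (⟨1, hone⟩ : riemannRochSpace (0 : Divisor (Res A) (KM A M))))
      (fun e => one_ne_zero (congrArg Subtype.val e)) ⟨_, hz'⟩
    refine ⟨b, ?_⟩
    have e := congrArg (fun x : riemannRochSpace (0 : Divisor (Res A) (KM A M)) => (x : KM A M)) hb
    simp only [Submodule.coe_smul] at e
    rw [← Algebra.algebraMap_eq_smul_one] at e
    exact (congrArg Subtype.val e).symm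
  obtain ⟨b0, hb0⟩ := hconst _ hr0.1
  obtain ⟨b1, hb1⟩ := hconst _ hr0.2
  have e : r = ![serR A M (algebraMap (Res A) _ b0), serR A M (algebraMap (Res A) _ b1)] := by
    rw [serR_algebraMap, serR_algebraMap, ← hb0, ← hb1]
    funext s; fin_cases s <;> rfl
  have hrel := h.rel_of_glued (c := 1) (n := n) (by rw [(hn₁ n hn).2, ← e]; exact hr) χ
  rw [AlgHom.commutes, AlgHom.commutes, Pi.one_apply, one_mul, Algebra.algebraMap_self,
    RingHom.id_apply, RingHom.id_apply] at hrel
  refine ⟨b0, funext fun s => ?_⟩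
  rw [Pi.smul_apply, Pi.one_apply, Igusa.hsmul_eq, mul_one]
  fin_cases s
  · exact hb0
  · exact hb1.trans (by rw [hrel])

end Fermat.Agent.RT.Mazur

end
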