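import Fermat.Agent.Mazur.Eisenstein.HeckeCommute

/-!
# The Hecke algebra of cusp forms acting on `J₀(N)`

An equivariant endomorphism of `J₀(N)(ℚ̄)` killing all torsion is zero, so the action of the Hecke
correspondences on torsion determines them: the Hecke algebra of cusp forms of weight two acts on
`J₀(N)(ℚ̄)`.
-/

set_option autoImplicit false

noncomputable section

open AlgebraicCurve ModularCurve CongruenceSubgroup Fermat.Agent.GaloisReps
open Fermat.Agent.JacTorsion (torsionEquiv)

namespace Fermat.Agent.RT.Mazur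

variable {N : ℕ} [NeZero N]

/-- An equivariant endomorphism killing the torsion is zero. -/
theorem eq_zero_of_kills_torsion (f : Module.End ℤ (JZero N))
    (hg : ∀ (σ : Arith.GQ) (x : JZero N), σ • f x = f (σ • x))
    (htor : ∀ (m : ℕ) (x : JZero N), 0 < m → m • x = 0 → f x = 0) : f = 0 := by
  refine LinearMap.ext fun x => ?_
  obtain ⟨L, hL, hfix⟩ := (MordellWeil.x0GalAct N).exists_field_fix x
  let S : AddSubgroup (JZero N) :=
    { carrier := {y | ∀ σ : Arith.GQ, (∀ q ∈ L, σ q = q) → σ • y = y}
      add_mem' := fun ha hb σ hσ => by rw [smul_add, ha σ hσ, hb σ hσ]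
      zero_mem' := fun σ _ => smul_zero σ
      neg_mem' := fun ha σ hσ => by rw [smul_neg, ha σ hσ] }
  refine Fermat.Agent.Mazur.Eisenstein.eq_zero_of_divisible (MordellWeil.x0GalAct N) L S
    (fun y hy σ hσ => hy σ hσ) fun m hm => ?_
  obtain ⟨z, hz⟩ := MordellWeil.jZero_exists_nsmul_eq N m hm x
  refine ⟨f z, fun σ hσ => ?_, by rw [← map_nsmul, hz]⟩
  rw [hg, ← sub_eq_zero, ← map_sub]
  refine htor m _ hm ?_
  rw [nsmul_sub, show m • σ • z = σ • (m • z) from
    (map_nsmul (DistribSMul.toAddMonoidHom (JZero N) σ) m z).symm, hz]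
  exact sub_eq_zero.mpr (hfix σ hσ)

variable (N) in
/-- Coordinates of a torsion class in the lattice. -/
def tCoord (m : ℕ) [NeZero m]
    (x : Pic0.torsion (AlgebraicClosure ℚ) (modularFunctionFieldBar N) m) :
    Fin (2 * Gamma0.genus N) → ZMod m :=
  coord N (ZMod m) ((torsionEquiv N m).trans (atkinEquiv N (ZMod m)) x).1

/-- A torsion class is determined by its coordinates. -/
theorem tCoord_injective (m : ℕ) [NeZero m] : Function.Injective (tCoord N m) := fun _ _ h =>
  ((torsionEquiv N m).trans (atkinEquiv N (ZMod m))).injective ((coord_bijective (ZMod m)).1 h)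

/-- The coordinates are surjective. -/
theorem tCoord_surjective (m : ℕ) [NeZero m] : Function.Surjective (tCoord N m) := fun v => by
  obtain ⟨y, hy⟩ := (coord_bijective (N := N) (ZMod m)).2 v
  obtain ⟨x, hx⟩ := ((torsionEquiv N m).trans (atkinEquiv N (ZMod m))).surjective y
  exact ⟨x, by rw [tCoord, hx]; exact hy⟩

/-- `T_l` acts on the coordinates of torsion classes by its matrix modulo `m`. -/
theorem tCoord_hecke (m : ℕ) [NeZero m] (l : ℕ) (hl : l.Prime)
    (x y : Pic0.torsion (AlgebraicClosure ℚ) (modularFunctionFieldBar N) m)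
    (hxy : (y : JZero N) = heckeOperatorBar N ⟨l, hl⟩ (x : JZero N)) :
    tCoord N m y = ((opMat N l hl).map (Int.castRingHom (ZMod m))).mulVec (tCoord N m x) :=
  (congrArg (coord N (ZMod m)) (atkinHom_torsionEquiv_hecke l hl x y hxy)).trans
    (coord_homOp l hl ((torsionEquiv N m).trans (atkinEquiv N (ZMod m)) x).2)

/-- The endomorphism `f` is the action of `t`. -/
structure IsAction (t : FullHecke N) (f : Module.End ℤ (JZero N)) : Prop where
  galois : ∀ (σ : Arith.GQ) (x : JZero N), σ • f x = f (σ • x)
  coord_eq : ∀ (m : ℕ) [NeZero m]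
    (x y : Pic0.torsion (AlgebraicClosure ℚ) (modularFunctionFieldBar N) m),
    (y : JZero N) = f (x : JZero N) →
      tCoord N m y = ((latticeMat N t).map (Int.castRingHom (ZMod m))).mulVec (tCoord N m x)

/-- The image of a torsion class. -/
def imTors (f : Module.End ℤ (JZero N)) {m : ℕ}
    (x : Pic0.torsion (AlgebraicClosure ℚ) (modularFunctionFieldBar N) m) :
    Pic0.torsion (AlgebraicClosure ℚ) (modularFunctionFieldBar N) m :=
  ⟨f (x : JZero N), Pic0.mem_torsion.mpr (by
    rw [← map_zsmul, Pic0.mem_torsion.mp x.2, map_zero])⟩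

theorem IsAction.unique {t : FullHecke N} {f g : Module.End ℤ (JZero N)} (hf : IsAction t f)
    (hg : IsAction t g) : f = g := by
  refine sub_eq_zero.mp (eq_zero_of_kills_torsion (f - g) (fun σ x => ?_) fun m x hm hx => ?_)
  · rw [LinearMap.sub_apply, LinearMap.sub_apply, smul_sub, hf.galois, hg.galois]
  · have : NeZero m := ⟨hm.ne'⟩
    let x' : Pic0.torsion (AlgebraicClosure ℚ) (modularFunctionFieldBar N) m :=
      ⟨x, Pic0.mem_torsion.mpr (by rw [natCast_zsmul]; exact hx)⟩
    have h : imTors f x' = imTors g x' := tCoord_injective m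
      ((hf.coord_eq m x' _ rfl).trans (hg.coord_eq m x' _ rfl).symm)
    exact sub_eq_zero.mpr (congrArg Subtype.val h)

theorem IsAction.add {t t' : FullHecke N} {f f' : Module.End ℤ (JZero N)} (hf : IsAction t f)
    (hf' : IsAction t' f') : IsAction (t + t') (f + f') where
  galois σ x := by rw [LinearMap.add_apply, LinearMap.add_apply, smul_add, hf.galois, hf'.galois]
  coord_eq m _ x y hy := by
    have e : y = imTors f x + imTors f' x := Subtype.ext hy
    rw [map_add, Matrix.map_add _ (map_add _), Matrix.add_mulVec,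
      ← hf.coord_eq m x (imTors f x) rfl, ← hf'.coord_eq m x (imTors f' x) rfl, e]
    simp only [tCoord, map_add, AddSubgroup.coe_add]

theorem IsAction.mul {t t' : FullHecke N} {f f' : Module.End ℤ (JZero N)} (hf : IsAction t f)
    (hf' : IsAction t' f') : IsAction (t * t') (f * f') where
  galois σ x := by rw [Module.End.mul_apply, Module.End.mul_apply, hf.galois, hf'.galois]
  coord_eq m _ x y hy := by
    rw [map_mul, Matrix.map_mul, ← Matrix.mulVec_mulVec, ← hf'.coord_eq m x (imTors f' x) rfl]
    exact hf.coord_eq m (imTors f' x) y hy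

theorem isAction_intCast (r : ℤ) : IsAction (r : FullHecke N) (r : Module.End ℤ (JZero N)) where
  galois σ x := by
    rw [Module.End.intCast_apply, Module.End.intCast_apply]
    exact map_zsmul (DistribSMul.toAddMonoidHom (JZero N) σ) r x
  coord_eq m _ x y hy := by
    have e : y = r • x := Subtype.ext (hy.trans (by rw [Module.End.intCast_apply]; rfl))
    rw [e, map_intCast, ← RingHom.mapMatrix_apply, map_intCast]
    simp only [tCoord, map_zsmul, AddSubgroup.coe_zsmul]
    rw [← Matrix.diagonal_intCast]
    funext i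
    rw [Matrix.mulVec_diagonal, Pi.smul_apply, zsmul_eq_mul]

theorem isAction_heckeOp (l : ℕ) (hl : l.Prime) :
    IsAction (HeckeDuality.heckeOp N 2 l hl) (heckeOperatorBar N ⟨l, hl⟩) where
  galois σ x := galois_heckeOperatorBar N ⟨l, hl⟩ σ x
  coord_eq m _ x y hy := by rw [latticeMat_heckeOp]; exact tCoord_hecke m l hl x y hy

theorem exists_isAction (t : FullHecke N) : ∃ f, IsAction t f := by
  obtain ⟨x, hx⟩ := t
  refine Algebra.adjoin_induction
    (p := fun y hy => ∃ f, IsAction (⟨y, hy⟩ : FullHecke N) f) ?_ ?_ ?_ ?_ hx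
  · rintro y (⟨l, hl, hlN, -, rfl⟩ | ⟨l, hlN, hl, -, rfl⟩) <;>
    · have h := isAction_heckeOp (N := N) l hl
      rw [HeckeDuality.heckeOp] at h
      first
        | (rw [dif_neg hlN] at h; exact ⟨_, h⟩)
        | (rw [dif_pos hlN] at h; exact ⟨_, h⟩)
  · intro r
    have h : ∃ f, IsAction (algebraMap ℤ (FullHecke N) r) f := by
      rw [eq_intCast]; exact ⟨_, isAction_intCast r⟩
    exact h
  · rintro a b ha hb ⟨f, hf⟩ ⟨g, hg⟩
    exact ⟨f + g, hf.add hg⟩
  · rintro a b ha hb ⟨f, hf⟩ ⟨g, hg⟩
    exact ⟨f * g, hf.mul hg⟩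

/-- The chosen endomorphism is the action of `t`. -/
theorem isAction_choose (t : FullHecke N) : IsAction t (exists_isAction t).choose :=
  (exists_isAction t).choose_spec

variable (N) in
/-- **The Hecke algebra of cusp forms acts on `J₀(N)`.** -/
def heckeAct : FullHecke N →+* Module.End ℤ (JZero N) where
  toFun t := (exists_isAction t).choose
  map_one' := (isAction_choose 1).unique (by simpa using isAction_intCast (N := N) 1)
  map_mul' a b := (isAction_choose _).unique ((isAction_choose a).mul (isAction_choose b))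
  map_zero' := (isAction_choose 0).unique (by simpa using isAction_intCast (N := N) 0)
  map_add' a b := (isAction_choose _).unique ((isAction_choose a).add (isAction_choose b))

/-- The Hecke operator of the cusp form algebra acts as the Hecke correspondence. -/
theorem heckeAct_heckeOp (l : ℕ) (hl : l.Prime) :
    heckeAct N (HeckeDuality.heckeOp N 2 l hl) = heckeOperatorBar N ⟨l, hl⟩ :=
  (isAction_choose _).unique (isAction_heckeOp l hl)

end Fermat.Agent.RT.Mazur
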