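import Fermat.Agent.RT.Mazur.OrdersSides
import Fermat.Agent.FiniteFlat.Instance
import Fermat.Agent.Arith.ResidueLift
import Fermat.Agent.RT.Mazur.FixedBasis

/-!
# Orders of the reductions of a Kummer function at level `q M`

Here `X₀(M)` has no elliptic points, as is the case when `4 ∣ M` or `9 ∣ M`.
If `div f` is divisible by `m`, the coefficients of `f` are fixed by inertia and both reductions
of `f` are nonzero, then the orders of both reductions are divisible by `m`: the reductions of
`L(div f / m + n ∞)` would not fit otherwise.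

Main result: `dvd_ord_red_of_noEll`.
-/

set_option autoImplicit false

noncomputable section

namespace Fermat.Agent.RT.Mazur

open ModularCurve AlgebraicCurve Polynomial
open Fermat.Agent.Semistable Fermat.Agent.Arith

variable {A : ValuationSubring QBar} {q : ℕ} [hq : Fact q.Prime] [CharP (Res A) q]
  {M : ℕ} [NeZero M] [FF.IsFunctionField (Res A) (KM A M)] {hqM : ¬ q ∣ M}

/-! ## Lifts with fixed coefficients -/

/-- Dimension count: fixed vectors with independent reduction pairs fit into the product of a space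
containing all first reductions and one containing the second reductions of those vanishing on the
first side. -/
theorem finrank_le_add {k V : Type*} [Field k] [AddCommGroup V] [Module k V] {L : ℕ}
    (r : Fin L → Fin 2 → V) (hr : LinearIndependent k r) (T₀ T₁ : Submodule k V)
    [FiniteDimensional k T₀] [FiniteDimensional k T₁]
    (h0 : ∀ c : Fin L → k, ∑ a, c a • r a 0 ∈ T₀)
    (h1 : ∀ c : Fin L → k, ∑ a, c a • r a 0 = 0 → ∑ a, c a • r a 1 ∈ T₁) :
    L ≤ Module.finrank k T₀ + Module.finrank k T₁ := by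
  classical
  let Φ : Fin 2 → (Fin L → k) →ₗ[k] V := fun s => Fintype.linearCombination k fun a => r a s
  have hΦ : ∀ s c, Φ s c = ∑ a, c a • r a s := fun s c => Fintype.linearCombination_apply ..
  have hrange : LinearMap.range (Φ 0) ≤ T₀ := by
    rintro _ ⟨c, rfl⟩
    rw [hΦ]; exact h0 c
  have hkermap : (LinearMap.ker (Φ 0)).map (Φ 1) ≤ T₁ := by
    rintro _ ⟨c, hc, rfl⟩
    have hc' : Φ 0 c = 0 := hc
    rw [hΦ] at hc' ⊢
    exact h1 c hc'
  have hinj : Function.Injective ((Φ 1).comp (LinearMap.ker (Φ 0)).subtype) := by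
    rw [← LinearMap.ker_eq_bot, Submodule.eq_bot_iff]
    rintro ⟨c, hc⟩ hc1
    have hc' : Φ 0 c = 0 := hc
    have hc1' : Φ 1 c = 0 := hc1
    rw [hΦ] at hc' hc1'
    refine Subtype.ext (funext (Fintype.linearIndependent_iff.mp hr c (funext fun s => ?_)))
    rw [Finset.sum_apply]
    fin_cases s
    · exact hc'
    · exact hc1'
  have hker : Module.finrank k (LinearMap.ker (Φ 0)) ≤ Module.finrank k T₁ := by
    refine le_trans (le_of_eq ?_) (Submodule.finrank_mono hkermap)
    rw [← LinearMap.finrank_range_of_inj hinj, LinearMap.range_comp, Submodule.range_subtype]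
  have hsum := LinearMap.finrank_range_add_finrank_ker (Φ 0)
  rw [Module.finrank_fin_fun] at hsum
  have := Submodule.finrank_mono hrange
  omega

omit [CharP (Res A) q] [FF.IsFunctionField (Res A) ↥(KM A M)] in
/-- Combinations of vectors with fixed coefficients lift combinations of their reductions. -/
theorem exists_fixed_lift (hA : A.LiesOverPrime q) (W : Submodule QBar (FB (q * M))) {L : ℕ}
    (w : Fin L → FB (q * M)) (hwl : ∀ a s, iota2 M q hqM s (w a) ∈ locS A) (hwW : ∀ a, w a ∈ W)
    (hwfix : ∀ a s, ∀ τ ∈ A.inertiaSubgroupIn ℚ,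
      coeffMap (τ : QBar →+* QBar) (iota2 M q hqM s (w a)) = iota2 M q hqM s (w a))
    (c : Fin L → Res A) :
    ∃ y : loc2 A (iota2 M q hqM), (y : FB (q * M)) ∈ W ∧
      InertiaFixed A ((y : FB (q * M)) : LSer) ∧
      ∀ s, red2 A (iota2 M q hqM) y s = ∑ a, c a • redL A ⟨_, hwl a s⟩ := by
  choose C hC hCfix hCred using fun a => exists_inertiaFixed_lift hA hq.out (c a)
  have hmem : ∀ a, algebraMap QBar (FB (q * M)) (C a) ∈ loc2 A (iota2 M q hqM) := fun a =>
    (mem_loc2 _).mpr fun s => by rw [AlgHom.commutes]; exact algebraMap_mem_locS (hC a)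
  have hwmem : ∀ a, w a ∈ loc2 A (iota2 M q hqM) := fun a => (mem_loc2 _).mpr (hwl a)
  refine ⟨∑ a, ⟨_, hmem a⟩ * ⟨_, hwmem a⟩, ?_, ?_, fun s => ?_⟩
  · push_cast
    refine W.sum_mem fun a _ => ?_
    rw [← Algebra.smul_def]
    exact W.smul_mem _ (hwW a)
  · intro τ hτ
    push_cast
    rw [map_sum]
    refine Finset.sum_congr rfl fun a _ => ?_
    rw [map_mul]
    exact congrArg₂ (· * ·) (inertiaFixed_algebraMap (hCfix a) τ hτ)
      ((congrArg _ (iota2_zero M q hqM (w a))).symm.trans
        ((hwfix a 0 τ hτ).trans (iota2_zero M q hqM (w a))))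
  · rw [map_sum, Finset.sum_apply]
    refine Finset.sum_congr rfl fun a _ => ?_
    rw [map_mul, Pi.mul_apply, red2_apply, red2_apply,
      redL_congr _ (algebraMap_mem_locS (hC a)) (AlgHom.commutes _ _), redL_algebraMap (hC a),
      hCred a, ← HahnSeries.C_mul_eq_smul, algebraMap_laurentSeries_eq_single]
    rfl

/-! ## The bounded functions on the two sides -/

omit [CharP (Res A) q] [FF.IsFunctionField (Res A) ↥(KM A M)] in
/-- Multiples of a `1/m`-th of the divisor of `f`, in terms of level functions. -/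
private theorem mem_riemannRochSpace_iff_pow_mul {m n : ℕ} (hm : 0 < m) {f : FB (q * M)}
    (hf0 : f ≠ 0) {D : Divisor QBar (FB (q * M))} (hD : ∀ v, (m : ℤ) * D v = v.ord f)
    (y : FB (q * M)) :
    y ∈ riemannRochSpace (D + n • FF.poles QBar (upF M q (jM M))) ↔
      y ^ m * f ∈ HN M q (m * n) := by
  rcases eq_or_ne y 0 with rfl | hy
  · simp [zero_pow hm.ne']
  simp only [HN, mem_riemannRochSpace_iff, hy, mul_ne_zero (pow_ne_zero m hy) hf0, false_or,
    Finsupp.add_apply, Finsupp.smul_apply, nsmul_eq_mul]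
  refine forall_congr' fun v => ?_
  rw [v.ord_mul (pow_ne_zero m hy) hf0, FF.ord_pow, ← hD v]
  push_cast
  constructor
  · intro h; nlinarith
  · intro h; nlinarith

/-- The reduction on the first side of a level function `y` bounded by `div F / m`. -/
private theorem redK_zero_mem (hA : A.LiesOverPrime q) (hM : (M : Res A) ≠ 0) {m n : ℕ}
    (hm : 0 < m) {F y : loc2 A (iota2 M q hqM)}
    (hy : ((y ^ m * F : loc2 A (iota2 M q hqM)) : FB (q * M)) ∈ HN M q (m * n))
    (hz : redK hM F 0 ≠ 0) :
    redK hM y 0 ∈ riemannRochSpace (divFloor (m : ℤ) (FF.div (Res A) (redK hM F 0)) +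
      n • FF.poles (Res A) (jK A M)) := by
  classical
  have hm' : (0 : ℤ) < m := by exact_mod_cast hm
  refine mem_riemannRochSpace_iff.mpr fun v => or_iff_not_imp_left.mpr fun ha => ?_
  have h := pow_order_bound hA hM hy 0 ha hz v
  simp only [Finsupp.add_apply, Finsupp.smul_apply, nsmul_eq_mul, divFloor_apply, FF.div_apply]
  simp only [sideDeg, Matrix.cons_val_zero] at h
  push_cast at h
  have : -(v.ord (redK hM y 0) + n * FF.poles (Res A) (jK A M) v) ≤
      v.ord (redK hM F 0) / m := by
    rw [Int.le_ediv_iff_mul_le hm']; nlinarith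
  linarith

/-- The reduction on the second side of an inertia fixed level function `y` bounded by `div F / m`
and vanishing on the first side. -/
private theorem redK_one_mem (hA : A.LiesOverPrime q) (hM : (M : Res A) ≠ 0) {m n : ℕ}
    (hm : 0 < m) {F y : loc2 A (iota2 M q hqM)}
    (hy : ((y ^ m * F : loc2 A (iota2 M q hqM)) : FB (q * M)) ∈ HN M q (m * n))
    (hyfix : InertiaFixed A ((y : FB (q * M)) : LSer)) (hy0 : red2 A (iota2 M q hqM) y 0 = 0)
    (hz : redK hM F 1 ≠ 0) {ρ : KM A M}
    (hρ : (ρ : LaurentSeries (Res A)) = rhoSer q (Res A))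
    {R : Divisor (Res A) (KM A M)}
    (hR : ∀ v, R v = if v.ord (jK A M) < 0 then 0 else v.ord ρ) :
    redK hM y 1 ∈ riemannRochSpace
      (divFloor (12 * (m : ℤ)) ((12 : ℤ) • FF.div (Res A) (redK hM F 1) - (m : ℤ) • R) +
        (q * n) • FF.poles (Res A) (jK A M)) := by
  classical
  refine mem_riemannRochSpace_iff.mpr fun v => or_iff_not_imp_left.mpr fun hb => ?_
  set pk := FF.poles (Res A) (jK A M)
  set t := redK hM F 1
  have h := pow_order_bound hA hM hy 1 hb hz v
  simp only [sideDeg, Matrix.cons_val_one, Matrix.cons_val_fin_one] at h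
  push_cast at h
  have : -(v.ord (redK hM y 1) + q * n * pk v) ≤ (12 * v.ord t - m * R v) / (12 * m) := by
    rw [Int.le_ediv_iff_mul_le (by omega), hR v]
    split_ifs with hv
    · nlinarith
    · have h' := unit_order_bound hA hM hy hyfix hy0 hb hz hρ
        (not_lt.mp hv)
      have hp0 : pk v = 0 := by rw [FF.poles_apply, max_eq_left (by omega)]
      rw [hp0]
      nlinarith
  simp only [Finsupp.add_apply, Finsupp.smul_apply, Finsupp.sub_apply, nsmul_eq_mul,
    divFloor_apply, FF.div_apply, smul_eq_mul]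
  push_cast
  linarith

/-- Far along an effective divisor the Riemann–Roch spaces have their expected dimension. -/
private theorem exists_forall_finrank_eq {K F : Type*} [Field K] [IsAlgClosed K] [Field F]
    [Algebra K F] [FF.IsFunctionField K F] (D p : Divisor K F) (hp : 0 < Divisor.degree p) :
    ∃ n₀ : ℕ, ∀ n ≥ n₀, FiniteDimensional K (riemannRochSpace (D + n • p)) ∧
      (Module.finrank K (riemannRochSpace (D + n • p)) : ℤ) =
        Divisor.degree D + n * Divisor.degree p + 1 - genusFF K F := by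
  obtain ⟨c, hc⟩ := FF.exists_ell_eq (K := K) (F := F)
  refine ⟨(c - Divisor.degree D).toNat + ((genusFF K F : ℤ) - Divisor.degree D).toNat,
    fun n hn => ?_⟩
  have hdeg : Divisor.degree (D + n • p) = Divisor.degree D + n * Divisor.degree p := by
    rw [map_add, map_nsmul, nsmul_eq_mul]
  have hn' : (n : ℤ) ≤ n * Divisor.degree p := le_mul_of_one_le_right (by omega) (by omega)
  have h := hc (D + n • p) (by omega)
  rw [FF.ell, hdeg] at h
  exact ⟨FiniteDimensional.of_finrank_pos (by omega), h⟩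

/-- The `m`-th part of a divisor of a function divisible by `m`. -/
private theorem divFloor_div_spec {K F : Type*} [Field K] [Field F] [Algebra K F]
    [FF.IsFunctionField K F] {m : ℕ} (hm : 0 < m) {f : F}
    (hdiv : ∀ v : Place K F, (m : ℤ) ∣ v.ord f) :
    (∀ v, (m : ℤ) * divFloor (m : ℤ) (FF.div K f) v = v.ord f) ∧
      Divisor.degree (divFloor (m : ℤ) (FF.div K f)) = 0 := by
  have hD : ∀ v, (m : ℤ) * divFloor (m : ℤ) (FF.div K f) v = v.ord f := fun v => by
    rw [divFloor_apply, FF.div_apply]; exact Int.mul_ediv_cancel' (hdiv v)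
  refine ⟨hD, ?_⟩
  have : (m : ℤ) • divFloor (m : ℤ) (FF.div K f) = FF.div K f := Finsupp.ext fun v => by
    rw [Finsupp.smul_apply, smul_eq_mul, hD, FF.div_apply]
  have := congrArg Divisor.degree this
  rw [map_zsmul, FF.degree_div, smul_eq_mul] at this
  exact (mul_eq_zero.mp this).resolve_left (by exact_mod_cast hm.ne')

omit hq [CharP (Res A) q] in
/-- The divisor bounding the second side has degree at most `-(q - 1) ψ(M) / 12`. -/
private theorem twelve_mul_degree_le (hM : (M : Res A) ≠ 0) {m : ℕ} (hm : 0 < m)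
    (t ρ : KM A M) :
    12 * Divisor.degree (divFloor (12 * (m : ℤ)) ((12 : ℤ) • FF.div (Res A) t -
      (m : ℤ) • (FF.div (Res A) ρ + ((q : ℤ) - 1) • FF.poles (Res A) (jK A M)))) ≤
      -(((q : ℤ) - 1) * dedekindPsi M) := by
  have h := mul_degree_divFloor_le (k := 12 * (m : ℤ)) (by omega)
    ((12 : ℤ) • FF.div (Res A) t -
      (m : ℤ) • (FF.div (Res A) ρ + ((q : ℤ) - 1) • FF.poles (Res A) (jK A M)))
  simp only [map_sub, map_zsmul, map_add, FF.degree_div, degree_poles_jK M hM, smul_eq_mul] at h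
  refine le_of_mul_le_mul_left ?_ (show (0 : ℤ) < m by exact_mod_cast hm)
  linarith

omit [CharP (Res A) q] [FF.IsFunctionField (Res A) ↥(KM A M)] in
/-- Inertia preserves the functions bounded by a multiple of an inertia fixed divisor. -/
private theorem galois_mem_riemannRoch {m n : ℕ} (hm : 0 < m) {f : FB (q * M)} (hf0 : f ≠ 0)
    (hfix : InertiaFixed A (f : LSer)) {D : Divisor QBar (FB (q * M))}
    (hD : ∀ v, (m : ℤ) * D v = v.ord f) {τ : GQ} (hτ : τ ∈ A.inertiaSubgroupIn ℚ)
    {y : FB (q * M)} (hy : y ∈ riemannRochSpace (D + n • FF.poles QBar (upF M q (jM M)))) :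
    arithmeticRingAut (modularFunctionFieldFull (q * M)) τ y ∈
      riemannRochSpace (D + n • FF.poles QBar (upF M q (jM M))) := by
  rw [mem_riemannRochSpace_iff_pow_mul hm hf0 hD] at hy ⊢
  have h := galF_mem_poles (q * M) (σ := τ) (y := upF M q (jM M)) (by rw [galF_upF, galF_jM]) hy
  rwa [map_mul, map_pow, show galF (q * M) τ f = f from
    Subtype.ext ((coe_arithmeticRingAut τ f).trans (hfix τ hτ))] at h

/-- The functions bounded by `div F / m + n ∞` reduce into the bounded functions on the two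
sides, injectively. -/
private theorem finrank_le_sides (hA : A.LiesOverPrime q) (hM : (M : Res A) ≠ 0) {m n : ℕ}
    (hm : 0 < m) {F : loc2 A (iota2 M q hqM)} (hf0 : (F : FB (q * M)) ≠ 0)
    (hfix : InertiaFixed A ((F : FB (q * M)) : LSer)) {D : Divisor QBar (FB (q * M))}
    (hD : ∀ v, (m : ℤ) * D v = v.ord (F : FB (q * M))) (hz : ∀ s, redK hM F s ≠ 0)
    [FiniteDimensional QBar (riemannRochSpace (D + n • FF.poles QBar (upF M q (jM M))))]
    {ρ : KM A M} (hρ : (ρ : LaurentSeries (Res A)) = rhoSer q (Res A))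
    {R : Divisor (Res A) (KM A M)}
    (hR : ∀ v, R v = if v.ord (jK A M) < 0 then 0 else v.ord ρ)
    [FiniteDimensional (Res A) (riemannRochSpace (divFloor (m : ℤ)
      (FF.div (Res A) (redK hM F 0)) + n • FF.poles (Res A) (jK A M)))]
    [FiniteDimensional (Res A) (riemannRochSpace (divFloor (12 * (m : ℤ))
      ((12 : ℤ) • FF.div (Res A) (redK hM F 1) - (m : ℤ) • R) +
        (q * n) • FF.poles (Res A) (jK A M)))] :
    Module.finrank QBar (riemannRochSpace (D + n • FF.poles QBar (upF M q (jM M)))) ≤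
      Module.finrank (Res A) (riemannRochSpace (divFloor (m : ℤ)
        (FF.div (Res A) (redK hM F 0)) + n • FF.poles (Res A) (jK A M))) +
      Module.finrank (Res A) (riemannRochSpace (divFloor (12 * (m : ℤ))
        ((12 : ℤ) • FF.div (Res A) (redK hM F 1) - (m : ℤ) • R) +
          (q * n) • FF.poles (Res A) (jK A M))) := by
  classical
  set W := riemannRochSpace (D + n • FF.poles QBar (upF M q (jM M)))
  -- a fixed basis with independent reductions
  obtain ⟨w, hwl, hwW, hwfix, hwi⟩ := exists_fixed_redBasis hA hq.out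
    (le_refl (A.inertiaSubgroupIn ℚ)) (iota2 M q hqM) (iota2_fracS M q hqM)
    (fun τ hτ s y => by
      fin_cases s
      · exact coe_arithmeticRingAut τ y
      · refine (iota2_one M q hqM _).trans ?_
        rw [wEquiv_galois, coe_arithmeticRingAut]
        exact congrArg _ (iota2_one M q hqM y).symm) W
    fun τ hτ y hy => galois_mem_riemannRoch hm hf0 hfix hD hτ hy
  have hyF : ∀ y : loc2 A (iota2 M q hqM), (y : FB (q * M)) ∈ W →
      ((y ^ m * F : loc2 A (iota2 M q hqM)) : FB (q * M)) ∈ HN M q (m * n) := fun y hy => by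
    push_cast
    exact (mem_riemannRochSpace_iff_pow_mul hm hf0 hD _).mp hy
  -- the first side, and on its kernel the second, satisfy the two bounds
  refine le_trans (finrank_le_add (fun a s => redL A ⟨_, hwl a s⟩) hwi
    (Submodule.map (valLin A M) (riemannRochSpace (divFloor (m : ℤ)
      (FF.div (Res A) (redK hM F 0)) + n • FF.poles (Res A) (jK A M))))
    (Submodule.map (valLin A M) (riemannRochSpace (divFloor (12 * (m : ℤ))
      ((12 : ℤ) • FF.div (Res A) (redK hM F 1) - (m : ℤ) • R) +
        (q * n) • FF.poles (Res A) (jK A M)))) (fun c => ?_) (fun c hc => ?_)) (le_of_eq ?_)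
  · obtain ⟨y, hy, -, hys⟩ := exists_fixed_lift hA W w hwl hwW hwfix c
    rw [← hys 0]
    exact ⟨redK hM y 0, redK_zero_mem hA hM hm (hyF y hy) (hz 0), rfl⟩
  · obtain ⟨y, hy, hyfix, hys⟩ := exists_fixed_lift hA W w hwl hwW hwfix c
    rw [← hys 1]
    exact ⟨redK hM y 1,
      redK_one_mem hA hM hm (hyF y hy) hyfix ((hys 0).trans hc) (hz 1) hρ hR, rfl⟩
  · rw [← (Submodule.equivMapOfInjective _ (valLin_injective A M) _).finrank_eq,
      ← (Submodule.equivMapOfInjective _ (valLin_injective A M) _).finrank_eq]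

/-! ## The orders -/

/-- Orders on the first side. -/
theorem dvd_ord_red_zero_of_noEll (hA : A.LiesOverPrime q) (hE : nuTwo M = 0 ∧ nuThree M = 0)
    {m : ℕ} (hm : 0 < m)
    {F : loc2 A (iota2 M q hqM)} (hfix : InertiaFixed A ((F : FB (q * M)) : LSer))
    (hdiv : ∀ v : Place QBar (FB (q * M)), (m : ℤ) ∣ v.ord (F : FB (q * M)))
    (hne : ∀ s, red2 A (iota2 M q hqM) F s ≠ 0) (hM : (M : Res A) ≠ 0)
    (P : Place (Res A) (KM A M)) : (m : ℤ) ∣ P.ord (redK hM F 0) := by
  classical
  have := residueField_isAlgClosed A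
  have hz0 : ∀ s, redK hM F s ≠ 0 := fun s h => hne s (congrArg Subtype.val h)
  set f : FB (q * M) := (F : FB (q * M)) with hfdef
  have hf0 : f ≠ 0 := fun h => hne 0 (by rw [show F = 0 from Subtype.ext h, map_zero]; rfl)
  obtain ⟨ρ, hρ, hρpole⟩ := exists_rho (A := A) (q := q) (M := M)
  set z := redK hM F 0
  -- divisors
  obtain ⟨hD, hDdeg⟩ := divFloor_div_spec hm hdiv
  set D : Divisor QBar (FB (q * M)) := divFloor (m : ℤ) (FF.div QBar f)
  set Dz : Divisor (Res A) (KM A M) := divFloor (m : ℤ) (FF.div (Res A) z)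
  set p := FF.poles QBar (upF M q (jM M))
  set pk := FF.poles (Res A) (jK A M)
  set R : Divisor (Res A) (KM A M) := FF.div (Res A) ρ + ((q : ℤ) - 1) • pk
  have hR : ∀ v, R v = if v.ord (jK A M) < 0 then 0 else v.ord ρ := fun v => by
    rw [Finsupp.add_apply, Finsupp.smul_apply, FF.poles_apply, FF.div_apply, smul_eq_mul]
    split_ifs with hv
    · rw [hρpole v hv, max_eq_right (by omega)]; ring
    · rw [max_eq_left (by omega)]; ring
  have hQdeg := twelve_mul_degree_le (q := q) hM hm (redK hM F 1) ρ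
  set Q : Divisor (Res A) (KM A M) :=
    divFloor (12 * (m : ℤ)) ((12 : ℤ) • FF.div (Res A) (redK hM F 1) - (m : ℤ) • R)
  have hdegJ : Divisor.degree p = dedekindPsi (q * M) := degree_poles_upF_jM M q
  have hdegk : Divisor.degree pk = dedekindPsi M := degree_poles_jK M hM
  -- large `n`
  obtain ⟨nN, hnN⟩ := exists_forall_finrank_eq D p
    (by rw [hdegJ]; exact_mod_cast dedekindPsi_pos (q * M))
  have hpk : 0 < Divisor.degree pk := by rw [hdegk]; exact_mod_cast dedekindPsi_pos M
  obtain ⟨n₀, hn₀⟩ := exists_forall_finrank_eq Dz pk hpk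
  obtain ⟨n₁, hn₁⟩ := exists_forall_finrank_eq Q pk hpk
  set n := max nN (max n₀ n₁)
  obtain ⟨hWfin, hW⟩ := hnN n (le_max_left _ _)
  obtain ⟨hT0fin, hT0⟩ := hn₀ n ((le_max_left _ _).trans (le_max_right _ _))
  obtain ⟨hT1fin, hT1⟩ := hn₁ (q * n) (((le_max_right _ _).trans (le_max_right _ _)).trans
    (Nat.le_mul_of_pos_left n hq.out.pos))
  have key : (Module.finrank QBar (riemannRochSpace (D + n • p)) : ℤ) ≤
      (Module.finrank (Res A) (riemannRochSpace (Dz + n • pk)) : ℤ) +
        (Module.finrank (Res A) (riemannRochSpace (Q + (q * n) • pk)) : ℤ) := by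
    exact_mod_cast finrank_le_sides hA hM hm hf0 hfix hD hz0 hρ hR
  have hψN : (dedekindPsi (q * M) : ℤ) = ((q : ℤ) + 1) * dedekindPsi M := by
    rw [Gamma0.dedekindPsi_mul_of_not_dvd hq.out hqM]; push_cast; ring
  have hg : (genusFF QBar (FB M) : ℤ) ≤ genusFF (Res A) (KM A M) := by
    exact_mod_cast (FiniteFlat.genusFF_residue_eq hM).ge
  have hid := genus_identity_of_noEll (q := q) hqM hE
  have hm' : (0 : ℤ) < m := by exact_mod_cast hm
  have hDz : Divisor.degree (FF.div (Res A) z) ≤ m * Divisor.degree Dz := by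
    rw [FF.degree_div]
    refine mul_nonneg hm'.le ?_
    rw [hW, hT0, hT1, hDdeg, hdegJ, hdegk, hψN] at key
    push_cast at key
    linarith
  have hres := dvd_of_degree_divFloor hm' (FF.div (Res A) z) hDz P
  rwa [FF.div_apply] at hres

theorem ord_algEquiv_dvd {K F : Type*} [Field K] [Field F] [Algebra K F] (σ : F ≃ₐ[K] F) {m : ℤ}
    {f : F} (h : ∀ v : Place K F, m ∣ v.ord f) (v : Place K F) : m ∣ v.ord (σ f) := by
  rw [ord_algEquiv]; exact h _

/-- **Orders of the reductions.** Both reductions of an inertia-fixed Kummer function at level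
`q M`, `X₀(M)` without elliptic points, have orders divisible by `m`. -/
theorem dvd_ord_red_of_noEll (hA : A.LiesOverPrime q) (hE : nuTwo M = 0 ∧ nuThree M = 0)
    {m : ℕ} (hm : 0 < m)
    {F : loc2 A (iota2 M q hqM)} (hfix : InertiaFixed A ((F : FB (q * M)) : LSer))
    (hdiv : ∀ v : Place QBar (FB (q * M)), (m : ℤ) ∣ v.ord (F : FB (q * M)))
    (hne : ∀ s, red2 A (iota2 M q hqM) F s ≠ 0) (hM : (M : Res A) ≠ 0) (s : Fin 2)
    (P : Place (Res A) (KM A M)) : (m : ℤ) ∣ P.ord (redK hM F s) := by
  fin_cases s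
  · exact dvd_ord_red_zero_of_noEll hA hE hm hfix hdiv hne hM P
  · have hF := (mem_loc2_iff M q hqM).mp F.2
    have hF' : wEquiv q M hqM (F : FB (q * M)) ∈ loc2 A (iota2 M q hqM) := by
      rw [mem_loc2_iff, wEquiv_wEquiv]; exact ⟨hF.2, hF.1⟩
    have e : ∀ s, red2 A (iota2 M q hqM) ⟨_, hF'⟩ s = red2 A (iota2 M q hqM) F (1 - s) := by
      intro s
      rw [red2_apply, red2_apply]
      refine congrArg _ (Subtype.ext ?_)
      fin_cases s
      · show iota2 M q hqM 0 _ = iota2 M q hqM 1 _
        rw [iota2_zero, iota2_one]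
      · show iota2 M q hqM 1 _ = iota2 M q hqM 0 _
        rw [iota2_zero, iota2_one, wEquiv_wEquiv]
    have h := dvd_ord_red_zero_of_noEll (F := ⟨_, hF'⟩) hA hE hm (fun τ hτ => ?_)
      (ord_algEquiv_dvd _ hdiv) (fun s => by rw [e s]; exact hne _) hM P
    · rwa [show redK hM (⟨_, hF'⟩ : loc2 A (iota2 M q hqM)) 0 = redK hM F 1 from
        Subtype.ext (e 0)] at h
    · show coeffMap (τ : QBar →+* QBar) ((wEquiv q M hqM (F : FB (q * M)) : FB (q * M)) : LSer) = _
      rw [← coe_arithmeticRingAut, ← wEquiv_galois,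
        show arithmeticRingAut (modularFunctionFieldFull (q * M)) τ (F : FB (q * M)) = F from
          Subtype.ext ((coe_arithmeticRingAut τ _).trans (hfix τ hτ))]

/-- Orders of the reductions at a level divisible by `4` or `9`. -/
theorem dvd_ord_red (hA : A.LiesOverPrime q) {L : ℕ} (hL : L = 4 ∨ L = 9) (hd : L ∣ M)
    {m : ℕ} (hm : 0 < m)
    {F : loc2 A (iota2 M q hqM)} (hfix : InertiaFixed A ((F : FB (q * M)) : LSer))
    (hdiv : ∀ v : Place QBar (FB (q * M)), (m : ℤ) ∣ v.ord (F : FB (q * M)))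
    (hne : ∀ s, red2 A (iota2 M q hqM) F s ≠ 0) (hM : (M : Res A) ≠ 0) (s : Fin 2)
    (P : Place (Res A) (KM A M)) : (m : ℤ) ∣ P.ord (redK hM F s) :=
  dvd_ord_red_of_noEll hA (RedTorsion.no_root_sq_add_one hL hd) hm hfix hdiv hne hM s P

end Fermat.Agent.RT.Mazur

end
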