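import Fermat.Agent.RT.Mazur.ResHecke
import Fermat.Agent.RT.Mazur.Orders

/-!
# The residual classes of a Kummer function

For `p ≥ 5` (`ordDvd_all`), or at a level without elliptic points, the reductions of a normalised
Kummer function have orders divisible by `p`; when they do, their divisors divided by `p` give
classes on the reduced curve with the Hecke eigenvalues of the class.
-/

set_option autoImplicit false

noncomputable section

open AlgebraicCurve ModularCurve
open Fermat.Agent.Semistable Fermat.Agent.Arith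

namespace Fermat.Agent.RT.Mazur

section Inclusion

variable {q M M' : ℕ} [hq : Fact q.Prime] [NeZero M] [NeZero M']
  (hqM : ¬ q ∣ M) (hqM' : ¬ q ∣ M') (hdd : M ∣ M')

/-- The inclusion of level `q M` in level `q M'`. -/
def incLevel (q : ℕ) [Fact q.Prime] {M M' : ℕ} [NeZero M] [NeZero M'] (hdd : M ∣ M') :
    FB (q * M) →ₐ[QBar] FB (q * M') :=
  haveI : NeZero q := ⟨(Fact.out : q.Prime).ne_zero⟩
  IntermediateField.inclusion (FiniteFlat.bar_le (mul_dvd_mul_left q hdd))

theorem coe_incLevel (x : FB (q * M)) : (incLevel q hdd x : LSer) = (x : LSer) :=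
  IntermediateField.coe_inclusion _ x

theorem incLevel_genF {d : ℕ} (hd : d ∣ q * M) :
    incLevel q hdd (genF (q * M) ⟨d, hd⟩) =
      genF (q * M') ⟨d, hd.trans (mul_dvd_mul_left q hdd)⟩ :=
  Subtype.ext ((coe_incLevel hdd _).trans (by rw [coe_genF, coe_genF]; rfl))

theorem iota2_incLevel (s : Fin 2) (x : FB (q * M)) :
    iota2 M' q hqM' s (incLevel q hdd x) = iota2 M q hqM s x := by
  fin_cases s
  · show iota2 M' q hqM' 0 (incLevel q hdd x) = iota2 M q hqM 0 x
    rw [iota2_zero, iota2_zero, coe_incLevel]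
  · show iota2 M' q hqM' 1 (incLevel q hdd x) = iota2 M q hqM 1 x
    rw [iota2_one, iota2_one]
    refine DFunLike.congr_fun (fb_ringHom_ext
      (φ := ((FB (q * M')).val.comp ((wEquiv q M' hqM').toAlgHom.comp
        (incLevel q hdd))).toRingHom)
      (ψ := ((FB (q * M)).val.comp (wEquiv q M hqM).toAlgHom).toRingHom)
      (fun a => by simp) fun d => ?_) x
    show (wEquiv q M' hqM' (incLevel q hdd (genF _ d)) : LSer) =
      (wEquiv q M hqM (genF _ d) : LSer)
    obtain ⟨d, hd⟩ := d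
    rcases dvs_cases q M hq.out hd with hdM | ⟨d', hd', rfl⟩
    · have : NeZero d := ⟨fun h => NeZero.ne M (Nat.eq_zero_of_zero_dvd (h ▸ hdM))⟩
      rw [wEquiv_gen_of_dvd q M hqM hdM, ← wEquiv_gen_of_dvd q M' hqM' (hdM.trans hdd)]
      exact congrArg (fun z => (wEquiv q M' hqM' z : LSer)) (incLevel_genF hdd _)
    · have : NeZero d' := ⟨fun h => NeZero.ne M (Nat.eq_zero_of_zero_dvd (h ▸ hd'))⟩
      rw [wEquiv_gen_mul q M hqM hd', ← wEquiv_gen_mul q M' hqM' (hd'.trans hdd)]
      exact congrArg (fun z => (wEquiv q M' hqM' z : LSer)) (incLevel_genF hdd _)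

end Inclusion

variable {A : ValuationSubring QBar} {q M : ℕ} [hq : Fact q.Prime] [CharP (Res A) q] [NeZero M]
  [FF.IsFunctionField (Res A) (KM A M)] {hqM : ¬ q ∣ M} {p : ℕ} [Fact p.Prime]

variable (q p) in
/-- The orders of both reductions of normalised Kummer functions are divisible by `p`. -/
def OrdDvd (hqM : ¬ q ∣ M) (hM : (M : Res A) ≠ 0) : Prop :=
  ∀ F : loc2 A (iota2 M q hqM), InertiaFixed A ((F : FB (q * M)) : LSer) →
    (∀ v : Place QBar (FB (q * M)), (p : ℤ) ∣ v.ord (F : FB (q * M))) →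
      (∀ s, red2 A (iota2 M q hqM) F s ≠ 0) →
        ∀ (s : Fin 2) (Q : Place (Res A) (KM A M)), (p : ℤ) ∣ Q.ord (redK hM F s)

variable (q p) in
/-- The divisibility for Kummer functions with the relations `N_l F = F ^ a_l h ^ p`. -/
def EigenOrd (hqM : ¬ q ∣ M) (hM : (M : Res A) ≠ 0) (G : ℕ → Prop) (a : ℕ → ℤ) : Prop :=
  ∀ F : loc2 A (iota2 M q hqM), InertiaFixed A ((F : FB (q * M)) : LSer) →
    (∀ v : Place QBar (FB (q * M)), (p : ℤ) ∣ v.ord (F : FB (q * M))) →
      (∀ s, red2 A (iota2 M q hqM) F s ≠ 0) →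
        (∀ (l : ℕ) [NeZero l], l.Prime → G l → ∃ h : FB (q * M), h ≠ 0 ∧
          MazurP.heckeNorm (q * M) l (F : FB (q * M)) = (F : FB (q * M)) ^ a l * h ^ p) →
          ∀ (s : Fin 2) (Q : Place (Res A) (KM A M)), (p : ℤ) ∣ Q.ord (redK hM F s)

omit [FF.IsFunctionField (Res A) ↥(KM A M)] [Fact (Nat.Prime p)] in
theorem OrdDvd.eigenOrd {hM : (M : Res A) ≠ 0} (h : OrdDvd q p hqM hM) (G : ℕ → Prop)
    (a : ℕ → ℤ) : EigenOrd q p hqM hM G a :=
  fun F hfix hdiv hne _ => h F hfix hdiv hne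

/-- The divisibility descends along a cover of degree prime to `p`. -/
theorem ordDvd_descend {M' : ℕ} [NeZero M'] (hdd : M ∣ M') (hqM' : ¬ q ∣ M')
    (hM : (M : Res A) ≠ 0) (hM' : (M' : Res A) ≠ 0) {d : ℕ}
    (hψ : dedekindPsi M' = d * dedekindPsi M) (hdp : ¬ p ∣ d) (up : OrdDvd q p hqM' hM') :
    OrdDvd q p hqM hM := by
  classical
  intro F hfix hdiv hne s Q
  have : FF.IsFunctionField (Res A) (KM A M') :=
    RedTorsion.isFunctionField_full (F := KM A M') rfl hM'
  have hF' : incLevel q hdd (F : FB (q * M)) ∈ loc2 A (iota2 M' q hqM') :=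
    (mem_loc2 _).mpr fun t => by
      rw [iota2_incLevel hqM hqM' hdd]; exact (mem_loc2 _).mp F.2 t
  have hred : ∀ t, red2 A (iota2 M' q hqM') ⟨_, hF'⟩ t = red2 A (iota2 M q hqM) F t :=
    fun t => by
      rw [red2_apply, red2_apply]
      exact redL_congr _ _ (iota2_incLevel hqM hqM' hdd t _)
  have hfix' : InertiaFixed A (incLevel q hdd (F : FB (q * M)) : LSer) := by
    rw [coe_incLevel]; exact hfix
  have h := up ⟨_, hF'⟩ hfix'
    (fun w => by
      show (p : ℤ) ∣ w.ord (incLevel q hdd (F : FB (q * M)))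
      rw [Place.ord_restrictAlong (incLevel q hdd) (FF.isIntegralAlong _)]
      exact Dvd.dvd.mul_left (hdiv _) _)
    (fun t => by rw [hred]; exact hne t) s
  -- descend along the inclusion
  let φ : KM A M →ₐ[Res A] KM A M' :=
    IntermediateField.inclusion (full_degeneracyC_le _ hdd)
  let : Algebra (KM A M) (KM A M') := φ.toRingHom.toAlgebra
  have : FiniteDimensional (KM A M) (KM A M') := FF.finiteAlong φ
  have hdeg : Module.finrank (KM A M) (KM A M') = d := by
    have e := (FF.finite_and_finrank_adjoin_algebraMap (F' := KM A M')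
      (RedTorsion.transcendental_jF (K := Res A) (N := M) (F := KM A M) rfl)).2
    rw [show algebraMap (KM A M) (KM A M')
        (RedTorsion.jF (K := Res A) (N := M) (F := KM A M) rfl) =
        RedTorsion.jF (K := Res A) (N := M') (F := KM A M') rfl from
          Subtype.ext ((IntermediateField.coe_inclusion _ _).trans
            ((RedTorsion.coe_jF _).trans (RedTorsion.coe_jF _).symm)),
      RedTorsion.finrank_jF (K := Res A) (N := M') rfl hM',
      RedTorsion.finrank_jF (K := Res A) (N := M) rfl hM, ModFun.natCard_coset,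
      ModFun.natCard_coset, hψ, mul_comm] at e
    exact (mul_left_cancel₀ (dedekindPsi_pos M).ne' e).symm
  by_contra hQ
  have hs := FF.sum_ramification_inertia (F' := KM A M') Q
  rw [hdeg] at hs
  refine hdp (Int.natCast_dvd_natCast.mp (hs ▸ Finset.dvd_sum fun w hw => ?_))
  have hdw : (p : ℤ) ∣ (w.ramificationIndex (KM A M) : ℤ) * Q.ord (redK hM F s) := by
    have hz : algebraMap (KM A M) (KM A M') (redK hM F s) = redK hM' ⟨_, hF'⟩ s :=
      Subtype.ext ((IntermediateField.coe_inclusion _ _).trans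
        ((coe_redK hM F s).trans ((hred s).symm.trans (coe_redK hM' ⟨_, hF'⟩ s).symm)))
    rw [← Place.mem_fiber.mp hw, ← w.ord_restrict (F := KM A M), hz]
    exact h w
  exact dvd_mul_of_dvd_left
    (((Nat.prime_iff_prime_int.mp Fact.out).dvd_mul.mp hdw).resolve_right hQ) _

theorem ordDvd_of_noEll (hA : A.LiesOverPrime q) (hM : (M : Res A) ≠ 0)
    (hE : nuTwo M = 0 ∧ nuThree M = 0) :
    OrdDvd q p hqM hM := fun _F hfix hdiv hne s Q =>
  dvd_ord_red_of_noEll hA hE (Fact.out : p.Prime).pos hfix hdiv hne hM s Q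

theorem ordDvd_of_dvd (hA : A.LiesOverPrime q) (hM : (M : Res A) ≠ 0) {L : ℕ}
    (hL : L = 4 ∨ L = 9) (hd : L ∣ M) : OrdDvd q p hqM hM := fun _F hfix hdiv hne s Q =>
  dvd_ord_red hA hL hd (Fact.out : p.Prime).pos hfix hdiv hne hM s Q

omit [FF.IsFunctionField (Res A) (KM A M)] in
/-- One step up by a prime `l`. -/
theorem ordDvd_step {l : ℕ} (hl : l.Prime) (hlq : l ≠ q) (hdp : l < p)
    (hcase : l ∣ M ∨ l + 1 < p) (hM : (M : Res A) ≠ 0)
    (up : ∀ [NeZero (l * M)] [FF.IsFunctionField (Res A) (KM A (l * M))]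
      (hqM' : ¬ q ∣ l * M) (hM' : ((l * M : ℕ) : Res A) ≠ 0), OrdDvd q p hqM' hM') :
    OrdDvd q p hqM hM := by
  have : NeZero (l * M) := ⟨mul_ne_zero hl.ne_zero (NeZero.ne M)⟩
  have hqM' : ¬ q ∣ l * M := fun h => (hq.out.dvd_mul.mp h).elim
    (fun h' => hlq ((Nat.prime_dvd_prime_iff_eq hq.out hl).mp h').symm) hqM
  have hM' : ((l * M : ℕ) : Res A) ≠ 0 := fun h =>
    hqM' ((CharP.cast_eq_zero_iff (Res A) q _).mp h)
  have : FF.IsFunctionField (Res A) (KM A M) :=
    RedTorsion.isFunctionField_full (F := KM A M) rfl hM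
  have : FF.IsFunctionField (Res A) (KM A (l * M)) :=
    RedTorsion.isFunctionField_full (F := KM A (l * M)) rfl hM'
  by_cases hlM : l ∣ M
  · exact ordDvd_descend (dvd_mul_left M l) hqM' hM hM'
      (Gamma0.dedekindPsi_mul_of_dvd hl hlM)
      (fun h => absurd (Nat.le_of_dvd hl.pos h) (by omega)) (up hqM' hM')
  · exact ordDvd_descend (dvd_mul_left M l) hqM' hM hM'
      (Gamma0.dedekindPsi_mul_of_not_dvd hl hlM)
      (fun h => absurd (Nat.le_of_dvd (Nat.succ_pos l) h)
        (by have := hcase.resolve_left hlM; omega))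
      (up hqM' hM')

omit [FF.IsFunctionField (Res A) ↥(KM A M)] in
/-- Orders of both reductions, for `p ≥ 5` at every level. -/
theorem ordDvd_all (hA : A.LiesOverPrime q) (hM : (M : Res A) ≠ 0) (hp5 : 5 ≤ p) :
    OrdDvd q p hqM hM := by
  by_cases hq2 : q = 2
  · refine ordDvd_step Nat.prime_three (by omega) (by omega) (Or.inr (by omega)) hM
      fun hqM' hM' => ordDvd_step Nat.prime_three (by omega) (by omega) (Or.inr (by omega)) hM'
        fun hqM'' hM'' => ordDvd_of_dvd hA hM'' (Or.inr rfl)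
          (mul_dvd_mul_left 3 (dvd_mul_right 3 M))
  · exact ordDvd_step Nat.prime_two (Ne.symm hq2) (by omega) (Or.inr (by omega)) hM
      fun hqM' hM' => ordDvd_step Nat.prime_two (Ne.symm hq2) (by omega) (Or.inr (by omega)) hM'
        fun hqM'' hM'' => ordDvd_of_dvd hA hM'' (Or.inl rfl)
          (mul_dvd_mul_left 2 (dvd_mul_right 2 M))

/-- The divisor of `z` divided by `p`. -/
def resDiv (p : ℕ) (z : KM A M) : Divisor (Res A) (KM A M) :=
  divFloor (p : ℤ) (FF.div (Res A) z)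

omit [NeZero M] [Fact (Nat.Prime p)] in
/-- If all orders are divisible by `p`, then `p` times the divided divisor is the divisor of `z`. -/
theorem smul_resDiv {z : KM A M} (hdiv : ∀ Q : Place (Res A) (KM A M), (p : ℤ) ∣ Q.ord z) :
    (p : ℤ) • resDiv p z = FF.div (Res A) z := Finsupp.ext fun Q => by
  rw [Finsupp.smul_apply, resDiv, divFloor_apply, smul_eq_mul, FF.div_apply,
    Int.mul_ediv_cancel' (hdiv Q)]

omit [NeZero M] in
theorem degree_resDiv {z : KM A M} (hdiv : ∀ Q : Place (Res A) (KM A M), (p : ℤ) ∣ Q.ord z) :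
    Divisor.degree (resDiv p z) = 0 := by
  have h := congrArg Divisor.degree (smul_resDiv hdiv)
  rw [map_zsmul, FF.degree_div, smul_eq_mul] at h
  exact (mul_eq_zero.mp h).resolve_left (by exact_mod_cast (Fact.out : p.Prime).ne_zero)

/-- The class of the divisor of `z` divided by `p`. -/
def resClass {z : KM A M} (hdiv : ∀ Q : Place (Res A) (KM A M), (p : ℤ) ∣ Q.ord z) :
    Pic0 (Res A) (KM A M) :=
  Pic0.mk ⟨resDiv p z, Divisor.mem_degZero.mpr (degree_resDiv hdiv)⟩

omit [NeZero M] in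
/-- The class of the divisor of `z` divided by `p` is killed by `p`. -/
theorem nsmul_resClass {z : KM A M} (hz : z ≠ 0)
    (hdiv : ∀ Q : Place (Res A) (KM A M), (p : ℤ) ∣ Q.ord z) : p • resClass hdiv = 0 := by
  rw [resClass]
  refine (map_nsmul (QuotientAddGroup.mk' _) p _).symm.trans ?_
  refine (QuotientAddGroup.eq_zero_iff _).mpr ?_
  rw [AddSubgroup.mem_addSubgroupOf, AddSubgroup.coe_nsmul, ← natCast_zsmul, smul_resDiv hdiv]
  exact FF.div_mem_principal hz

omit [Fact (Nat.Prime p)] in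
/-- The norm of a reduction satisfies the relation of the Kummer function. -/
theorem exists_resNorm_eq [FF.IsFunctionField QBar (FB M)] (hA : A.LiesOverPrime q)
    (hM : (M : Res A) ≠ 0) {F : loc2 A (iota2 M q hqM)} (hne : ∀ s, red2 A (iota2 M q hqM) F s ≠ 0)
    {l : ℕ} [NeZero l] [FF.IsFunctionField QBar (FB (M * l))]
    [FF.IsFunctionField (Res A) (KM A (M * l))] (hMl : ((M * l : ℕ) : Res A) ≠ 0) (hl : l.Prime)
    (hlN : ¬ l ∣ q * M) (a : ℤ) {h : FB (q * M)} (hh : h ≠ 0)
    (hN : MazurP.heckeNorm (q * M) l (F : FB (q * M)) = (F : FB (q * M)) ^ a * h ^ p) (s : Fin 2) :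
    ∃ (u : Res A) (w : KM A M), u ≠ 0 ∧ w ≠ 0 ∧
      algebraMap (Res A) (KM A M) u * resNorm A M l (redK hM F s) = redK hM F s ^ a * w ^ p := by
  classical
  have hlM : ¬ l ∣ M := fun h => hlN (h.mul_left q)
  have hlq : ¬ q ∣ l := fun h =>
    hlN ((Nat.prime_dvd_prime_iff_eq hq.out hl).mp h ▸ dvd_mul_right q M)
  set z : KM A M := redK hM F s with hz
  -- the series of the norm
  set X := resNorm A M l z
  have hX := resNorm_series hM hMl hA hq.out hl hlM hlq z
  have hFred : MazurP.IsRed A (iota2 M q hqM s (F : FB (q * M))) (z : LaurentSeries (Res A)) :=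
    MazurP.IsRed.of_locS ((mem_loc2 _).mp F.2 s) (hne s)
  obtain ⟨X', hX', hX'z⟩ := MazurP.exists_isRed_heckeImage (l := l) hA hq.out hlq
    (iota2_fracS M q hqM s (MazurP.heckeNorm (q * M) l (F : FB (q * M))))
    (fun ζ hζ => MazurP.qExpand_iota2_heckeNorm q M l hqM hl hlN s hζ _) hFred
  have hXX : (X : LaurentSeries (Res A)) = X' := by
    obtain ⟨ζ₀, hζ₀⟩ := HasEnoughRootsOfUnity.exists_primitiveRoot QBar l
    set ζ : QBarˣ := (hζ₀.isUnit (NeZero.ne l)).unit
    have hζ : IsPrimitiveRoot ζ l := IsPrimitiveRoot.coe_units_iff.mp (by simpa [ζ] using hζ₀)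
    have hη := MazurP.resRoot_primitive (A := A) hA hq.out hlq hζ
    exact qExpand_injective l ((hX _ hη).trans (hX'z _ hη).symm)
  obtain ⟨w, hw⟩ := MazurP.IsRed.exists_of_ne_zero hA hq.out (iota2_fracS M q hqM s h)
    ((_root_.map_ne_zero _).mpr hh)
  have hwK := MazurP.isRed_mem_KM q M hqM hA hM hw
  have hprod := (hFred.zpow a).mul (hw.pow p)
  rw [← map_zpow₀, ← map_pow, ← map_mul, ← hN] at hprod
  obtain ⟨u, hu, hXu⟩ := hX'.unique hprod
  have hXz : algebraMap (Res A) (KM A M) u * X = z ^ a * (⟨w, hwK⟩ : KM A M) ^ p :=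
    Subtype.ext (by
      rw [IntermediateField.coe_mul, IntermediateField.coe_mul, IntermediateField.coe_pow, hXX]
      show algebraMap (Res A) (LaurentSeries (Res A)) u * X' = _
      rw [← hXu]
      exact congrArg (fun t => t * (⟨w, hwK⟩ : KM A M).1 ^ p) (map_zpow₀ (KM A M).val z a).symm)
  have hw0 : (⟨w, hwK⟩ : KM A M) ≠ 0 := fun e => hw.1 (congrArg Subtype.val e)
  exact ⟨u, ⟨w, hwK⟩, hu, hw0, hXz⟩

/-- **The residual classes are eigen.** -/
theorem redJ_hecke_resClass [FF.IsFunctionField QBar (FB M)] (hA : A.LiesOverPrime q)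
    (hM : (M : Res A) ≠ 0) {F : loc2 A (iota2 M q hqM)} (hne : ∀ s, red2 A (iota2 M q hqM) F s ≠ 0)
    {l : ℕ} [NeZero l] (hl : l.Prime) (hlN : ¬ l ∣ q * M) (a : ℤ) {h : FB (q * M)} (hh : h ≠ 0)
    (hN : MazurP.heckeNorm (q * M) l (F : FB (q * M)) = (F : FB (q * M)) ^ a * h ^ p) (s : Fin 2)
    (hdiv : ∀ Q : Place (Res A) (KM A M), (p : ℤ) ∣ Q.ord (redK hM F s))
    (x : JZero M) (hx : redJ hM x = resClass hdiv) :
    redJ hM (heckeOperatorBar M ⟨l, hl⟩ x) = a • resClass hdiv := by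
  classical
  have hlq : ¬ q ∣ l := fun h =>
    hlN ((Nat.prime_dvd_prime_iff_eq hq.out hl).mp h ▸ dvd_mul_right q M)
  have hMl : ((M * l : ℕ) : Res A) ≠ 0 := by
    rw [Nat.cast_mul]
    exact mul_ne_zero hM fun h => hlq ((CharP.cast_eq_zero_iff (Res A) q l).mp h)
  have : FF.IsFunctionField (Res A) (KM A (M * l)) :=
    RedTorsion.isFunctionField_full (F := KM A (M * l)) rfl hMl
  set z : KM A M := redK hM F s with hz
  have hz0 : z ≠ 0 := fun e => hne s (congrArg Subtype.val e)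
  rw [redJ_hecke hM hMl hl, hx, resClass, resTJ_mk]
  set X := resNorm A M l z
  obtain ⟨u, w, hu, hw0, hXz⟩ :=
    exists_resNorm_eq (s := s) hA hM hne hMl hl hlN a hh hN
  have hX0 : X ≠ 0 := resNorm_ne_zero hz0
  have hdivX : resT A M l (resDiv p z) =
      a • resDiv p z + FF.div (Res A) w := by
    refine JacTorsion.eq_of_smul_eq (m := p) ?_
    rw [← map_zsmul (resT A M l), smul_resDiv hdiv, resT_div hz0, smul_add, smul_comm,
      smul_resDiv hdiv]
    refine Finsupp.ext fun Q => ?_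
    have e := congrArg Q.ord hXz
    rw [Q.ord_mul ((_root_.map_ne_zero _).mpr hu) hX0, FF.ord_algebraMap, zero_add,
      Q.ord_mul (zpow_ne_zero _ hz0) (pow_ne_zero _ hw0), Q.ord_zpow, FF.ord_pow] at e
    rw [Finsupp.add_apply, Finsupp.smul_apply, Finsupp.smul_apply, FF.div_apply, FF.div_apply,
      FF.div_apply, smul_eq_mul, smul_eq_mul, e]
  refine Eq.trans ?_ (map_zsmul (QuotientAddGroup.mk' _) a _)
  refine (QuotientAddGroup.eq_iff_sub_mem).mpr ?_
  rw [AddSubgroup.mem_addSubgroupOf, AddSubgroupClass.coe_sub, AddSubgroupClass.coe_zsmul,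
    Pic0.coe_degZeroCorrespondence]
  show resT A M l (resDiv p z) - a • resDiv p z ∈ _
  rw [hdivX, add_sub_cancel_left]
  exact FF.div_mem_principal hw0

end Fermat.Agent.RT.Mazur
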