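import Fermat.Agent.RT.Mazur.ResHecke
import Fermat.Agent.RT.Mazur.HeckeEnd
import Fermat.Agent.HeckeDuality.DeligneSerre

/-!
# Eigen classes of the reduced curve give congruent eigenforms

The kernel of the reduction of classes at level `M` is stable under the Hecke algebra, so a nonzero
`p`-torsion eigen class of the reduced curve gives a maximal ideal of the Hecke algebra of cusp
forms of level `M`, hence a congruent eigenform.
-/

set_option autoImplicit false

noncomputable section

open AlgebraicCurve ModularCurve CongruenceSubgroup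
open Fermat.Agent.Semistable Fermat.Agent.GaloisReps

namespace Fermat.Agent.RT.Mazur

variable {A : ValuationSubring Arith.QBar} {M : ℕ} [NeZero M] (hM : (M : Res A) ≠ 0)
  [FF.IsFunctionField Arith.QBar (FB M)] [FF.IsFunctionField (Res A) (KM A M)]

/-- `redJ` is the reduction of classes. -/
theorem redJ_eq_reductionModL (x : JZero M) : redJ hM x = reductionModL A M x := by
  have := Arith.residueField_isAlgClosed A
  have hin := EichlerShimura.reductionInputsModL (A := A) hM
  obtain ⟨D, rfl⟩ := Pic0.mk_surjective x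
  rw [redJ_mk, reductionModL_mk hin]
  refine congrArg Pic0.mk (Subtype.ext ?_)
  let δ : Divisor Arith.QBar (FB M) →+ Divisor (Res A) (KM A M) :=
    redD hM - Finsupp.mapDomain.addMonoidHom (placeReductionModL hin)
  refine sub_eq_zero.mp (EichlerShimura.eq_zero_of_degree_zero hM δ (fun E hE => ?_)
    (D : Divisor Arith.QBar (FB M)) D.2)
  obtain ⟨y, hy, hyk, hne, hEy⟩ := hE
  refine sub_eq_zero.mpr (Finsupp.ext fun Q => ?_)
  exact ((FiniteFlat.isPlaceReductionModL_redPlace (FiniteFlat.seriesCompat hM)).2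
    y hy hyk hne E hEy Q).trans
    ((isPlaceReductionModL_placeReductionModL hin).2 y hy hyk hne E hEy Q).symm

/-- The kernel of the reduction is stable under the Hecke correspondences. -/
theorem redJ_hecke_eq_zero {q : ℕ} [Fact q.Prime] [CharP (Res A) q] {l : ℕ} (hl : l.Prime)
    {x : JZero M} (hx : redJ hM x = 0) : redJ hM (heckeOperatorBar M ⟨l, hl⟩ x) = 0 := by
  have := Arith.residueField_isAlgClosed A
  rcases eq_or_ne l q with rfl | hlq
  · have hlM : ¬ l ∣ M := fun h => hM ((CharP.cast_eq_zero_iff (Res A) l M).mpr h)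
    have : NeZero l := ⟨hl.ne_zero⟩
    rw [redJ_eq_reductionModL, EichlerShimura.reductionModL_hecke hM hlM x,
      ← redJ_eq_reductionModL hM, hx]
    have hz : ∀ g : SemilinearAut (Res A) (KM A M), g • (0 : Pic0 (Res A) (KM A M)) = 0 :=
      fun g => DistribMulAction.smul_zero (A := Pic0 (Res A) (KM A M)) g
    refine (congr_arg₂ _ (hz _) ?_).trans (add_zero (0 : Pic0 (Res A) (KM A M)))
    exact (congrArg _ (hz _)).trans (nsmul_zero l)
  · have : NeZero l := ⟨hl.ne_zero⟩
    have hMl : ((M * l : ℕ) : Res A) ≠ 0 := by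
      rw [Nat.cast_mul]
      exact mul_ne_zero hM fun h => hlq ((Nat.prime_dvd_prime_iff_eq Fact.out hl).mp
        ((CharP.cast_eq_zero_iff (Res A) q l).mp h)).symm
    have : FF.IsFunctionField Arith.QBar (FB (M * l)) :=
      ModFun.isFunctionField_bar (M * l)
    have : FF.IsFunctionField (Res A) (KM A (M * l)) :=
      RedTorsion.isFunctionField_full (F := KM A (M * l)) rfl hMl
    rw [redJ_hecke hM hMl hl, hx, map_zero]

variable {q : ℕ} [Fact q.Prime] [CharP (Res A) q]

include q in
/-- The kernel of the reduction is stable under the Hecke algebra. -/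
theorem redJ_heckeAct_eq_zero (t : FullHecke M) :
    ∀ {x : JZero M}, redJ hM x = 0 → redJ hM (heckeAct M t x) = 0 := by
  obtain ⟨y, hy⟩ := t
  refine Algebra.adjoin_induction
    (p := fun y hy => ∀ {x : JZero M}, redJ hM x = 0 →
      redJ hM (heckeAct M (⟨y, hy⟩ : FullHecke M) x) = 0) ?_ ?_ ?_ ?_ hy
  · rintro y (⟨l, hl, hlN, -, rfl⟩ | ⟨l, hlN, hl, -, rfl⟩) x hx <;>
    · have h := heckeAct_heckeOp (N := M) l hl
      rw [HeckeDuality.heckeOp] at h
      first
        | rw [dif_neg hlN] at h
        | rw [dif_pos hlN] at h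
      exact (congrArg (fun f => redJ hM (f x)) h).trans (redJ_hecke_eq_zero (q := q) hM hl hx)
  · intro r x hx
    have h : redJ hM (heckeAct M (algebraMap ℤ (FullHecke M) r) x) = 0 := by
      rw [eq_intCast, map_intCast, Module.End.intCast_apply, map_zsmul, hx, smul_zero]
    exact h
  · intro a b ha hb h1 h2 x hx
    have h : redJ hM (heckeAct M ((⟨a, ha⟩ : FullHecke M) + ⟨b, hb⟩) x) = 0 := by
      rw [map_add, LinearMap.add_apply, map_add, h1 hx, h2 hx, add_zero]
    exact h
  · intro a b ha hb h1 h2 x hx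
    have h : redJ hM (heckeAct M ((⟨a, ha⟩ : FullHecke M) * ⟨b, hb⟩) x) = 0 := by
      rw [map_mul, Module.End.mul_apply]
      exact h1 (h2 hx)
    exact h

include q in
/-- **A nonzero eigen class of the reduced curve gives a congruent eigenform.** -/
theorem exists_eigenform_of_residual {p : ℕ} [Fact p.Prime] {y : Pic0 (Res A) (KM A M)}
    (hy : y ≠ 0) (hp : p • y = 0) (G : ℕ → Prop) (a : ℕ → ℤ)
    (heig : ∀ (l : ℕ) (hl : l.Prime), G l → ∀ x : JZero M, redJ hM x = y →
      redJ hM (heckeOperatorBar M ⟨l, hl⟩ x) = a l • y) :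
    ∃ (g : CuspForm (Gamma0 M) 2) (_ : g.IsNormalizedEigenform)
      (𝔪 : Ideal (integralClosure ℤ ℂ)), 𝔪.IsMaximal ∧
      ((p : ℕ) : integralClosure ℤ ℂ) ∈ 𝔪 ∧
      ∀ l, l.Prime → G l → ∃ c : integralClosure ℤ ℂ,
        (c : ℂ) = ModularFormClass.qCoeff g l ∧ c - (a l : integralClosure ℤ ℂ) ∈ 𝔪 := by
  classical
  obtain ⟨x₀, hx₀⟩ := redJ_surjective hM y
  -- the operators killing `y` form an ideal containing `p` and `T_l - a l`
  let I : Ideal (FullHecke M) :=
    { carrier := {t | redJ hM (heckeAct M t x₀) = 0}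
      add_mem' := fun {s t} hs ht => by
        show redJ hM (heckeAct M (s + t) x₀) = 0
        rw [map_add, LinearMap.add_apply, map_add, hs, ht, add_zero]
      zero_mem' := by
        show redJ hM (heckeAct M 0 x₀) = 0
        rw [map_zero, LinearMap.zero_apply, map_zero]
      smul_mem' := fun s t ht => by
        show redJ hM (heckeAct M (s * t) x₀) = 0
        rw [map_mul, Module.End.mul_apply]
        exact redJ_heckeAct_eq_zero (q := q) hM s ht }
  have hI : I ≠ ⊤ := fun h => hy (by
    have h1 : (1 : FullHecke M) ∈ I := h ▸ Submodule.mem_top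
    change redJ hM (heckeAct M 1 x₀) = 0 at h1
    rwa [map_one, Module.End.one_apply, hx₀] at h1)
  have hpI : (p : FullHecke M) ∈ I := by
    show redJ hM (heckeAct M (p : FullHecke M) x₀) = 0
    rw [map_natCast, Module.End.natCast_apply, map_nsmul, hx₀, hp]
  have haI : ∀ l (hl : l.Prime), G l →
      HeckeDuality.heckeOp M 2 l hl - (a l : FullHecke M) ∈ I := fun l hl hG => by
    show redJ hM (heckeAct M (HeckeDuality.heckeOp M 2 l hl - (a l : FullHecke M)) x₀) = 0
    rw [map_sub, LinearMap.sub_apply, map_sub, heckeAct_heckeOp, heig l hl hG x₀ hx₀, map_intCast,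
      Module.End.intCast_apply, map_zsmul, hx₀, sub_self]
  -- a maximal ideal over it has finite residue field of characteristic `p`
  obtain ⟨𝔭, h𝔭, hle⟩ := Ideal.exists_le_maximal I hI
  have : Module.Finite ℤ (FullHecke M) := IntegralStructure.heckeAlgebra_finite M 2 ∅
  let : Field (FullHecke M ⧸ 𝔭) := Ideal.Quotient.field 𝔭
  have hp0 : ((p : ℕ) : FullHecke M ⧸ 𝔭) = 0 := by
    rw [← map_natCast (Ideal.Quotient.mk 𝔭)]
    exact Ideal.Quotient.eq_zero_iff_mem.mpr (hle hpI)
  have : CharP (FullHecke M ⧸ 𝔭) p := (CharP.charP_iff_prime_eq_zero Fact.out).mpr hp0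
  let : Algebra (ZMod p) (FullHecke M ⧸ 𝔭) := ZMod.algebra _ p
  have : Module.Finite ℤ (FullHecke M ⧸ 𝔭) := Module.Finite.quotient ℤ _
  have : Module.Finite (ZMod p) (FullHecke M ⧸ 𝔭) := Module.Finite.of_restrictScalars_finite ℤ _ _
  have : Finite (FullHecke M ⧸ 𝔭) := Module.finite_of_finite (ZMod p)
  -- lift this eigensystem
  obtain ⟨g, hg, 𝔪, h𝔪, hp𝔪, hcong⟩ :=
    HeckeDuality.exists_eigenform_lifting (p := p) (Ideal.Quotient.mk 𝔭)
  refine ⟨g, hg, 𝔪, h𝔪, hp𝔪, fun l hl hG => hcong l hl (a l) ?_⟩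
  rw [← map_intCast (Ideal.Quotient.mk 𝔭), Ideal.Quotient.eq]
  exact hle (haI l hl hG)

end Fermat.Agent.RT.Mazur
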