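import Fermat.Agent.Semistable.Spaces
import Fermat.Agent.Mazur.Eisenstein.Unit
import Fermat.Agent.Igusa.SeriesOrder

/-!
# The vertical unit at level `q M`

`U = Δ(τ) / Δ(q τ)` is a function of level `q M`, invertible away from the cusps; the involution
`w` sends it to `q ^ 12 / U`.
-/

set_option autoImplicit false

noncomputable section

open UpperHalfPlane hiding I
open scoped MatrixGroups

namespace Fermat.Agent.RT.Mazur

open ModularCurve AlgebraicCurve CongruenceSubgroup
open Fermat.Agent.Semistable Fermat.Agent.ModFun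
open Fermat.Agent.Arith (QBar)

variable (q M : ℕ) [hq : Fact q.Prime] [NeZero M] (hqM : ¬ q ∣ M)

include hqM in
/-- The Atkin point of `τ`, with the value of `Δ(τ) / Δ(q τ)` there. -/
theorem exists_atkin_point_unit (τ : ℍ) :
    ∃ τ' : ℍ, (∀ d : Dvs (q * M),
      jH (scaleH d.1 τ') = jH (scaleH (swapDvs q M hqM d).1 τ)) ∧
      (Igusa.uFun q τ')⁻¹ = (q : ℂ) ^ 12 * Igusa.uFun q τ := by
  -- two elements of `Γ₀(M)` with `q (g (q τ)) = g' τ`
  obtain ⟨g, g', hg, hg', h00, h01, h10, h11⟩ := exists_atkin_pair q M hqM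
  have key := scaleH_smul_scaleH q h00 h01 h10 h11 τ
  -- the Atkin point is `g (q τ)`
  refine ⟨g • scaleH q τ, jH_scaleH_atkin_smul q M hqM hg hg' key, ?_⟩
  -- the weight of `Δ` gives the power of `q`
  have hd : denom g (scaleH q τ) = (q : ℂ) * denom g' τ := by
    rw [Igusa.coe_denom, Igusa.coe_denom, coe_scaleH, h10, h11]
    push_cast
    ring
  have hne : denom g' (τ : ℂ) ≠ 0 := denom_ne_zero _ τ
  have hΔ := ModularForm.discriminant_ne_zero τ
  have hΔq := ModularForm.discriminant_ne_zero (scaleH q τ)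
  have hq0 : (q : ℂ) ≠ 0 := Nat.cast_ne_zero.mpr hq.out.ne_zero
  rw [Igusa.uFun, Igusa.uFun, key, Igusa.discriminant_smul, Igusa.discriminant_smul, hd]
  field_simp

variable {q M}

/-- `w x = y` if the function of `x` takes at Atkin points the values of the function of `y`. -/
theorem wEquiv_eq_of_values {x y : FB (q * M)} {f g : Hol (q * M)}
    (hf : coeffMap (toCx : QBar →+* ℂ) (x : LSer) = qExp (q * M) f)
    (hg : coeffMap (toCx : QBar →+* ℂ) (y : LSer) = qExp (q * M) g)
    (h : ∀ τ : ℍ, ∃ τ' : ℍ, (∀ d : Dvs (q * M),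
      jH (scaleH d.1 τ') = jH (scaleH (swapDvs q M hqM d).1 τ)) ∧
      (f : ℍ → ℂ) τ' = (g : ℍ → ℂ) τ) :
    wEquiv q M hqM x = y := by
  classical
  set φ : QBar →+* ℂ := (toCx : QBar →+* ℂ)
  have hx : (x : LSer) ∈ IntermediateField.adjoin QBar
      (Set.range (gen QBar : Dvs (q * M) → LSer)) := by rw [← fb_eq_adjoin]; exact x.2
  obtain ⟨P, Q, hPQ⟩ := (IntermediateField.mem_adjoin_range_iff QBar _ _).mp hx
  by_cases hQ : MvPolynomial.aeval (gen QBar : Dvs (q * M) → LSer) Q = 0
  · rw [hQ, div_zero] at hPQ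
    have hx0 : x = 0 := Subtype.ext hPQ
    have hf0 : f = 0 := qExp_injective _ (by rw [← hf, hPQ, map_zero, map_zero])
    have hg0 : g = 0 := Subtype.ext (funext fun τ => by
      obtain ⟨τ', -, e⟩ := h τ
      rw [← e, hf0]
      rfl)
    rw [hx0, map_zero]
    refine (Subtype.ext (coeffMap_injective φ ?_)).symm
    rw [hg, hg0, map_zero]
    exact (map_zero _).symm
  have hxQ : x * MvPolynomial.aeval (genF (q * M)) Q = MvPolynomial.aeval (genF (q * M)) P := by
    refine Subtype.ext ?_
    have e : ∀ R : MvPolynomial (Dvs (q * M)) QBar,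
        ((MvPolynomial.aeval (genF (q * M)) R : FB (q * M)) : LSer) =
          MvPolynomial.aeval (gen QBar) R := fun R =>
      MvPolynomial.comp_aeval_apply (FB (q * M)).val (f := genF (q * M)) R
    rw [IntermediateField.coe_mul, e, e, hPQ, div_mul_cancel₀ _ hQ]
  -- the same identity for functions on the upper half plane
  have hgenH : ∀ R : MvPolynomial (Dvs (q * M)) QBar,
      coeffMap φ (MvPolynomial.aeval (gen QBar) R) =
        qExp (q * M) (MvPolynomial.aeval (genH (q * M)) (MvPolynomial.map φ R)) := fun R => by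
    rw [coeffMap_aeval, MvPolynomial.comp_aeval_apply]
    simp only [coeffMap_gen, qExp_genH]
  have hfun : f * MvPolynomial.aeval (genH (q * M)) (MvPolynomial.map φ Q) =
      MvPolynomial.aeval (genH (q * M)) (MvPolynomial.map φ P) := by
    refine qExp_injective (q * M) ?_
    rw [map_mul, ← hgenH, ← hgenH, ← hf, ← map_mul, hPQ, div_mul_cancel₀ _ hQ]
  let sw : Dvs (q * M) → Hol (q * M) := fun d => genH (q * M) (swapDvs q M hqM d)
  have hfun' : g * MvPolynomial.aeval sw (MvPolynomial.map φ Q) =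
      MvPolynomial.aeval sw (MvPolynomial.map φ P) := by
    refine Subtype.ext (funext fun τ => ?_)
    obtain ⟨τ', hτ', e⟩ := h τ
    have e2 : ∀ R : MvPolynomial (Dvs (q * M)) ℂ,
        evalHol (q * M) τ (MvPolynomial.aeval sw R) =
          evalHol (q * M) τ' (MvPolynomial.aeval (genH (q * M)) R) := by
      intro R
      rw [MvPolynomial.comp_aeval_apply, MvPolynomial.comp_aeval_apply]
      refine DFunLike.congr_fun (MvPolynomial.algHom_ext fun d => ?_) R
      rw [MvPolynomial.aeval_X, MvPolynomial.aeval_X]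
      simp only [evalHol, AlgHom.comp_apply, Pi.evalAlgHom_apply, Subalgebra.coe_val, genH, sw,
        jd_apply]
      exact (hτ' d).symm
    show evalHol (q * M) τ (g * _) = evalHol (q * M) τ _
    rw [map_mul, e2, e2, ← hfun, map_mul]
    exact congrArg (· * _) e.symm
  -- transport to series
  have hsw : ∀ R : MvPolynomial (Dvs (q * M)) QBar,
      coeffMap φ ((wEquiv q M hqM (MvPolynomial.aeval (genF (q * M)) R) : FB (q * M)) : LSer) =
        qExp (q * M) (MvPolynomial.aeval sw (MvPolynomial.map φ R)) := fun R => by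
    rw [show ((wEquiv q M hqM (MvPolynomial.aeval (genF (q * M)) R) : FB (q * M)) : LSer) =
      ((FB (q * M)).val.comp (wEquiv q M hqM).toAlgHom)
        (MvPolynomial.aeval (genF (q * M)) R) from rfl,
      MvPolynomial.comp_aeval_apply, coeffMap_aeval, MvPolynomial.comp_aeval_apply]
    refine DFunLike.congr_fun (MvPolynomial.algHom_ext fun d => ?_) _
    rw [MvPolynomial.aeval_X, MvPolynomial.aeval_X]
    show coeffMap φ ((wEquiv q M hqM (genF (q * M) d) : FB (q * M)) : LSer) = _
    rw [wEquiv_gen, coe_genF, coeffMap_gen]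
    exact (qExp_genH _ _).symm
  have h1 := congrArg (fun z : FB (q * M) =>
    coeffMap φ ((wEquiv q M hqM z : FB (q * M)) : LSer)) hxQ
  simp only [map_mul, IntermediateField.coe_mul, hsw] at h1
  have h2 : coeffMap φ (y : LSer) * qExp (q * M) (MvPolynomial.aeval sw (MvPolynomial.map φ Q)) =
      qExp (q * M) (MvPolynomial.aeval sw (MvPolynomial.map φ P)) := by
    rw [hg, ← map_mul, hfun']
  have hne : qExp (q * M) (MvPolynomial.aeval sw (MvPolynomial.map φ Q)) ≠ 0 := by
    rw [← hsw, _root_.map_ne_zero, Ne, ZeroMemClass.coe_eq_zero, map_eq_zero]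
    intro h0
    refine hQ ?_
    have := congrArg (fun z : FB (q * M) => (z : LSer)) h0
    rwa [show ((MvPolynomial.aeval (genF (q * M)) Q : FB (q * M)) : LSer) =
      MvPolynomial.aeval (gen QBar) Q from
        MvPolynomial.comp_aeval_apply (FB (q * M)).val (f := genF (q * M)) Q] at this
  exact Subtype.ext (coeffMap_injective φ (mul_right_cancel₀ hne (h1.trans h2.symm)))

variable (q M)

theorem jBase_eq_upF : ModFun.jBase (q * M) QBar = upF M q (jM M) :=
  Subtype.ext (by rw [ModFun.coe_jBase, coe_upF, coe_jM])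

include hqM in
theorem exists_unitU : ∃ U : FB (q * M),
    (U : LSer) = Igusa.deltaSer QBar * qExpand QBar q (Igusa.deltaInvSer QBar) ∧
      (∀ v : Place QBar (FB (q * M)), 0 ≤ v.ord (upF M q (jM M)) → v.ord U = 0) ∧
      wEquiv q M hqM U * U = algebraMap QBar (FB (q * M)) ((q : QBar) ^ 12) := by
  have hd : q ∣ q * M := dvd_mul_right q M
  have h := Mazur.Eisenstein.goodRed_qbar (q * M)
  obtain ⟨e1, e2⟩ := Mazur.Eisenstein.qExp_uHol (N := q * M) hd
  have r1 : Igusa.Red Mazur.Eisenstein.qbarPi (qExp (q * M) (Igusa.uHol hd))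
      (qExpand QBar q (Igusa.deltaSer QBar) * Igusa.deltaInvSer QBar) := by
    rw [e1]; exact (Igusa.red_deltaSer.qExpand q).mul Igusa.red_deltaInvSer
  have r2 : Igusa.Red Mazur.Eisenstein.qbarPi (qExp (q * M) (Igusa.uInvHol hd))
      (qExpand QBar q (Igusa.deltaInvSer QBar) * Igusa.deltaSer QBar) := by
    rw [e2]; exact (Igusa.red_deltaInvSer.qExpand q).mul Igusa.red_deltaSer
  obtain ⟨x, hx, hxv⟩ :=
    Mazur.Eisenstein.exists_integral_element ⟨_, h.uHol_mem hd⟩ r1
  obtain ⟨U, hU, hUv⟩ :=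
    Mazur.Eisenstein.exists_integral_element ⟨_, h.uInvHol_mem hd⟩ r2
  have hUx : U * x = 1 := by
    refine Subtype.ext ?_
    show (U : LSer) * (x : LSer) = 1
    rw [hU, hx, mul_mul_mul_comm, ← map_mul, mul_comm (Igusa.deltaInvSer QBar),
      Igusa.deltaSer_mul_inv, map_one, one_mul]
  refine ⟨U, by rw [hU, mul_comm], fun v hv => ?_, ?_⟩
  · have hv' : 0 ≤ v.ord (Genus.jB (q * M)) := by
      rw [show Genus.jB (q * M) = upF M q (jM M) from jBase_eq_upF q M]; exact hv
    have h1 := FF.ord_nonneg v (hUv v hv')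
    have h2 := FF.ord_nonneg v (hxv v hv')
    have h3 := v.ord_mul (left_ne_zero_of_mul_eq_one hUx) (right_ne_zero_of_mul_eq_one hUx)
    rw [hUx, v.ord_one] at h3
    omega
  · have hw : wEquiv q M hqM U = algebraMap QBar (FB (q * M)) ((q : QBar) ^ 12) * x := by
      refine wEquiv_eq_of_values hqM (f := Igusa.uInvHol hd)
        (g := algebraMap ℂ (Hol (q * M)) ((q : ℂ) ^ 12) * Igusa.uHol hd) ?_ ?_ fun τ => ?_
      · rw [hU, e2, map_mul, coeffMap_qExpand, Igusa.coeffMap_deltaSer, Igusa.coeffMap_deltaInvSer]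
      · rw [IntermediateField.coe_mul, hx, map_mul, map_mul, map_mul, AlgHom.commutes, e1,
          coeffMap_qExpand, Igusa.coeffMap_deltaSer, Igusa.coeffMap_deltaInvSer]
        congr 1
        show coeffMap _ (algebraMap QBar LSer _) = _
        rw [algebraMap_laurentSeries_eq_single, algebraMap_laurentSeries_eq_single, coeffMap_single,
          map_pow, map_natCast]
      · obtain ⟨τ', hτ', e⟩ := exists_atkin_point_unit q M hqM τ
        exact ⟨τ', hτ', e⟩
    rw [hw, mul_assoc, mul_comm x, hUx, mul_one]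

/-- The vertical unit `Δ(τ) / Δ(q τ)`. -/
def unitU : FB (q * M) := (exists_unitU q M hqM).choose

theorem coe_unitU : (unitU q M hqM : LSer) =
    Igusa.deltaSer QBar * qExpand QBar q (Igusa.deltaInvSer QBar) :=
  (exists_unitU q M hqM).choose_spec.1

/-- `U` is a unit at every place where `j` is finite. -/
theorem ord_unitU {v : Place QBar (FB (q * M))} (hv : 0 ≤ v.ord (upF M q (jM M))) :
    v.ord (unitU q M hqM) = 0 :=
  (exists_unitU q M hqM).choose_spec.2.1 v hv

/-- The involution `w` sends `U` to `q ^ 12 / U`. -/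
theorem wEquiv_unitU_mul :
    wEquiv q M hqM (unitU q M hqM) * unitU q M hqM =
      algebraMap QBar (FB (q * M)) ((q : QBar) ^ 12) :=
  (exists_unitU q M hqM).choose_spec.2.2

/-- `U` is nonzero. -/
theorem unitU_ne_zero : unitU q M hqM ≠ 0 := fun h => by
  have := wEquiv_unitU_mul q M hqM
  rw [h, mul_zero, eq_comm, map_eq_zero] at this
  exact pow_ne_zero 12 (Nat.cast_ne_zero.mpr hq.out.ne_zero) this

/-- `U` has coefficients fixed by every map of constants. -/
theorem coeffMap_unitU (τ : QBar →+* QBar) :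
    coeffMap τ (unitU q M hqM : LSer) = (unitU q M hqM : LSer) := by
  rw [coe_unitU, map_mul, coeffMap_qExpand, Igusa.coeffMap_deltaSer, Igusa.coeffMap_deltaInvSer]

/-- The reduction of the vertical unit. -/
def rhoSer (k : Type*) [CommRing k] : LaurentSeries k :=
  Igusa.deltaSer k * qExpand k q (Igusa.deltaInvSer k)

variable (A : ValuationSubring QBar)

/-- `U` has integral expansion. -/
theorem unitU_mem_intS : (unitU q M hqM : LSer) ∈ intS A := by
  rw [coe_unitU, ← Igusa.coeffMap_deltaSer (Int.castRingHom QBar),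
    ← Igusa.coeffMap_deltaInvSer (Int.castRingHom QBar), ← coeffMap_qExpand, ← map_mul]
  exact coeffMap_intCast_mem_intS _

/-- The reduction of `U` is the series `rhoSer`. -/
theorem redL_unitU : redL A ⟨_, intS_le_locS (unitU_mem_intS q M hqM A)⟩ = rhoSer q (Res A) := by
  have e : (unitU q M hqM : LSer) = coeffMap (Int.castRingHom QBar)
      (Igusa.deltaSer ℤ * qExpand ℤ q (Igusa.deltaInvSer ℤ)) := by
    rw [coe_unitU, map_mul, coeffMap_qExpand, Igusa.coeffMap_deltaSer, Igusa.coeffMap_deltaInvSer]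
  rw [redL_congr _ (intS_le_locS (coeffMap_intCast_mem_intS _)) e]
  refine (redL_of_mem_intS ⟨_, coeffMap_intCast_mem_intS _⟩).trans ?_
  rw [red_coeffMap_intCast, map_mul, coeffMap_qExpand, Igusa.coeffMap_deltaSer,
    Igusa.coeffMap_deltaInvSer, rhoSer]

/-! ### The reduced unit -/

section Rho

variable {k : Type*} [Field k]

/-- The reduction of the unit is nonzero. -/
theorem rhoSer_ne_zero (q : ℕ) [Fact q.Prime] : rhoSer q k ≠ 0 :=
  mul_ne_zero Igusa.deltaSer_ne_zero ((_root_.map_ne_zero _).mpr Igusa.deltaInvSer_ne_zero)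

/-- The reduction of the unit has order `1 - q`. -/
theorem order_rhoSer (q : ℕ) [Fact q.Prime] : (rhoSer q k).order = 1 - (q : ℤ) := by
  rw [rhoSer, HahnSeries.order_mul Igusa.deltaSer_ne_zero
    ((_root_.map_ne_zero _).mpr Igusa.deltaInvSer_ne_zero),
      Igusa.order_qExpand Igusa.deltaInvSer_ne_zero,
    Igusa.order_deltaSer, Igusa.order_deltaInvSer]
  ring

end Rho

end Fermat.Agent.RT.Mazur

end
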