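import Fermat.Agent.RT.Mazur.Torsion
import Fermat.Agent.GaloisReps.Characters

/-!
# The eigen class of a mod `p` eigenform in the `p`-torsion of `J₀(N)`

A prime ideal of the Hecke algebra containing `p` kills a nonzero vector of the lattice modulo `p`,
since the lattice is faithful.
-/

set_option autoImplicit false

noncomputable section

open AlgebraicCurve ModularCurve CongruenceSubgroup Fermat.Agent.GaloisReps
open Fermat.Agent.JacTorsion (torsionEquiv)

namespace Fermat.Agent.RT.Mazur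

/-- A prime ideal containing the annihilator of a finite module kills a nonzero element. -/
theorem exists_killed_by_prime {T V : Type*} [CommRing T] [AddCommGroup V] [Module T V] [Finite V]
    (𝔭 : Ideal T) [h𝔭 : 𝔭.IsPrime] (h : ∀ t : T, (∀ v : V, t • v = 0) → t ∈ 𝔭) :
    ∃ v : V, v ≠ 0 ∧ ∀ t ∈ 𝔭, t • v = 0 := by
  classical
  have : Fintype V := Fintype.ofFinite V
  let rng : T → Finset V := fun e => Finset.univ.image fun v => e • v
  have hmul : ∀ s e, rng (s * e) = (rng e).image (fun v => s • v) := fun s e => by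
    simp only [rng, Finset.image_image, Function.comp_def, mul_smul]
  obtain ⟨e, he, hmin⟩ : ∃ e, e ∉ 𝔭 ∧ ∀ e', e' ∉ 𝔭 → (rng e).card ≤ (rng e').card := by
    have hne : ∃ n, ∃ e, e ∉ 𝔭 ∧ (rng e).card = n :=
      ⟨_, 1, fun h1 => h𝔭.ne_top ((Ideal.eq_top_iff_one _).mpr h1), rfl⟩
    obtain ⟨e, he, hn⟩ := Nat.find_spec hne
    exact ⟨e, he, fun e' he' => hn ▸ Nat.find_min' hne ⟨e', he', rfl⟩⟩
  -- elements outside the ideal are injective on the image of `e`
  have hinj : ∀ s, s ∉ 𝔭 → ∀ x ∈ rng e, s • x = 0 → x = 0 := by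
    intro s hs x hx h0
    have hcard : ((rng e).image fun v => s • v).card = (rng e).card :=
      le_antisymm Finset.card_image_le
        (hmul s e ▸ hmin _ fun hse => (h𝔭.mem_or_mem hse).elim hs he)
    have h0mem : (0 : V) ∈ rng e := Finset.mem_image.mpr ⟨0, Finset.mem_univ _, smul_zero e⟩
    exact Finset.injOn_of_card_image_eq hcard (Finset.mem_coe.mpr hx) (Finset.mem_coe.mpr h0mem)
      (h0.trans (smul_zero s).symm)
  obtain ⟨v₀, hv₀⟩ : ∃ v : V, e • v ≠ 0 := by
    by_contra hall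
    exact he (h e fun v => by_contra fun hv => hall ⟨v, hv⟩)
  let orb : V → Set V := fun w => Set.range fun t : T => t • w
  let P : ℕ → Prop := fun n => ∃ w ∈ rng e, w ≠ 0 ∧ (orb w).ncard = n
  have hP : ∃ n, P n := ⟨_, e • v₀, Finset.mem_image.mpr ⟨v₀, Finset.mem_univ _, rfl⟩, hv₀, rfl⟩
  obtain ⟨w, hw, hw0, hn⟩ := Nat.find_spec hP
  refine ⟨w, hw0, fun s hs => by_contra fun hsw => hw0 ?_⟩
  have hswm : s • w ∈ rng e := by
    obtain ⟨v, -, rfl⟩ := Finset.mem_image.mp hw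
    exact Finset.mem_image.mpr ⟨s • v, Finset.mem_univ _, smul_comm e s v⟩
  have hle : orb (s • w) ⊆ orb w := by
    rintro _ ⟨t, rfl⟩
    exact ⟨t * s, mul_smul t s w⟩
  have heq : orb (s • w) = orb w := Set.eq_of_subset_of_ncard_le hle
    (hn ▸ Nat.find_min' hP ⟨_, hswm, hsw, rfl⟩)
  obtain ⟨r, hr⟩ : w ∈ orb (s • w) := heq ▸ ⟨1, one_smul T w⟩
  refine hinj (1 - r * s) (fun h1 => h𝔭.ne_top ((Ideal.eq_top_iff_one _).mpr ?_)) w hw ?_
  · have := add_mem h1 (Ideal.mul_mem_left 𝔭 r hs)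
    rwa [sub_add_cancel] at this
  · rw [sub_smul, one_smul, mul_smul, show r • s • w = w from hr, sub_self]

variable {N p : ℕ} [NeZero N] [Fact p.Prime]

/-- An element vanishing on the lattice modulo `p` lies in every prime ideal containing `p`. -/
theorem mem_of_latticeMat_map_eq_zero (𝔭 : Ideal (FullHecke N)) [𝔭.IsPrime]
    (hp : (p : FullHecke N) ∈ 𝔭) {t : FullHecke N}
    (h : (latticeMat N t).map (Int.castRingHom (ZMod p)) = 0) : t ∈ 𝔭 := by
  have hχ : (latticeMat N t).charpoly.map (Int.castRingHom (ZMod p)) =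
      Polynomial.X ^ (2 * Gamma0.genus N) := by
    rw [← Matrix.charpoly_map, h, Matrix.charpoly_zero, Fintype.card_fin]
  have h0 : Polynomial.eval₂ (Int.castRingHom (FullHecke N)) t (latticeMat N t).charpoly = 0 := by
    refine latticeMat_injective ?_
    rw [Polynomial.hom_eval₂, map_zero, RingHom.eq_intCast' ((latticeMat N).comp _)]
    exact Matrix.aeval_self_charpoly (latticeMat N t)
  have hpq : ((p : ℕ) : FullHecke N ⧸ 𝔭) = 0 := by
    rw [← map_natCast (Ideal.Quotient.mk 𝔭)]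
    exact Ideal.Quotient.eq_zero_iff_mem.mpr hp
  have hdiv : ringChar (FullHecke N ⧸ 𝔭) ∣ p := ringChar.dvd hpq
  let κ : ZMod p →+* FullHecke N ⧸ 𝔭 :=
    ZMod.castHom hdiv (FullHecke N ⧸ 𝔭)
  have h1 := congrArg (Ideal.Quotient.mk 𝔭) h0
  rw [Polynomial.hom_eval₂, map_zero,
    show (Ideal.Quotient.mk 𝔭).comp (Int.castRingHom (FullHecke N)) =
      κ.comp (Int.castRingHom (ZMod p)) from RingHom.ext_int _ _,
    ← Polynomial.eval₂_map, hχ, Polynomial.eval₂_X_pow] at h1
  exact Ideal.Quotient.eq_zero_iff_mem.mp (eq_zero_of_pow_eq_zero h1)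

/-- **A prime ideal containing `p` has an eigen class in the torsion.** -/
theorem exists_eigenTP_of_prime (𝔭 : Ideal (FullHecke N)) [𝔭.IsPrime] (hp : (p : FullHecke N) ∈ 𝔭)
    (G : ℕ → Prop) (a : ℕ → ℤ)
    (ha : ∀ l (hl : l.Prime), G l → HeckeDuality.heckeOp N 2 l hl - (a l : FullHecke N) ∈ 𝔭) :
    ∃ x : TP N p, x ≠ 0 ∧ x ∈ eigenTP N p G a := by
  have : NeZero p := ⟨(Fact.out : p.Prime).ne_zero⟩
  let ρ : FullHecke N →+* Module.End (ZMod p) (Fin (2 * Gamma0.genus N) → ZMod p) :=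
    (Matrix.toLinAlgEquiv' (R := ZMod p) (n := Fin (2 * Gamma0.genus N))).toAlgHom.toRingHom.comp
      ((Int.castRingHom (ZMod p)).mapMatrix.comp (latticeMat N))
  have hρ : ∀ t v, ρ t v = ((latticeMat N t).map (Int.castRingHom (ZMod p))).mulVec v :=
    fun t v => Matrix.toLinAlgEquiv'_apply _ _
  let : Module (FullHecke N) (Fin (2 * Gamma0.genus N) → ZMod p) := Module.compHom _ ρ
  obtain ⟨v, hv0, hv⟩ := exists_killed_by_prime (V := Fin (2 * Gamma0.genus N) → ZMod p) 𝔭
    fun t ht => mem_of_latticeMat_map_eq_zero 𝔭 hp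
      (Matrix.ext_iff_mulVec.mpr fun w => by rw [Matrix.zero_mulVec, ← hρ]; exact ht w)
  obtain ⟨x, hx⟩ := tCoord_surjective (N := N) p v
  refine ⟨x, fun e => hv0 ?_, fun l hl hG => ?_⟩
  · rw [← hx, e]
    simp [tCoord]
  · let y : TP N p := ⟨heckeOperatorBar N ⟨l, hl⟩ (x : JZero N), Pic0.mem_torsion.mpr (by
      rw [← map_zsmul, Pic0.mem_torsion.mp x.2, map_zero])⟩
    have hy := tCoord_hecke p l hl x y rfl
    have h1 : ρ (HeckeDuality.heckeOp N 2 l hl - (a l : FullHecke N)) v = 0 := hv _ (ha l hl hG)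
    rw [map_sub, map_intCast, LinearMap.sub_apply, Module.End.intCast_apply, hρ,
      latticeMat_heckeOp, ← hx, ← hy, sub_eq_zero] at h1
    have h2 : tCoord N p (a l • x) = a l • tCoord N p x := by
      simp only [tCoord, map_zsmul, AddSubgroup.coe_zsmul]
    exact congrArg Subtype.val (tCoord_injective p (h1.trans h2.symm))

/-- **A congruent eigenform gives an eigen class.** -/
theorem exists_eigenTP_of_eigenform {g : CuspForm (Gamma0 N) 2} (hg : g.IsNormalizedEigenform)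
    (𝔪 : Ideal (integralClosure ℤ ℂ)) [𝔪.IsPrime] (hp : ((p : ℕ) : integralClosure ℤ ℂ) ∈ 𝔪)
    (G : ℕ → Prop) (a : ℕ → ℤ)
    (hcong : ∀ l, l.Prime → G l → ∃ c : integralClosure ℤ ℂ,
      (c : ℂ) = ModularFormClass.qCoeff g l ∧ c - (a l : integralClosure ℤ ℂ) ∈ 𝔪) :
    ∃ x : TP N p, x ≠ 0 ∧ x ∈ eigenTP N p G a := by
  obtain ⟨θ, hθ⟩ := exists_eigenform_character hg
  refine exists_eigenTP_of_prime (p := p) (𝔪.comap θ) ?_ G a fun l hl hG => ?_
  · rw [Ideal.mem_comap, map_natCast]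
    exact hp
  · obtain ⟨c, hc, hca⟩ := hcong l hl hG
    rw [Ideal.mem_comap, map_sub, map_intCast,
      show θ (HeckeDuality.heckeOp N 2 l hl) = c from Subtype.ext ((hθ l hl).trans hc.symm)]
    exact hca

end Fermat.Agent.RT.Mazur
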