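import Fermat.Agent.RT.Mazur.Principle
import Fermat.Agent.RT.Mazur.EigenClass
import Fermat.Agent.RT.Mazur.Residually
import Fermat.Agent.GaloisReps.Models
import Fermat.Agent.FiniteFlat.Instance
import Fermat.Agent.Deform.Burnside
import Fermat.Agent.EC.Rep.TWHypothesis

/-!
# Level lowering by Mazur's principle

`lower_nonscalar_odd`: for an odd `p` and a semistable model `W` with irreducible mod `p`
representation, modular of level `q M`, `q ∤ M`, and unramified at `q ≠ p`, the prime `q` can be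
removed unless `q ≡ 1` modulo `p` and the Frobenius at `q` is scalar. For `p ≥ 5` semistability is
not needed (`lower_nonscalar`); for `p = 3` the orders use an auxiliary prime `s ≡ 2` modulo `3`
with `a_s` prime to `3`, which exists as the representation stays irreducible on the kernel of
its determinant. It is used in `RT/LowerA/CaseA`.
-/

set_option autoImplicit false

noncomputable section

open Polynomial
open WeierstrassCurve WeierstrassCurve.Affine WeierstrassCurve.Affine.Point
open Fermat.Agent.Semistable Fermat.Agent.Arith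

namespace Fermat.Agent.RT.Mazur

variable (W : WeierstrassCurve ℤ) (p : ℕ) [Fact p.Prime] (hΔ : W.Δ ≠ 0)

/-- A basis of the `p`-torsion. -/
def curveBasis : Module.Basis (Fin 2) (ZMod p) (EC.Rep.residualRep W p hΔ).V :=
  Module.finBasisOfFinrankEq _ _ (EC.Rep.residualRep W p hΔ).finrank_eq

/-- The representation on the `p`-torsion by matrices. -/
def curveMat : GQ →* Matrix (Fin 2) (Fin 2) (ZMod p) :=
  (LinearMap.toMatrixAlgEquiv (curveBasis W p hΔ)).toMonoidHom.comp (EC.Rep.residualRep W p hΔ).ρ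

variable {W p hΔ}

theorem curveMat_apply (σ : GQ) :
    curveMat W p hΔ σ =
      LinearMap.toMatrixAlgEquiv (curveBasis W p hΔ) ((EC.Rep.residualRep W p hΔ).ρ σ) := rfl

theorem curveMat_finiteLevel : ∃ L : IntermediateField ℚ (AlgebraicClosure ℚ),
    FiniteDimensional ℚ L ∧ ∀ σ : GQ, (∀ z ∈ L, σ z = z) → curveMat W p hΔ σ = 1 := by
  obtain ⟨L, hL, h⟩ := (EC.Rep.residualRep W p hΔ).factorsThroughFiniteLevel
  exact ⟨L, hL, fun σ hσ => by rw [curveMat_apply, h σ hσ, map_one]⟩

theorem span_curveMat (hp2 : p ≠ 2) (hirr : W.ModRepIsIrreducible p) :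
    Submodule.span (ZMod p) (Set.range (curveMat W p hΔ)) = ⊤ :=
  Deform.span_matrix_eq_top (EC.Rep.residualRep W p hΔ)
    (EC.Rep.isAbsolutelyIrreducible_residualRep hΔ hp2 hirr) (curveBasis W p hΔ)

theorem curveMat_eq_one {σ : GQ} (h : (EC.Rep.residualRep W p hΔ).ρ σ = 1) :
    curveMat W p hΔ σ = 1 := by rw [curveMat_apply, h, map_one]

theorem det_curveMat_frobenius {l : ℕ} (hl : l.Prime) (hlp : l ≠ p) {B : ValuationSubring QBar}
    (hB : B.LiesOverPrime l) {σ : GQ} (hσ : B.IsFrobeniusAt σ l) :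
    (curveMat W p hΔ σ).det = (l : ZMod p) := by
  have hn := EC.FrobTrace.card_rootsOfUnity_Qbar p
  show (LinearMap.toMatrix (curveBasis W p hΔ) (curveBasis W p hΔ)
    ((EC.Rep.residualRep W p hΔ).ρ σ)).det = _
  rw [LinearMap.det_toMatrix]
  exact (EC.Rep.det_residualRep hΔ hn σ).trans
    (modularCyclotomicCharacter_frobenius hB hl hσ hn
      fun h => hlp ((Nat.prime_dvd_prime_iff_eq hl Fact.out).mp h))

theorem trace_curveMat_frobenius {l : ℕ} (hl : l.Prime) (hgood : W.IsGoodPrimeFor l)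
    (hlp : l ≠ p) {B : ValuationSubring QBar} (hB : B.LiesOverPrime l) {σ : GQ}
    (hσ : B.IsFrobeniusAt σ l) :
    (curveMat W p hΔ σ).trace = (W.apOfModel l : ZMod p) := by
  have h := EC.Rep.charpoly_residualRep_frobenius hΔ hl hgood hlp hB hσ
  rw [EC.FrobTrace.charpoly_of_finrank_eq_two (EC.Rep.residualRep W p hΔ).finrank_eq] at h
  have h1 := congrArg (fun f => Polynomial.coeff f 1) h
  simp [Polynomial.coeff_X_pow, Polynomial.coeff_C] at h1
  show (LinearMap.toMatrix (curveBasis W p hΔ) (curveBasis W p hΔ)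
    ((EC.Rep.residualRep W p hΔ).ρ σ)).trace = _
  rw [← LinearMap.trace_eq_matrix_trace]
  exact h1

/-- Level lowering outside the scalar case, given the orders of the reductions. -/
theorem lower_of_eigenOrd {M q : ℕ} [NeZero M] (hp2 : p ≠ 2) (hq : q.Prime) (hqp : q ≠ p)
    (hqM : ¬ q ∣ M) (hirr : W.ModRepIsIrreducible p)
    (hmod : W.IsResiduallyModularOfLevel p (q * M))
    (hunr : (EC.Rep.residualRep W p hΔ).IsUnramifiedAt q)
    {A : ValuationSubring QBar} (hA : A.LiesOverPrime q) {σ : GQ} (hσ : A.IsFrobeniusAt σ q)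
    (hns : (∀ c : ZMod p, curveMat W p hΔ σ ≠ c • 1) ∨ (q : ZMod p) ≠ 1)
    (hord : ∀ [Fact q.Prime] [CharP (Res A) q] [FF.IsFunctionField (Res A) (KM A M)]
      (hM : (M : Res A) ≠ 0) (T : Finset ℕ),
      EigenOrd q p hqM hM (fun l => l ∉ T) (fun l => W.apOfModel l)) :
    W.IsResiduallyModularOfLevel p M := by
  classical
  have : Fact q.Prime := ⟨hq⟩
  have : CharP (Res A) q := residueField_charP hA hq
  have hM : (M : Res A) ≠ 0 := fun h => hqM ((CharP.cast_eq_zero_iff (Res A) q M).mp h)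
  have : FF.IsFunctionField (Res A) (KM A M) :=
    RedTorsion.isFunctionField_full (F := KM A M) rfl hM
  have hsetup : Setup A M q := ⟨hA, hqM, hM, (FiniteFlat.genusFF_residue_eq hM).ge⟩
  -- a form congruent to the curve
  obtain ⟨f, hf, 𝔪, T₀, h𝔪, hp𝔪, hcong⟩ :=
    isModularOutside_of_isResiduallyModular hΔ (NeZero.ne (q * M)) hmod
  set T := T₀ ∪ insert p ((q * M).primeFactors ∪ W.Δ.natAbs.primeFactors)
  have hT : ∀ l, l.Prime → l ∉ T → l ∉ T₀ ∧ W.IsGoodPrimeFor l ∧ ¬ l ∣ q * M * p ∧ l ≠ p := by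
    intro l hl hlT
    simp only [T, Finset.mem_union, Finset.mem_insert, not_or] at hlT
    refine ⟨hlT.1, fun h => hlT.2.2.2 (Nat.mem_primeFactors.mpr
      ⟨hl, Int.natCast_dvd.mp h, Int.natAbs_ne_zero.mpr hΔ⟩), fun h => ?_, hlT.2.1⟩
    rcases hl.dvd_mul.mp h with h | h
    · exact hlT.2.2.1 (Nat.mem_primeFactors.mpr ⟨hl, h, NeZero.ne (q * M)⟩)
    · exact hlT.2.1 ((Nat.prime_dvd_prime_iff_eq hl Fact.out).mp h)
  -- gives an eigenpoint in the torsion of `J₀(q M)`
  obtain ⟨x, hx0, hx⟩ := exists_eigenTP_of_eigenform (p := p) hf 𝔪 hp𝔪 (fun l => l ∉ T)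
    (fun l => W.apOfModel l) fun l hl hlT => hcong l hl (hT l hl hlT).1
  -- by irreducibility some `a_l` differs from `l + 1`
  obtain ⟨l₀, hl₀, hl₀T, -, -, hne⟩ := EC.Rep.exists_apOfModel_ne (p := p)
    hp2 hirr hΔ T
  -- Mazur's principle
  obtain ⟨g, hg, 𝔫, h𝔫, hp𝔫, hg'⟩ := mazur_principle hsetup (Ne.symm hqp)
      (curveMat W p hΔ)
        curveMat_finiteLevel
    (span_curveMat hp2 hirr) T (fun l => l ∉ T) (fun l => W.apOfModel l)
    (fun l hl hlT => ⟨hlT, (hT l hl hlT).2.2.1⟩)
    (fun l hl hlT h => (hT l hl hlT).2.2.1 (h.mul_right p))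
    (fun l hl hlT B hB τ hτ => ⟨trace_curveMat_frobenius hl (hT l hl hlT).2.1 (hT l hl hlT).2.2.2
      hB hτ, det_curveMat_frobenius hl (hT l hl hlT).2.2.2 hB hτ⟩)
    (fun τ hτ => curveMat_eq_one (hunr A hA τ hτ)) hl₀ hl₀T
    (fun h => hne (by
      have h' := (ZMod.intCast_zmod_eq_zero_iff_dvd _ p).mpr h
      push_cast at h'
      linear_combination -h'))
    (hord hM T) hx hx0 hσ (det_curveMat_frobenius hq hqp hA hσ) hns
  exact isResiduallyModular_of_outside hΔ
    GaloisReps.models ⟨g, hg, 𝔫, T, h𝔫, hp𝔫, hg'⟩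

/-- For `p = 3`, the kernel of a character with values in `(ℤ/p)ˣ` taking the value `-1` has
index two. -/
private theorem index_ker_eq_two {G : Type} [Group G] (hp3 : p = 3) (d : G →* (ZMod p)ˣ) {c : G}
    (hc : d c = -1) : d.ker.index = 2 := by
  subst hp3
  have htop : d.range = ⊤ := eq_top_iff.2 fun u _ => by
    obtain rfl | rfl := EC.Rep.units_zmod_three u
    exacts [one_mem _, ⟨c, hc⟩]
  rw [Subgroup.index_ker, htop, Subgroup.card_top, Nat.card_eq_fintype_card, ZMod.card_units 3]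

/-- On a subgroup of index two the representation has no common eigenvector over the algebraic
closure, so it spans the matrices. -/
private theorem span_curveMat_indexTwo (hW : W.IsSemistableModel) (hp2 : p ≠ 2)
    (hirr : W.ModRepIsIrreducible p) (H : Subgroup GQ) (hindex : H.index = 2) :
    Submodule.span (AlgebraicClosure (ZMod p))
      (Set.range ((Deform.mapM (algebraMap (ZMod p) (AlgebraicClosure (ZMod p)))
        (curveMat W p hΔ)).comp H.subtype)) = ⊤ := by
  classical
  let K := AlgebraicClosure (ZMod p)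
  let r : GQ →* Deform.M2 (ZMod p) := curveMat W p hΔ
  let rK : GQ →* Deform.M2 K := Deform.mapM (algebraMap (ZMod p) K) r
  -- no common eigenvector suffices
  refine Deform.span_eq_top_of_not_hasCommonEigvec _ ?_
  rintro ⟨v, hv, hev⟩
  let ρ := EC.Rep.residualRep W p hΔ
  let b := curveBasis W p hΔ
  let bK : Module.Basis (Fin 2) K (ρ.baseChange K).V := b.baseChange K
  let w : (ρ.baseChange K).V := bK.equivFun.symm v
  have hw0 : w ≠ 0 := fun h => hv (by
    rw [← bK.equivFun.apply_symm_apply v]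
    exact (congr_arg bK.equivFun h).trans (map_zero _))
  have hmat : ∀ σ, LinearMap.toMatrix bK bK ((ρ.baseChange K).ρ σ) = rK σ := fun σ => by
    ext i j
    show LinearMap.toMatrix bK bK ((ρ.ρ σ).baseChange K) i j = _
    rw [LinearMap.toMatrix_apply, Module.Basis.baseChange_apply, LinearMap.baseChange_tmul,
      Module.Basis.baseChange_repr_tmul, Deform.mapM_apply, Algebra.smul_def, mul_one]
    show algebraMap (ZMod p) K _ =
      algebraMap (ZMod p) K (LinearMap.toMatrixAlgEquiv b (ρ.ρ σ) i j)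
    rw [LinearMap.toMatrixAlgEquiv_apply]
  -- its line would be stable under `H`
  have hinv : ∀ σ ∈ H, ∀ x ∈ Submodule.span K {w},
      (ρ.baseChange K).ρ σ x ∈ Submodule.span K {w} := by
    intro σ hσ x hx
    obtain ⟨t, rfl⟩ := Submodule.mem_span_singleton.mp hx
    rw [map_smul]
    refine Submodule.smul_mem _ t (Submodule.mem_span_singleton.mpr ?_)
    obtain ⟨e, he⟩ := hev ⟨σ, hσ⟩
    refine ⟨e, ?_⟩
    have h1 : (rK σ).mulVec (bK.repr w) = bK.repr ((ρ.baseChange K).ρ σ w) := by
      rw [← hmat σ]; exact LinearMap.toMatrix_mulVec_repr bK bK _ w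
    have h2 : (bK.repr w : Fin 2 → K) = v := by
      rw [← Module.Basis.equivFun_apply]; exact bK.equivFun.apply_symm_apply v
    rw [h2] at h1
    have he' : (rK σ).mulVec v = e • v := he
    rw [he'] at h1
    apply bK.repr.injective
    ext i
    rw [map_smul, Finsupp.smul_apply, ← congr_fun h1 i, h2]
    rfl
  -- contradicting irreducibility on subgroups of index two
  rcases EC.Rep.residualRep_indexTwo_irreducible hW hp2 hirr K H hindex _ hinv with h | h
  · exact hw0 (Submodule.span_singleton_eq_bot.mp h)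
  · have := finrank_span_singleton (K := K) hw0
    rw [h, finrank_top, (ρ.baseChange K).finrank_eq] at this
    omega

/-- An element of determinant `-1` and nonzero trace, for `p = 3`. -/
theorem exists_det_neg_one_trace_ne (hW : W.IsSemistableModel) (hirr : W.ModRepIsIrreducible p)
    (hp3 : p = 3) :
    ∃ g : GQ, (curveMat W p hΔ g).det = -1 ∧ (curveMat W p hΔ g).trace ≠ 0 := by
  classical
  have hp2 : p ≠ 2 := by omega
  -- Complex conjugation `c` has determinant `-1`.
  obtain ⟨c, hc2, hcdet⟩ : ∃ c : GQ, c * c = 1 ∧ (curveMat W p hΔ c).det = -1 := by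
    refine ⟨complexConjugation, complexConjugation_mul_self, ?_⟩
    show (LinearMap.toMatrix (curveBasis W p hΔ) (curveBasis W p hΔ)
      ((EC.Rep.residualRep W p hΔ).ρ complexConjugation)).det = _
    rw [LinearMap.det_toMatrix]
    exact EC.Rep.det_residualRep_involution hΔ hp2 complexConjugation_mul_self
      EC.Rep.complexConjugation_ne_one
  let r : GQ →* Deform.M2 (ZMod p) := curveMat W p hΔ
  let d : GQ →* (ZMod p)ˣ :=
    MonoidHom.toHomUnits
      { toFun := fun σ => (r σ).det
        map_one' := by rw [map_one, Matrix.det_one]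
        map_mul' := fun σ τ => by rw [map_mul, Matrix.det_mul] }
  have hd : ∀ σ, (d σ : ZMod p) = (r σ).det := fun σ => MonoidHom.coe_toHomUnits _ σ
  -- The kernel of the determinant has index two, and there the representation spans.
  have hindex : d.ker.index = 2 :=
    index_ker_eq_two hp3 d (c := c) (Units.ext (by rw [hd, hcdet, Units.val_neg, Units.val_one]))
  let K := AlgebraicClosure (ZMod p)
  let rK : GQ →* Deform.M2 K := Deform.mapM (algebraMap (ZMod p) K) r
  have hspan : Submodule.span K (Set.range (rK.comp d.ker.subtype)) = ⊤ :=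
    span_curveMat_indexTwo hW hp2 hirr d.ker hindex
  -- Otherwise `x ↦ tr (c * x)` kills the kernel, hence everything: but `tr (c * c) = 2 ≠ 0`.
  by_contra hall
  push Not at hall
  let F : Deform.M2 K →ₗ[K] K :=
    (Matrix.traceLinearMap (Fin 2) K K).comp (LinearMap.mulLeft K (rK c))
  have hle : (⊤ : Submodule K (Deform.M2 K)) ≤ LinearMap.ker F := by
    rw [← hspan, Submodule.span_le]
    rintro _ ⟨⟨h, hh⟩, rfl⟩
    have hdet : (r (c * h)).det = -1 := by
      rw [map_mul, Matrix.det_mul, ← hd h, show d h = 1 from hh, Units.val_one, mul_one]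
      exact hcdet
    show (rK c * rK h).trace = 0
    rw [← map_mul, show rK (c * h) = (r (c * h)).map (algebraMap (ZMod p) K) from rfl]
    refine (AddMonoidHom.map_trace (algebraMap (ZMod p) K).toAddMonoidHom _).symm.trans ?_
    rw [hall _ hdet]
    exact map_zero _
  have h2 : (rK c * rK c).trace = 0 := hle (Submodule.mem_top (x := rK c))
  rw [← map_mul, hc2, map_one, Matrix.trace_one, Fintype.card_fin] at h2
  have h3 : CharP K p := charP_of_injective_algebraMap (algebraMap (ZMod p) K).injective p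
  rw [CharP.cast_eq_zero_iff K p] at h2
  exact hp2 ((Nat.prime_dvd_prime_iff_eq Fact.out Nat.prime_two).mp h2)

/-- An auxiliary prime `s ≡ 2` modulo `3` with `a_s` prime to `3`. -/
theorem exists_prime_trace_ne (hW : W.IsSemistableModel) (hΔ : W.Δ ≠ 0)
    (hirr : W.ModRepIsIrreducible p) (hp3 : p = 3) (T : Finset ℕ) :
    ∃ s : ℕ, s.Prime ∧ s ∉ T ∧ s % 3 = 2 ∧ ¬ (3 : ℤ) ∣ W.apOfModel s := by
  classical
  obtain ⟨g, hg1, hg2⟩ := exists_det_neg_one_trace_ne (hΔ := hΔ) hW hirr hp3
  obtain ⟨L, hL, hfix⟩ := curveMat_finiteLevel (W := W) (p := p) (hΔ := hΔ)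
  obtain ⟨s, hs, hsT, B, hB, σ, hσ, he⟩ := Arith.Chebotarev.exists_frobenius_eq
    (curveMat W p hΔ) L hfix g (T ∪ insert p W.Δ.natAbs.primeFactors)
  simp only [Finset.mem_union, Finset.mem_insert, not_or] at hsT
  have hgood : W.IsGoodPrimeFor s := fun h => hsT.2.2
    (Nat.mem_primeFactors.mpr ⟨hs, Int.natCast_dvd.mp h, Int.natAbs_ne_zero.mpr hΔ⟩)
  rw [← he, det_curveMat_frobenius hs hsT.2.1 hB hσ] at hg1
  rw [← he, trace_curveMat_frobenius hs hgood hsT.2.1 hB hσ] at hg2
  subst hp3
  refine ⟨s, hs, hsT.1, ?_, fun h => hg2 ?_⟩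
  · exact (ZMod.natCast_eq_natCast_iff' s 2 3).mp (hg1.trans (by rfl))
  · rw [ZMod.intCast_zmod_eq_zero_iff_dvd]; exact h

/-- **Level lowering outside the scalar case**, `p ≥ 5`. -/
theorem lower_nonscalar {M q : ℕ} [NeZero M] (hp5 : 5 ≤ p) (hq : q.Prime) (hqp : q ≠ p)
    (hqM : ¬ q ∣ M) (hirr : W.ModRepIsIrreducible p)
    (hmod : W.IsResiduallyModularOfLevel p (q * M))
    (hunr : (EC.Rep.residualRep W p hΔ).IsUnramifiedAt q)
    {A : ValuationSubring QBar} (hA : A.LiesOverPrime q) {σ : GQ} (hσ : A.IsFrobeniusAt σ q)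
    (hns : (∀ c : ZMod p, curveMat W p hΔ σ ≠ c • 1) ∨ (q : ZMod p) ≠ 1) :
    W.IsResiduallyModularOfLevel p M :=
  lower_of_eigenOrd (by omega) hq hqp hqM hirr hmod hunr hA hσ hns
    fun hM _ => (ordDvd_all hA hM hp5).eigenOrd _ _

/-- **Level lowering outside the scalar case**, for a semistable model and every odd `p`. -/
theorem lower_nonscalar_odd {M q : ℕ} [NeZero M] (hp2 : p ≠ 2) (hW : W.IsSemistableModel)
    (hq : q.Prime) (hqp : q ≠ p) (hqM : ¬ q ∣ M) (hirr : W.ModRepIsIrreducible p)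
    (hmod : W.IsResiduallyModularOfLevel p (q * M))
    (hunr : (EC.Rep.residualRep W p hΔ).IsUnramifiedAt q)
    {A : ValuationSubring QBar} (hA : A.LiesOverPrime q) {σ : GQ} (hσ : A.IsFrobeniusAt σ q)
    (hns : (∀ c : ZMod p, curveMat W p hΔ σ ≠ c • 1) ∨ (q : ZMod p) ≠ 1) :
    W.IsResiduallyModularOfLevel p M := by
  by_cases hp3 : p = 3
  · subst hp3
    refine lower_of_eigenOrd hp2 hq hqp hqM hirr hmod hunr hA hσ hns fun {_} {_} {_} hM T => ?_
    obtain ⟨s, hs, hsT, hs3, has⟩ :=
      exists_prime_trace_ne hW hΔ hirr rfl (T ∪ (q * M).primeFactors)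
    rw [Finset.mem_union, not_or] at hsT
    exact eigenOrd_three hA hM hqp _ _ hs hs3
      (fun h => hsT.2 (Nat.mem_primeFactors.mpr
        ⟨hs, h, mul_ne_zero hq.ne_zero (NeZero.ne M)⟩)) hsT.1 has
  · have hp : p.Prime := Fact.out
    have hp5 : 5 ≤ p := by
      rcases Nat.lt_or_ge p 5 with h | h
      · interval_cases p <;> norm_num at *
      · exact h
    exact lower_nonscalar hp5 hq hqp hqM hirr hmod hunr hA hσ hns

end Fermat.Agent.RT.Mazur
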