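import Fermat.Agent.RT.Mazur.OrdersBasic
import Fermat.Agent.RedTorsion.FiniteDisc
import Fermat.Agent.RedTorsion.GenusBound
import Fermat.Agent.RedTorsion.CuspEmbeddings
import Fermat.Agent.ModFun.Ramification
import Fermat.Agent.Genus.Counts

/-!
# The `j`-line in positive characteristic at a level without elliptic points

In characteristic at least `5` and prime to the level, reduction sends the fibres over `0`, `1728`
and `∞` onto the fibres, and the genus is unchanged, so
the tame part of the Hurwitz formula forces the ramification indices `3`, `2`, a divisor of the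
level, and `1` elsewhere.

Main result: `ord_jK_of_noEll`.
-/

set_option autoImplicit false

noncomputable section

open AlgebraicCurve ModularCurve IsLocalRing Polynomial
open Fermat.Agent.FF Fermat.Agent.RedTorsion Fermat.Agent.Semistable Fermat.Agent.Arith
open scoped IntermediateField

namespace Fermat.Agent.RT.Mazur

attribute [-instance] IsScalarTower.of_algHom

/-! ## The tame Hurwitz bound -/

section Generic

variable {K F : Type*} [Field K] [Field F] [Algebra K F] [IsAlgClosed K] [IsFunctionField K F]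
  {x : F} [FiniteDimensional K⟮x⟯ F] [Algebra.IsSeparable K⟮x⟯ F]

/-- The tame part of the Hurwitz bound. -/
theorem sum_ram_le (hx : Transcendental K x) (s : Finset (Place K F)) :
    ∑ P ∈ s, ((P.ramificationIndex K⟮x⟯ : ℤ) - 1) ≤
      2 * (genusFF K F : ℤ) - 2 + 2 * Module.finrank K⟮x⟯ F := by
  classical
  have := RedTorsion.isFunctionField_adjoin hx
  have htop : K⟮(RedTorsion.gen x : K⟮x⟯)⟯ = ⊤ := by
    apply IntermediateField.map_injective K⟮x⟯.val
    rw [IntermediateField.adjoin_map, Set.image_singleton]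
    simp [RedTorsion.gen, ← AlgHom.fieldRange_eq_map]
  have hsurj : Function.Surjective (algebraMap K⟮(RedTorsion.gen x : K⟮x⟯)⟯ K⟮x⟯) := fun g =>
    ⟨⟨g, htop ▸ IntermediateField.mem_top⟩, rfl⟩
  have : FiniteDimensional K⟮(RedTorsion.gen x : K⟮x⟯)⟯ K⟮x⟯ :=
    Module.Finite.of_surjective (Algebra.linearMap K⟮(RedTorsion.gen x : K⟮x⟯)⟯ K⟮x⟯) hsurj
  have : Algebra.IsSeparable K⟮(RedTorsion.gen x : K⟮x⟯)⟯ K⟮x⟯ := ⟨fun g => by
    obtain ⟨g', rfl⟩ := hsurj g
    exact isSeparable_algebraMap g'⟩
  have : FiniteDimensional K⟮algebraMap K⟮x⟯ F (RedTorsion.gen x)⟯ F :=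
    inferInstanceAs (FiniteDimensional K⟮x⟯ F)
  have : Algebra.IsSeparable K⟮algebraMap K⟮x⟯ F (RedTorsion.gen x)⟯ F :=
    inferInstanceAs (Algebra.IsSeparable K⟮x⟯ F)
  obtain ⟨δ, hδ, hdual, -⟩ := exists_dual_divisor (K := K) (transcendental_gen hx)
  set R : Divisor K F := ∑ P ∈ s, Finsupp.single P ((P.ramificationIndex K⟮x⟯ : ℤ) - 1) with hR
  have h := le_genus_of_tower (F' := F) (transcendental_gen hx) hdual R fun P => by
    have he := ram_pos (x := x) P
    have h0 : (0 : ℤ) ≤ δ (P.restrict K⟮x⟯) := by simpa using Finsupp.le_def.mp hδ (P.restrict K⟮x⟯)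
    rw [hR, Finsupp.finsetSum_apply]
    simp only [Finsupp.single_apply, Finset.sum_ite_eq']
    split_ifs <;> nlinarith
  refine (le_of_eq ?_).trans h
  rw [hR, map_sum]
  exact Finset.sum_congr rfl fun P _ => by simp [Divisor.degree_single, deg_eq_one]

omit [FiniteDimensional K⟮x⟯ F] [Algebra.IsSeparable K⟮x⟯ F] in
omit [IsAlgClosed K] in
/-- The zeros of a function as its divisor plus its poles. -/
theorem poles_inv_eq (f : F) : poles K f⁻¹ = div K f + poles K f := Finsupp.ext fun v => by
  rw [Finsupp.add_apply, poles_apply, poles_apply, div_apply, v.ord_inv]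
  omega

/-- The sum of `D - 1` over the support of `D`. -/
theorem sum_sub_one_support (D : Divisor K F) :
    ∑ P ∈ D.support, (D P - 1) = Divisor.degree D - D.support.card := by
  rw [degree_eq_sum D _ subset_rfl, Finset.sum_sub_distrib, Finset.sum_const, nsmul_one]
  exact congrArg (· - _) (Finset.sum_congr rfl fun P _ => by simp [deg_eq_one])

omit [FiniteDimensional K⟮x⟯ F] [Algebra.IsSeparable K⟮x⟯ F] in
/-- Coefficients bounded below by `e` on the support give `e` times its cardinality as a bound. -/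
private theorem mul_card_support_le_degree {D : Divisor K F} {e : ℤ}
    (h : ∀ v ∈ D.support, e ≤ D v) : e * (D.support.card : ℤ) ≤ Divisor.degree D := by
  rw [degree_eq_sum _ _ subset_rfl]
  simp only [deg_eq_one, Nat.cast_one, mul_one]
  have := Finset.card_nsmul_le_sum _ _ _ h
  rw [nsmul_eq_mul] at this
  linarith

omit [FiniteDimensional K⟮x⟯ F] [Algebra.IsSeparable K⟮x⟯ F] in
/-- In the case of equality all of these coefficients are `e`. -/
private theorem apply_eq_of_mul_card_eq_degree {D : Divisor K F} {e : ℤ}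
    (h : ∀ v ∈ D.support, e ≤ D v) (he : e * (D.support.card : ℤ) = Divisor.degree D) :
    ∀ v ∈ D.support, D v = e := by
  have hsum : ∑ v ∈ D.support, D v = ∑ v ∈ D.support, e := by
    rw [Finset.sum_const, nsmul_eq_mul]
    have := degree_eq_sum D _ subset_rfl
    simp only [deg_eq_one, Nat.cast_one, mul_one] at this
    rw [← this, ← he]
    ring
  exact fun v hv => ((Finset.sum_eq_sum_iff_of_le h).mp hsum.symm v hv).symm

omit [IsAlgClosed K] [IsFunctionField K F] [FiniteDimensional K⟮x⟯ F]
  [Algebra.IsSeparable K⟮x⟯ F] in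
/-- Two fibres of a function are disjoint. -/
private theorem eq_of_ord_sub_pos {f : F} {a b : K} {v : Place K F}
    (ha : 0 < v.ord (f - algebraMap K F a)) (hb : 0 < v.ord (f - algebraMap K F b)) : a = b := by
  by_contra hab
  have h1 : algebraMap K F (b - a) ∈ ordGe v 1 := by
    rw [map_sub]
    simpa using sub_mem (mem_ordGe_of_le v (show (1 : ℤ) ≤ v.ord (f - algebraMap K F a) by omega))
      (mem_ordGe_of_le v (show (1 : ℤ) ≤ v.ord (f - algebraMap K F b) by omega))
  have := le_ord_of_mem_ordGe v ((_root_.map_ne_zero _).mpr (sub_ne_zero.mpr (Ne.symm hab))) h1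
  rw [ord_algebraMap] at this
  omega

omit [IsAlgClosed K] [IsFunctionField K F] [FiniteDimensional K⟮x⟯ F]
  [Algebra.IsSeparable K⟮x⟯ F] in
/-- A fibre of a function does not meet its poles. -/
private theorem not_ord_neg_of_ord_sub_pos {f : F} {c : K} {Q : Place K F}
    (h : 0 < Q.ord (f - algebraMap K F c)) : ¬ Q.ord f < 0 := fun h' => by
  have h1 : f ∈ ordGe Q 0 := by
    simpa using add_mem (mem_ordGe_of_le Q (show (0 : ℤ) ≤ Q.ord (f - algebraMap _ _ c) by omega))
      (mem_ordGe_of_le Q (show (0 : ℤ) ≤ Q.ord (algebraMap K F c) by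
        rw [ord_algebraMap]))
  have := le_ord_of_mem_ordGe Q (fun e => by rw [e, Place.ord_zero] at h'; omega) h1
  omega

open Classical in
/-- The tame Hurwitz bound for three disjoint divisors made of ramification indices, and further
places `X`. -/
private theorem three_divisors_sum_ram_le (hx : Transcendental K x) {D₁ D₂ D₃ : Divisor K F}
    (h₁₂ : Disjoint D₁.support D₂.support) (h₃ : Disjoint (D₁.support ∪ D₂.support) D₃.support)
    (e₁ : ∀ P ∈ D₁.support, (P.ramificationIndex K⟮x⟯ : ℤ) = D₁ P)
    (e₂ : ∀ P ∈ D₂.support, (P.ramificationIndex K⟮x⟯ : ℤ) = D₂ P)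
    (e₃ : ∀ P ∈ D₃.support, (P.ramificationIndex K⟮x⟯ : ℤ) = D₃ P)
    {X : Finset (Place K F)} (hX : Disjoint (D₁.support ∪ D₂.support ∪ D₃.support) X) :
    Divisor.degree D₁ - D₁.support.card + (Divisor.degree D₂ - D₂.support.card) +
        (Divisor.degree D₃ - D₃.support.card) +
        ∑ P ∈ X, ((P.ramificationIndex K⟮x⟯ : ℤ) - 1) ≤
      2 * (genusFF K F : ℤ) - 2 + 2 * Module.finrank K⟮x⟯ F := by
  have h := sum_ram_le hx (D₁.support ∪ D₂.support ∪ D₃.support ∪ X)
  rw [Finset.sum_union hX, Finset.sum_union h₃, Finset.sum_union h₁₂,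
    Finset.sum_congr rfl (g := fun P => D₁ P - 1) fun P hP => by rw [e₁ P hP],
    Finset.sum_congr rfl (s₁ := D₂.support) (g := fun P => D₂ P - 1) fun P hP => by rw [e₂ P hP],
    Finset.sum_congr rfl (s₁ := D₃.support) (g := fun P => D₃ P - 1) fun P hP => by rw [e₃ P hP],
    sum_sub_one_support, sum_sub_one_support, sum_sub_one_support] at h
  exact h

omit [IsAlgClosed K] [FiniteDimensional K⟮x⟯ F] [Algebra.IsSeparable K⟮x⟯ F] in
/-- The support of the zeros of a function. -/
private theorem mem_support_poles_inv {f : F} {Q : Place K F} :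
    Q ∈ (poles K f⁻¹).support ↔ 0 < Q.ord f := by
  rw [Finsupp.mem_support_iff, poles_apply, Q.ord_inv]
  omega

omit [IsAlgClosed K] [FiniteDimensional K⟮x⟯ F] [Algebra.IsSeparable K⟮x⟯ F] in
/-- Zeros of multiplicity divisible by `e` have multiplicity at least `e`. -/
private theorem le_poles_inv_of_dvd {f : F} {e : ℤ} (h : ∀ Q, e ∣ poles K f⁻¹ Q) :
    ∀ Q ∈ (poles K f⁻¹).support, e ≤ poles K f⁻¹ Q := fun Q hQ => by
  refine Int.le_of_dvd ?_ (h Q)
  have h' := mem_support_poles_inv.mp hQ
  rw [poles_apply, Q.ord_inv]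
  omega

end Generic

/-! ## Reduction of zeros -/

section Reduction

variable {A : ValuationSubring QBar} {F : Type*} [Field F] [Algebra QBar F]
  {Fk : Type*} [Field Fk] [Algebra (ResidueField A) Fk]
  [IsFunctionField QBar F] [IsFunctionField (ResidueField A) Fk]
  (h : FiniteFlat.GoodRed A F Fk)

theorem dvd_redDiv_apply {m : ℤ} {D : Divisor QBar F} (hD : ∀ v, m ∣ D v)
    (Q : Place (ResidueField A) Fk) : m ∣ FiniteFlat.redDiv h D Q := by
  classical
  rw [FiniteFlat.redDiv_apply, Finsupp.mapDomain, Finsupp.sum_apply]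
  refine Finset.dvd_sum fun v _ => ?_
  show m ∣ Finsupp.single (FiniteFlat.redPlace h v) (D v) Q
  rw [Finsupp.single_apply]
  split_ifs
  · exact hD v
  · exact dvd_zero _

theorem redDiv_zeros (g : h.S) (hg : FiniteFlat.redF h.toRedLattice g ≠ 0)
    (hdeg : Divisor.degree (poles QBar (g : F)) =
      Divisor.degree (poles (ResidueField A) (FiniteFlat.redF h.toRedLattice g))) :
    FiniteFlat.redDiv h (poles QBar (g : F)⁻¹) =
      poles (ResidueField A) (FiniteFlat.redF h.toRedLattice g)⁻¹ := by
  rw [poles_inv_eq, poles_inv_eq, map_add, FiniteFlat.redDiv_div h g hg,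
    RedTorsion.redDiv_poles h g hg hdeg]

end Reduction

/-! ## The fibres of `j` -/

section Levels

variable {A : ValuationSubring QBar} {N : ℕ} [NeZero N]
  [IsFunctionField QBar (FB N)] [IsFunctionField (Res A) (KM A N)]

omit [IsFunctionField QBar ↥(FB N)] in
/-- The orders of `j - a` over `a = 0` and `a = 1728` without elliptic points. -/
theorem ord_jB_sub_eq (a : QBar) {e : ℕ}
    (hdvd : ∀ v : Place QBar (FB N), 0 < v.ord (Genus.jB N - algebraMap QBar _ a) →
      v.ord (Genus.jB N - algebraMap QBar _ a) ∣ (e : ℤ))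
    (he : 0 < e)
    (hcard : e * (Genus.zerosFin N (Genus.jB N - algebraMap QBar _ a)).card = dedekindPsi N)
    {v : Place QBar (FB N)} (hv : 0 < v.ord (Genus.jB N - algebraMap QBar _ a)) :
    v.ord (Genus.jB N - algebraMap QBar _ a) = e := by
  set S := Genus.zerosFin N (Genus.jB N - algebraMap QBar _ a)
  have hle : ∀ w ∈ S, w.ord (Genus.jB N - algebraMap QBar _ a) ≤ (e : ℤ) := fun w hw =>
    Int.le_of_dvd (by exact_mod_cast he) (hdvd w ((Genus.mem_zerosFin N).mp hw))
  have hsum := Genus.sum_ord_zerosFin N (Genus.transcendental_jB_sub N a)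
  rw [(Genus.degree_jB_sub N a).2, ← hcard] at hsum
  refine (Finset.sum_eq_sum_iff_of_le hle).mp ?_ v ((Genus.mem_zerosFin N).mpr hv)
  rw [hsum, Finset.sum_const, nsmul_eq_mul]
  push_cast
  ring

variable (hN : (N : Res A) ≠ 0)

include hN in
omit [IsFunctionField QBar ↥(FB N)] [IsFunctionField (Res A) ↥(KM A N)] in
theorem finrank_jK_sub (a : Res A) :
    Module.finrank (Res A)⟮jK A N - algebraMap (Res A) (KM A N) a⟯ (KM A N) = dedekindPsi N := by
  have h : (Res A)⟮jK A N - algebraMap (Res A) (KM A N) a⟯ = (Res A)⟮jK A N⟯ := by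
    apply le_antisymm <;> rw [IntermediateField.adjoin_simple_le_iff]
    · exact sub_mem (IntermediateField.mem_adjoin_simple_self _ _)
        (IntermediateField.algebraMap_mem _ a)
    · simpa using add_mem (IntermediateField.mem_adjoin_simple_self (Res A)
        (jK A N - algebraMap (Res A) (KM A N) a)) (IntermediateField.algebraMap_mem _ a)
  rw [h]
  exact (RedTorsion.finrank_jF (K := Res A) (N := N) rfl hN).trans (ModFun.natCard_coset N)

include hN in
/-- The reduced fibre over `a`, of multiplicities divisible by `e`. -/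
theorem zeros_residue (a : A) {e : ℕ}
    (hdvd : ∀ v : Place QBar (FB N), 0 < v.ord (Genus.jB N - algebraMap QBar _ (a : QBar)) →
      v.ord (Genus.jB N - algebraMap QBar _ (a : QBar)) ∣ (e : ℤ))
    (he : 0 < e)
    (hcard : e * (Genus.zerosFin N (Genus.jB N - algebraMap QBar _ (a : QBar))).card =
      dedekindPsi N) :
    ∀ Q : Place (Res A) (KM A N),
      (e : ℤ) ∣ poles (Res A) (jK A N - algebraMap (Res A) (KM A N) (residue A a))⁻¹ Q := by
  obtain ⟨g, hg, hgr, hg0, hdeg⟩ := FiniteFlat.Torsion.exists_lift_sub hN a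
  intro Q
  rw [show jK A N - algebraMap (Res A) (KM A N) (residue A a) =
    FiniteFlat.redF (FiniteFlat.goodRed hN).toRedLattice g from hgr.symm,
    ← redDiv_zeros (FiniteFlat.goodRed hN) g hg0 hdeg]
  refine dvd_redDiv_apply _ (fun v => ?_) Q
  rw [hg, poles_apply, Place.ord_inv, neg_neg]
  change (e : ℤ) ∣ max 0 (v.ord (Genus.jB N - algebraMap QBar _ (a : QBar)))
  rcases lt_or_ge 0 (v.ord (Genus.jB N - algebraMap QBar _ (a : QBar))) with hv | hv
  · rw [max_eq_right hv.le, ord_jB_sub_eq _ hdvd he hcard hv]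
  · rw [max_eq_left hv]
    exact dvd_zero _

include hN in
/-- At a pole of `j` the order divides the level. -/
theorem ord_jK_dvd (Q : Place (Res A) (KM A N)) (hQ : Q.ord (jK A N) < 0) :
    Q.ord (jK A N) ∣ (N : ℤ) := by
  classical
  have := residueField_isAlgClosed A
  obtain ⟨g, hg, hgr⟩ := FiniteFlat.Torsion.exists_lift_j hN
  have hgr0 : FiniteFlat.redF (FiniteFlat.goodRed hN).toRedLattice g ≠ 0 := by
    rw [hgr]
    exact fun e => RedTorsion.transcendental_jF (K := Res A) (N := N) (F := KM A N) rfl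
      (e ▸ isAlgebraic_zero)
  -- `j` reduces to `j` with the same degree, so the pole divisor reduces to the pole divisor
  have hdeg : Divisor.degree (poles QBar ((g : FB N))) = Divisor.degree
      (poles (Res A) (FiniteFlat.redF (FiniteFlat.goodRed hN).toRedLattice g)) := by
    rw [hg, hgr]
    exact FiniteFlat.Torsion.degree_poles_j hN
  have hred := RedTorsion.redDiv_poles (FiniteFlat.goodRed hN) g hgr0 hdeg
  rw [hg, hgr] at hred
  set D := poles QBar (RedTorsion.jF (F := FB N) EichlerShimura.hFb)
  set D' := poles (Res A) (RedTorsion.jF (K := Res A) (N := N) (F := KM A N) rfl)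
  set red := FiniteFlat.redPlace (FiniteFlat.goodRed hN)
  have hsub : D'.support ⊆ D.support.image red := by
    rw [← hred, FiniteFlat.redDiv_apply]
    exact Finsupp.mapDomain_support
  have hsupp : ∀ {L E : Type} [Field L] [Field E] [Algebra L E] [IsFunctionField L E] (z : E)
      (v : Place L E), v ∈ (poles L z).support ↔ v.ord z < 0 := by
    intro L E _ _ _ _ z v
    rw [Finsupp.mem_support_iff, poles_apply]
    omega
  -- both characteristics have as many cusps, so reduction is injective on them
  have hc' : D'.support.card = cuspCount N := by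
    rw [← natCard_poles_residue hN, Nat.subtype_card D'.support fun v => hsupp _ v]
  have hc : D.support.card = cuspCount N := by
    rw [← Genus.card_zeros_inv N]
    congr 1
    ext v
    rw [hsupp, Genus.mem_zerosFin, v.ord_inv, neg_pos]
    rfl
  have hinj : Set.InjOn red D.support := Finset.injOn_of_card_image_eq
    (le_antisymm Finset.card_image_le ((hc.trans hc'.symm).le.trans (Finset.card_le_card hsub)))
  obtain ⟨P, hP, hPQ⟩ := Finset.mem_image.mp (hsub ((hsupp _ Q).mpr hQ))
  have hval : D' Q = D P := by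
    rw [← hred, FiniteFlat.redDiv_apply, ← hPQ]
    exact Finsupp.mapDomain_apply' _ _ subset_rfl hinj (Finset.mem_coe.mpr hP)
  have hP' := (hsupp _ P).mp hP
  -- in characteristic zero the order divides the level
  have hdvd := ModFun.ord_jBase_dvd P hP'
  have hQ' : Q.ord (RedTorsion.jF (K := Res A) (N := N) (F := KM A N) rfl) < 0 := hQ
  rw [poles_apply, poles_apply, max_eq_right (by omega), max_eq_right (by omega), neg_inj] at hval
  rw [show Q.ord (jK A N) = P.ord (ModFun.jBase N QBar) from hval]
  exact hdvd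

omit [NeZero N] [IsFunctionField QBar ↥(FB N)] [IsFunctionField (Res A) ↥(KM A N)] in
/-- `1728` is non-zero in characteristic at least five. -/
private theorem natCast_1728_ne_zero {r : ℕ} [Fact r.Prime] [CharP (Res A) r] (hr5 : 5 ≤ r) :
    ((1728 : ℕ) : Res A) ≠ 0 := fun h => by
  have hd : r ∣ 2 ^ 6 * 3 ^ 3 := (CharP.cast_eq_zero_iff (Res A) r _).mp h
  have hr : r.Prime := Fact.out
  rcases (Nat.Prime.dvd_mul hr).mp hd with h | h
  · have := (Nat.prime_dvd_prime_iff_eq hr Nat.prime_two).mp (hr.dvd_of_dvd_pow h); omega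
  · have := (Nat.prime_dvd_prime_iff_eq hr Nat.prime_three).mp (hr.dvd_of_dvd_pow h); omega

include hN in
/-- Without elliptic points of order three the orders over `j = 0` are divisible by three. -/
private theorem three_dvd_zeros (hE : nuThree N = 0) (Q : Place (Res A) (KM A N)) :
    (3 : ℤ) ∣ poles (Res A) (jK A N - algebraMap (Res A) (KM A N) 0)⁻¹ Q := by
  have h := zeros_residue hN (0 : A) (e := 3) (fun v hv => by
    have := ModFun.ord_jBase_sub_dvd v ((0 : A) : QBar) hv
    rwa [if_pos (show ((0 : A) : QBar) = 0 from rfl)] at this) (by norm_num)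
    (by
      have := Genus.three_mul_card_zeros_zero N
      rw [hE, mul_zero, add_zero] at this
      exact this) Q
  rwa [map_zero] at h

include hN in
/-- Without elliptic points of order two the orders over `j = 1728` are even. -/
private theorem two_dvd_zeros (hE : nuTwo N = 0) (Q : Place (Res A) (KM A N)) :
    (2 : ℤ) ∣
      poles (Res A) (jK A N - algebraMap (Res A) (KM A N) ((1728 : ℕ) : Res A))⁻¹ Q := by
  have h := zeros_residue hN ((1728 : ℕ) : A) (e := 2) (fun v hv => by
    have := ModFun.ord_jBase_sub_dvd v (((1728 : ℕ) : A) : QBar) hv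
    have e : (((1728 : ℕ) : A) : QBar) = 1728 := by push_cast; rfl
    rw [e] at this ⊢
    rwa [if_neg (by norm_num), if_pos rfl] at this) (by norm_num)
    (by
      have := Genus.two_mul_card_zeros_1728 N
      rw [hE, add_zero] at this
      have e : (((1728 : ℕ) : A) : QBar) = 1728 := by push_cast; rfl
      rw [e]
      exact this) Q
  rwa [map_natCast] at h

include hN in
omit [IsFunctionField QBar ↥(FB N)] in
/-- The zeros of `j - c` have total multiplicity `ψ N`. -/
private theorem degree_zeros_jK (c : Res A) :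
    Divisor.degree (poles (Res A) (jK A N - algebraMap (Res A) (KM A N) c)⁻¹) =
      dedekindPsi N := by
  have := residueField_isAlgClosed A
  have hx : Transcendental (Res A) (jK A N) :=
    RedTorsion.transcendental_jF (K := Res A) (N := N) (F := KM A N) rfl
  have ht : Transcendental (Res A) (jK A N - algebraMap (Res A) (KM A N) c) := fun h => hx (by
    simpa using h.add (isAlgebraic_algebraMap c))
  rw [degree_zeros ht, finrank_jK_sub hN]

include hN in
omit [IsFunctionField QBar ↥(FB N)] in
/-- On a fibre of `j` the ramification index is the multiplicity of the zero. -/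
private theorem ramificationIndex_eq_zeros (c : Res A) {Q : Place (Res A) (KM A N)}
    (hQ : 0 < Q.ord (jK A N - algebraMap (Res A) (KM A N) c)) :
    (Q.ramificationIndex (Res A)⟮jK A N⟯ : ℤ) =
      poles (Res A) (jK A N - algebraMap (Res A) (KM A N) c)⁻¹ Q := by
  have := residueField_isAlgClosed A
  have : FiniteDimensional (Res A)⟮jK A N⟯ (KM A N) :=
    RedTorsion.finiteDimensional_jF (K := Res A) (N := N) (F := KM A N) rfl hN
  have hx : Transcendental (Res A) (jK A N) :=
    RedTorsion.transcendental_jF (K := Res A) (N := N) (F := KM A N) rfl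
  rw [ram_of_zero hx Q (a := c)
    (mem_ordGe_of_le Q (by omega)), poles_apply, Place.ord_inv]
  omega

include hN in
omit [IsFunctionField QBar ↥(FB N)] [IsFunctionField (Res A) ↥(KM A N)] in
/-- The genus of the reduction without elliptic points. -/
private theorem twelve_mul_genus_residue (hE : nuTwo N = 0 ∧ nuThree N = 0) :
    (12 : ℤ) * genusFF (Res A) (KM A N) = 12 + dedekindPsi N - 6 * cuspCount N := by
  rw [show genusFF (Res A) (KM A N) = genusFF QBar (FB N) from FiniteFlat.genusFF_residue_eq hN]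
  have h2 := genus_FB (M := N) hE
  have : (12 : ℚ) * (genusFF QBar (FB N) : ℚ) = 12 + dedekindPsi N - 6 * cuspCount N := by
    rw [h2]; ring
  exact_mod_cast this

include hN in
/-- The tame Hurwitz bound is an equality: the fibres over `0` and `1728` have `ψ N / 3` and
`ψ N / 2` points, and `j` is unramified away from `0`, `1728` and `∞`. -/
private theorem card_fibres_and_unramified {r : ℕ} [Fact r.Prime] [CharP (Res A) r] (hr5 : 5 ≤ r)
    (hE : nuTwo N = 0 ∧ nuThree N = 0) :
    3 * ((poles (Res A) (jK A N - algebraMap (Res A) (KM A N) 0)⁻¹).support.card : ℤ) =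
      dedekindPsi N ∧
    2 * ((poles (Res A) (jK A N - algebraMap (Res A) (KM A N)
        ((1728 : ℕ) : Res A))⁻¹).support.card : ℤ) = dedekindPsi N ∧
    ∀ (Q : Place (Res A) (KM A N)) (a : Res A), a ≠ 0 → a ≠ ((1728 : ℕ) : Res A) →
      0 < Q.ord (jK A N - algebraMap (Res A) (KM A N) a) →
        Q.ramificationIndex (Res A)⟮jK A N⟯ = 1 := by
  classical
  have := residueField_isAlgClosed A
  have hx : Transcendental (Res A) (jK A N) :=
    RedTorsion.transcendental_jF (K := Res A) (N := N) (F := KM A N) rfl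
  have hfd : FiniteDimensional (Res A)⟮jK A N⟯ (KM A N) :=
    RedTorsion.finiteDimensional_jF (K := Res A) (N := N) (F := KM A N) rfl hN
  have hsep : Algebra.IsSeparable (Res A)⟮jK A N⟯ (KM A N) :=
    RedTorsion.isSeparable_jF (K := Res A) (N := N) (F := KM A N) rfl hN
  set j := jK A N with hj
  set Z : Res A → Divisor (Res A) (KM A N) :=
    fun c => poles (Res A) (j - algebraMap (Res A) (KM A N) c)⁻¹ with hZ
  have hdisj : ∀ c c', c ≠ c' → Disjoint (Z c).support (Z c').support := fun c c' hcc =>
    Finset.disjoint_left.mpr fun Q h h' =>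
      hcc (eq_of_ord_sub_pos (mem_support_poles_inv.mp h) (mem_support_poles_inv.mp h'))
  set P := poles (Res A) j with hPdef
  have hPmem : ∀ Q, Q ∈ P.support ↔ Q.ord j < 0 := fun Q => by
    rw [Finsupp.mem_support_iff, hPdef, poles_apply]
    omega
  have hdisjP : ∀ c, Disjoint (Z c).support P.support := fun c =>
    Finset.disjoint_left.mpr fun Q h h' =>
      not_ord_neg_of_ord_sub_pos (mem_support_poles_inv.mp h) ((hPmem Q).mp h')
  have hn0 : 3 * ((Z 0).support.card : ℤ) ≤ dedekindPsi N :=
    degree_zeros_jK hN 0 ▸ mul_card_support_le_degree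
      (le_poles_inv_of_dvd (three_dvd_zeros hN hE.2))
  have hn1 : 2 * ((Z ((1728 : ℕ) : Res A)).support.card : ℤ) ≤ dedekindPsi N :=
    degree_zeros_jK hN ((1728 : ℕ) : Res A) ▸ mul_card_support_le_degree
      (le_poles_inv_of_dvd (two_dvd_zeros hN hE.1))
  have hc : (P.support.card : ℤ) = cuspCount N := by
    exact_mod_cast (Nat.subtype_card P.support fun v => hPmem v).symm.trans
      (natCard_poles_residue hN)
  have hg := twelve_mul_genus_residue (A := A) hN hE
  have hdegP : Divisor.degree P = dedekindPsi N := by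
    rw [hPdef, degree_poles hx]
    exact_mod_cast (RedTorsion.finrank_jF (K := Res A) (N := N) (F := KM A N) rfl hN).trans
      (ModFun.natCard_coset N)
  have hfin : (Module.finrank (Res A)⟮j⟯ (KM A N) : ℤ) = dedekindPsi N := by
    rw [← degree_poles hx, ← hPdef, hdegP]
  -- Hurwitz
  set S := (Z 0).support ∪ (Z ((1728 : ℕ) : Res A)).support ∪ P.support with hS
  have hne : (0 : Res A) ≠ ((1728 : ℕ) : Res A) := Ne.symm (natCast_1728_ne_zero hr5)
  have he : ∀ c, ∀ Q ∈ (Z c).support, (Q.ramificationIndex (Res A)⟮j⟯ : ℤ) = Z c Q := fun c Q hQ =>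
    ramificationIndex_eq_zeros hN c (mem_support_poles_inv.mp hQ)
  have hbound : ∀ X : Finset (Place (Res A) (KM A N)), Disjoint S X →
      3 * ((Z 0).support.card : ℤ) = dedekindPsi N ∧
      2 * ((Z ((1728 : ℕ) : Res A)).support.card : ℤ) = dedekindPsi N ∧
      ∀ Q ∈ X, Q.ramificationIndex (Res A)⟮j⟯ = 1 := by
    intro X hX
    have h := three_divisors_sum_ram_le hx (hdisj _ _ hne)
      (Finset.disjoint_union_left.mpr ⟨hdisjP 0, hdisjP _⟩) (he 0) (he _)
      (fun Q hQ => ram_of_pole hx Q ((hPmem Q).mp hQ)) hX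
    rw [degree_zeros_jK hN, degree_zeros_jK hN, hdegP, hc, hfin] at h
    have hXnn : ∀ Q ∈ X, (0 : ℤ) ≤ (Q.ramificationIndex (Res A)⟮j⟯ : ℤ) - 1 := fun Q _ => by
      have := ram_pos (x := j) Q
      omega
    have hXsum : 0 ≤ ∑ Q ∈ X, ((Q.ramificationIndex (Res A)⟮j⟯ : ℤ) - 1) := Finset.sum_nonneg hXnn
    refine ⟨by omega, by omega, fun Q hQ => ?_⟩
    have := (Finset.sum_eq_zero_iff_of_nonneg hXnn).mp (by omega) Q hQ
    omega
  obtain ⟨hcard0, hcard1, -⟩ := hbound ∅ (Finset.disjoint_empty_right _)
  refine ⟨hcard0, hcard1, fun Q a ha ha1 hQ => ?_⟩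
  have hQa : Q ∈ (Z a).support := mem_support_poles_inv.mpr hQ
  have hX : Disjoint S {Q} := by
    rw [hS, Finset.disjoint_singleton_right, Finset.mem_union, Finset.mem_union]
    rintro ((h | h) | h)
    · exact Finset.disjoint_left.mp (hdisj a 0 ha) hQa h
    · exact Finset.disjoint_left.mp (hdisj a _ ha1) hQa h
    · exact Finset.disjoint_left.mp (hdisjP a) hQa h
  exact (hbound _ hX).2.2 Q (Finset.mem_singleton_self Q)

include hN in
/-- **The ramification of `j` without elliptic points.** -/
theorem ord_jK_of_noEll {r : ℕ} [Fact r.Prime] [CharP (Res A) r] (hr5 : 5 ≤ r)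
    (hE : nuTwo N = 0 ∧ nuThree N = 0) :
    (∀ Q : Place (Res A) (KM A N), 0 < Q.ord (jK A N) → Q.ord (jK A N) = 3) ∧
      ∀ (Q : Place (Res A) (KM A N)) (a : Res A), a ≠ 0 →
        0 < Q.ord (jK A N - algebraMap (Res A) (KM A N) a) →
          ¬ (3 : ℤ) ∣ Q.ord (jK A N - algebraMap (Res A) (KM A N) a) := by
  have := residueField_isAlgClosed A
  obtain ⟨hcard0, hcard1, hother⟩ := card_fibres_and_unramified hN hr5 hE
  refine ⟨fun Q hQ => ?_, fun Q a ha hQ => ?_⟩
  · have hQ0 : Q ∈ (poles (Res A) (jK A N - algebraMap (Res A) (KM A N) 0)⁻¹).support :=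
      mem_support_poles_inv.mpr (by rwa [map_zero, sub_zero])
    have := apply_eq_of_mul_card_eq_degree (le_poles_inv_of_dvd (three_dvd_zeros hN hE.2))
      (by rw [hcard0, degree_zeros_jK hN]) Q hQ0
    rw [poles_apply, Place.ord_inv] at this
    simp only [map_zero, sub_zero, neg_neg] at this
    omega
  · have he := ramificationIndex_eq_zeros hN a hQ
    rw [poles_apply, Place.ord_inv, neg_neg, max_eq_right hQ.le] at he
    by_cases ha1 : a = ((1728 : ℕ) : Res A)
    · subst ha1
      intro h3
      have h2 := apply_eq_of_mul_card_eq_degree (le_poles_inv_of_dvd (two_dvd_zeros hN hE.1))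
        (by rw [hcard1, degree_zeros_jK hN]) Q (mem_support_poles_inv.mpr hQ)
      rw [← ramificationIndex_eq_zeros hN _ hQ, he] at h2
      omega
    · rw [hother Q a ha ha1 hQ] at he
      omega

end Levels

end Fermat.Agent.RT.Mazur
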