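import Fermat.Agent.RT.Mazur.EllPlace
import Fermat.Agent.RT.Mazur.EllRam
import Fermat.Agent.RT.Mazur.ResidualClass
import Fermat.Agent.EC.Rep.Residual

/-!
# Orders of eigen Kummer functions at `p = 3`, with elliptic points

The order of a reduction can be prime to `3` only over `j = 0` at an unramified place. Those places
lift to unramified places over `j = 0`, where `T_s ≡ s + 1` modulo `3`; so the eigenvalue relation
makes the orders divisible by `3` as soon as `a_s ≢ s + 1` modulo `3`. The residue characteristic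
is at least `5` and `3` does not divide the level.
-/

set_option autoImplicit false

noncomputable section

open AlgebraicCurve ModularCurve
open Fermat.Agent.Semistable Fermat.Agent.Arith

namespace Fermat.Agent.RT.Mazur

/-- A prime `11` modulo `12` outside a finite set. -/
theorem exists_prime_eleven (S : Finset ℕ) : ∃ t : ℕ, t.Prime ∧ t % 12 = 11 ∧ t ∉ S := by
  have hu : IsUnit (11 : ZMod 12) := IsUnit.of_mul_eq_one (11 : ZMod 12) (by decide)
  obtain ⟨t, hgt, ht, hmod⟩ :=
    Nat.forall_exists_prime_gt_and_eq_mod (q := 12) (a := (11 : ZMod 12)) hu (S.sup id)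
  refine ⟨t, ht, ?_, fun h => absurd (Finset.le_sup (f := id) h) (not_le.mpr hgt)⟩
  have h := congrArg ZMod.val hmod
  rw [ZMod.val_natCast] at h
  exact h.trans (by decide)

/-- Such a prime kills the elliptic points. -/
theorem noEll_of_prime_eleven {t n : ℕ} (ht : t.Prime) (h12 : t % 12 = 11) (hd : t ∣ n) :
    nuTwo n = 0 ∧ nuThree n = 0 := by
  have : Fact t.Prime := ⟨ht⟩
  constructor
  · refine Nat.card_eq_zero.mpr (Or.inl ⟨fun ⟨y, hy⟩ => ?_⟩)
    have h := congrArg (ZMod.castHom hd (ZMod t)) hy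
    simp only [map_add, map_pow, map_one, map_zero] at h
    exact ZMod.mod_four_ne_three_of_sq_eq_neg_one (y := ZMod.castHom hd (ZMod t) y)
      (by linear_combination h) (by omega)
  · refine Nat.card_eq_zero.mpr (Or.inl ⟨fun ⟨y, hy⟩ => ?_⟩)
    have h := congrArg (ZMod.castHom hd (ZMod t)) hy
    simp only [map_add, map_pow, map_one, map_zero] at h
    set z := ZMod.castHom hd (ZMod t) y
    have hz3 : z ^ 3 = 1 := by linear_combination (z - 1) * h
    have hz0 : z ≠ 0 := fun e => by simp [e] at h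
    have hg : orderOf z ∣ Nat.gcd 3 (t - 1) :=
      Nat.dvd_gcd (orderOf_dvd_of_pow_eq_one hz3)
        (orderOf_dvd_of_pow_eq_one (ZMod.pow_card_sub_one_eq_one hz0))
    rw [(Nat.Prime.coprime_iff_not_dvd Nat.prime_three).mpr
      (show ¬ 3 ∣ t - 1 by omega)] at hg
    rw [orderOf_eq_one_iff.mp (Nat.dvd_one.mp hg)] at h
    have h3 : ((3 : ℕ) : ZMod t) = 0 := by push_cast; linear_combination h
    rw [ZMod.natCast_eq_zero_iff] at h3
    have := (Nat.prime_dvd_prime_iff_eq ht Nat.prime_three).mp h3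
    omega

variable {A : ValuationSubring QBar} {r M : ℕ} [hr : Fact r.Prime] [CharP (Res A) r] [NeZero M]
  [FF.IsFunctionField (Res A) (KM A M)] {hrM : ¬ r ∣ M}

/-- An order prime to `3` occurs only over `j = 0`, at unramified places. -/
theorem ord_jK_eq_one_of_not_dvd [Fact (Nat.Prime 3)] (hA : A.LiesOverPrime r)
    (hM : (M : Res A) ≠ 0) (hr5 : 5 ≤ r) (h3 : ¬ 3 ∣ M)
    {F : loc2 A (iota2 M r hrM)} (hfix : InertiaFixed A ((F : FB (r * M)) : LSer))
    (hdiv : ∀ v : Place QBar (FB (r * M)), ((3 : ℕ) : ℤ) ∣ v.ord (F : FB (r * M)))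
    (hne : ∀ i, red2 A (iota2 M r hrM) F i ≠ 0) (i : Fin 2) (Q : Place (Res A) (KM A M))
    (hQ : ¬ (3 : ℤ) ∣ Q.ord (redK hM F i)) : Q.ord (jK A M) = 1 := by
  classical
  have := residueField_isAlgClosed A
  -- Raise the level by a prime `t ≡ 11` modulo `12`, so that there are no elliptic points.
  obtain ⟨t, ht, h12, hnot⟩ := exists_prime_eleven {r}
  rw [Finset.mem_singleton] at hnot
  have : NeZero (M * t) := ⟨mul_ne_zero (NeZero.ne M) ht.ne_zero⟩
  have : NeZero r := ⟨hr.out.ne_zero⟩
  have hrM' : ¬ r ∣ M * t := fun h => (hr.out.dvd_mul.mp h).elim hrM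
    fun h' => hnot ((Nat.prime_dvd_prime_iff_eq hr.out ht).mp h').symm
  have hM' : ((M * t : ℕ) : Res A) ≠ 0 := fun h =>
    hrM' ((CharP.cast_eq_zero_iff (Res A) r _).mp h)
  have h3' : ¬ 3 ∣ M * t := fun h => (Nat.prime_three.dvd_mul.mp h).elim h3 fun h' => by
    have := (Nat.prime_dvd_prime_iff_eq Nat.prime_three ht).mp h'
    omega
  have : FF.IsFunctionField QBar (FB (r * M)) := ModFun.isFunctionField_bar (r * M)
  have : FF.IsFunctionField QBar (FB (r * (M * t))) :=
    ModFun.isFunctionField_bar (r * (M * t))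
  have : FF.IsFunctionField QBar (FB (M * t)) := ModFun.isFunctionField_bar (M * t)
  have : FF.IsFunctionField (Res A) (KM A (M * t)) :=
    RedTorsion.isFunctionField_full (F := KM A (M * t)) rfl hM'
  have hE := noEll_of_prime_eleven ht h12 (dvd_mul_left t M)
  -- Pulled back to level `M * t`, the orders of the reductions of `F` are divisible by `3`.
  have hdd : M ∣ M * t := dvd_mul_right M t
  have hF' : incLevel r hdd (F : FB (r * M)) ∈ loc2 A (iota2 (M * t) r hrM') :=
    (mem_loc2 _).mpr fun u => by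
      rw [iota2_incLevel hrM hrM' hdd]; exact (mem_loc2 _).mp F.2 u
  have hred : ∀ u, red2 A (iota2 (M * t) r hrM') ⟨_, hF'⟩ u = red2 A (iota2 M r hrM) F u :=
    fun u => by
      rw [red2_apply, red2_apply]
      exact redL_congr _ _ (iota2_incLevel hrM hrM' hdd u _)
  have hfix' : InertiaFixed A (incLevel r hdd (F : FB (r * M)) : LSer) := by
    rw [coe_incLevel]; exact hfix
  have h := ordDvd_of_noEll (p := 3) (hqM := hrM') hA hM' hE ⟨_, hF'⟩ hfix'
    (fun w => by
      show ((3 : ℕ) : ℤ) ∣ w.ord (incLevel r hdd (F : FB (r * M)))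
      rw [Place.ord_restrictAlong (incLevel r hdd) (FF.isIntegralAlong _)]
      exact Dvd.dvd.mul_left (hdiv _) _)
    (fun u => by rw [hred]; exact hne u) i
  -- So at a place `w` above `Q` the ramification index `e` is divisible by `3`.
  let φ : KM A M →ₐ[Res A] KM A (M * t) :=
    IntermediateField.inclusion (full_degeneracyC_le _ hdd)
  let : Algebra (KM A M) (KM A (M * t)) := φ.toRingHom.toAlgebra
  have : IsScalarTower (Res A) (KM A M) (KM A (M * t)) :=
    IsScalarTower.of_algebraMap_eq fun a => (φ.commutes a).symm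
  have : FiniteDimensional (KM A M) (KM A (M * t)) := FF.finiteAlong φ
  obtain ⟨w, hw⟩ := FF.exists_restrict_eq (F' := KM A (M * t)) Q
  have hz : algebraMap (KM A M) (KM A (M * t)) (redK hM F i) = redK hM' ⟨_, hF'⟩ i :=
    Subtype.ext ((IntermediateField.coe_inclusion _ _).trans
      ((coe_redK hM F i).trans ((hred i).symm.trans (coe_redK hM' ⟨_, hF'⟩ i).symm)))
  have hj : algebraMap (KM A M) (KM A (M * t)) (jK A M) = jK A (M * t) :=
    Subtype.ext (IntermediateField.coe_inclusion _ _)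
  set e : ℤ := (w.ramificationIndex (KM A M) : ℤ) with he
  have hepos : 0 < e := by
    rw [he]
    exact_mod_cast w.ramificationIndex_pos (F := KM A M)
  have he3 : (3 : ℤ) ∣ e := by
    have h1 := h w
    rw [← hz, w.ord_restrict (F := KM A M), hw] at h1
    exact ((Int.prime_three.dvd_mul).mp (by exact_mod_cast h1)).resolve_right hQ
  obtain ⟨hzero, hother⟩ := ord_jK_of_noEll (N := M * t) hM' hr5 hE
  rcases lt_or_ge (Q.ord (jK A M)) 0 with hneg | hnn
  · -- `Q` is no pole of `j`: above one, `3 ∣ e` would divide the level.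
    exfalso
    have hw' : w.ord (jK A (M * t)) = e * Q.ord (jK A M) := by
      rw [← hj, w.ord_restrict (F := KM A M), hw]
    have hd := ord_jK_dvd hM' w (by rw [hw']; exact mul_neg_of_pos_of_neg hepos hneg)
    rw [hw'] at hd
    exact h3' (by exact_mod_cast (he3.trans (dvd_mul_right e _)).trans hd)
  · -- At level `M * t`, `j` vanishes to order `3` and the zeros of `j - a`, `a ≠ 0`, have order
    -- prime to `3`: so the value of `j` at `Q` is `a = 0` and `e * ord j = 3`.
    obtain ⟨a, ha⟩ := RedTorsion.exists_sub_mem_ordGe_one Q (FF.mem_ordGe_of_le Q hnn)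
    have hne0 : jK A M - algebraMap (Res A) (KM A M) a ≠ 0 := fun e0 =>
      RedTorsion.transcendental_jF (K := Res A) (N := M) (F := KM A M) rfl
        (show IsAlgebraic (Res A) (jK A M) from
          sub_eq_zero.mp e0 ▸ isAlgebraic_algebraMap a)
    have h1 := FF.le_ord_of_mem_ordGe Q hne0 ha
    have hw' : w.ord (jK A (M * t) - algebraMap (Res A) (KM A (M * t)) a) =
        e * Q.ord (jK A M - algebraMap (Res A) (KM A M) a) := by
      rw [← hj, IsScalarTower.algebraMap_apply (Res A) (KM A M) (KM A (M * t)), ← map_sub,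
        w.ord_restrict (F := KM A M), hw]
    have hpos : 0 < w.ord (jK A (M * t) - algebraMap (Res A) (KM A (M * t)) a) := by
      rw [hw']; exact mul_pos hepos (by omega)
    by_cases ha0 : a = 0
    · subst ha0
      rw [map_zero, map_zero, sub_zero, sub_zero] at hw'
      rw [map_zero, sub_zero] at hpos h1
      have h33 := hzero w hpos
      rw [hw'] at h33
      obtain ⟨k, hk⟩ := he3
      rw [hk, mul_assoc] at h33
      have hkk : k * Q.ord (jK A M) = 1 := by linarith
      rcases Int.eq_one_or_neg_one_of_mul_eq_one (by rw [mul_comm] at hkk; exact hkk) with h' | h'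
      · exact h'
      · omega
    · exact absurd (hw' ▸ dvd_mul_of_dvd_left he3 _) (hother w a ha0 hpos)

/-- A zero of order one of the reduced `j` lifts to a zero of order one. -/
theorem exists_lift_ord_one [FF.IsFunctionField QBar (FB M)] (hM : (M : Res A) ≠ 0)
    (Q : Place (Res A) (KM A M)) (hQ : Q.ord (jK A M) = 1) :
    ∃ P : Place QBar (FB M), FiniteFlat.redPlace (FiniteFlat.goodRed hM) P = Q ∧
      P.ord (Genus.jB M) = 1 := by
  classical
  have := residueField_isAlgClosed A
  obtain ⟨g, hg, hgr, hg0, hdeg⟩ := FiniteFlat.Torsion.exists_lift_sub hM (0 : A)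
  have hred := redDiv_zeros (FiniteFlat.goodRed hM) g hg0 hdeg
  rw [map_zero, map_zero, sub_zero] at hgr
  rw [show ((0 : A) : QBar) = 0 from rfl, map_zero, sub_zero] at hg
  rw [hg, hgr] at hred
  have hQ' : Q.ord (RedTorsion.jF (K := Res A) (N := M) (F := KM A M) rfl) = 1 := hQ
  have h1 : FiniteFlat.redDiv (FiniteFlat.goodRed hM)
      (FF.poles QBar (RedTorsion.jF (F := FB M) EichlerShimura.hFb)⁻¹) Q = 1 := by
    rw [hred, FF.poles_apply, Place.ord_inv]
    omega
  obtain ⟨P, hP, hPQ⟩ : ∃ P, P ∈ (FF.poles QBar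
      (RedTorsion.jF (F := FB M) EichlerShimura.hFb)⁻¹).support ∧
        FiniteFlat.redPlace (FiniteFlat.goodRed hM) P = Q := by
    refine Finset.mem_image.mp (Finsupp.mapDomain_support (Finsupp.mem_support_iff.mpr ?_))
    rw [← FiniteFlat.redDiv_apply, h1]
    exact one_ne_zero
  refine ⟨P, hPQ, ?_⟩
  have h2 := RedTorsion.le_redDiv_apply (FiniteFlat.goodRed hM)
    (FF.poles_nonneg (RedTorsion.jF (F := FB M) EichlerShimura.hFb)⁻¹) P
  rw [hPQ, h1, FF.poles_apply, Place.ord_inv] at h2
  rw [Finsupp.mem_support_iff, FF.poles_apply, Place.ord_inv] at hP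
  show P.ord (RedTorsion.jF (F := FB M) EichlerShimura.hFb) = 1
  omega

/-- **Orders of eigen Kummer functions at `p = 3`.** One prime `s` with `a_s ≢ s + 1` suffices. -/
theorem eigenOrd_three_of_prime [Fact (Nat.Prime 3)] (hA : A.LiesOverPrime r)
    (hM : (M : Res A) ≠ 0) (hr5 : 5 ≤ r) (h3 : ¬ 3 ∣ M) (G : ℕ → Prop) (a : ℕ → ℤ) {s : ℕ}
    (hs : s.Prime) (hsN : ¬ s ∣ r * M) (hGs : G s) (has : ¬ (3 : ℤ) ∣ a s - ((s : ℤ) + 1)) :
    EigenOrd r 3 hrM hM G a := by
  classical
  intro F hfix hdiv hne hrel i Q₀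
  have := residueField_isAlgClosed A
  have : NeZero s := ⟨hs.ne_zero⟩
  have : NeZero (M * s) := ⟨mul_ne_zero (NeZero.ne M) hs.ne_zero⟩
  have : FF.IsFunctionField QBar (FB M) := ModFun.isFunctionField_bar M
  have : FF.IsFunctionField QBar (FB (M * s)) := ModFun.isFunctionField_bar (M * s)
  have hsM : ¬ s ∣ M := fun h => hsN (h.mul_left r)
  have hMs : ((M * s : ℕ) : Res A) ≠ 0 := by
    rw [Nat.cast_mul]
    exact mul_ne_zero hM fun h => hsN ((Nat.prime_dvd_prime_iff_eq hr.out hs).mp
      ((CharP.cast_eq_zero_iff (Res A) r s).mp h) ▸ dvd_mul_right r M)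
  have : FF.IsFunctionField (Res A) (KM A (M * s)) :=
    RedTorsion.isFunctionField_full (F := KM A (M * s)) rfl hMs
  set z : KM A M := redK hM F i with hz
  have hz0 : z ≠ 0 := fun e => hne i (congrArg Subtype.val e)
  -- lifts, unramified over `j = 0` where the order is prime to `3`
  have hlift : ∀ Q : Place (Res A) (KM A M), ∃ P : Place QBar (FB M),
      FiniteFlat.redPlace (FiniteFlat.goodRed hM) P = Q ∧
        ((3 : ℤ) ∣ Q.ord z ∨ P.ord (Genus.jB M) = 1) := by
    intro Q
    by_cases hd : (3 : ℤ) ∣ Q.ord z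
    · obtain ⟨P, hP⟩ := exists_place_reduction hM Q
      exact ⟨P, hP, Or.inl hd⟩
    · obtain ⟨P, hP, hP1⟩ := exists_lift_ord_one hM Q
        (ord_jK_eq_one_of_not_dvd hA hM hr5 h3 hfix hdiv hne i Q hd)
      exact ⟨P, hP, Or.inr hP1⟩
  choose lift hred hell using hlift
  set X := FF.div (Res A) z with hX
  set D : Divisor QBar (FB M) := Finsupp.mapDomain lift X with hD
  have hredD : redD hM D = X := by
    rw [redD, FiniteFlat.redDiv_apply, hD, ← Finsupp.mapDomain_comp,
      show FiniteFlat.redPlace (FiniteFlat.goodRed hM) ∘ lift = id from funext hred,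
      Finsupp.mapDomain_id]
  have hDdeg : D ∈ Divisor.degZero (K := QBar) (F := FB M) := Divisor.mem_degZero.mpr (by
    rw [← degree_redD hM, hredD, hX, FF.degree_div])
  -- `T_s D ≡ (s + 1) D`
  have hterm : ∀ Q : Place (Res A) (KM A M), ∃ E : Divisor QBar (FB M),
      barT M s (Finsupp.single (lift Q) (X Q)) =
        ((s : ℤ) + 1) • Finsupp.single (lift Q) (X Q) + (3 : ℤ) • E := by
    intro Q
    have hsing : Finsupp.single (lift Q) (X Q) = X Q • Finsupp.single (lift Q) (1 : ℤ) := by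
      rw [Finsupp.smul_single, smul_eq_mul, mul_one]
    rw [hsing, map_zsmul]
    rcases hell Q with ⟨k, hk⟩ | h1
    · refine ⟨k • barT M s (Finsupp.single (lift Q) 1) -
        (((s : ℤ) + 1) * k) • Finsupp.single (lift Q) (1 : ℤ), ?_⟩
      rw [hX, FF.div_apply, hk]
      module
    · obtain ⟨E, hE⟩ := exists_barT_single_ell hs hsM h1
      refine ⟨X Q • E, ?_⟩
      rw [hE]
      module
  choose E hE using hterm
  have hsum : D = ∑ Q ∈ X.support, Finsupp.single (lift Q) (X Q) := rfl
  have hT : barT M s D = ((s : ℤ) + 1) • D + (3 : ℤ) • ∑ Q ∈ X.support, E Q := by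
    rw [hsum, map_sum, Finset.sum_congr rfl fun Q _ => hE Q, Finset.sum_add_distrib,
      Finset.smul_sum, Finset.smul_sum]
  have hR := redD_barT hM hMs D hDdeg
  rw [hT, map_add, map_zsmul, map_zsmul, hredD, hX, resT_div hz0] at hR
  have hR0 := congrArg (fun Y => Y Q₀) hR
  simp only [Finsupp.add_apply, Finsupp.smul_apply, FF.div_apply, smul_eq_mul] at hR0
  obtain ⟨h, hh, hN⟩ := hrel s hs hGs
  obtain ⟨u, w, hu, hw, he⟩ := exists_resNorm_eq (s := i) hA hM hne hMs hs hsN (a s) hh hN
  have e1 := congrArg Q₀.ord he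
  rw [Q₀.ord_mul ((_root_.map_ne_zero _).mpr hu) (resNorm_ne_zero hz0), FF.ord_algebraMap,
    zero_add, Q₀.ord_mul (zpow_ne_zero _ hz0) (pow_ne_zero _ hw), Q₀.ord_zpow, FF.ord_pow,
    ← hR0] at e1
  have h3d : (3 : ℤ) ∣ (a s - ((s : ℤ) + 1)) * Q₀.ord z :=
    ⟨(redD hM (∑ Q ∈ (FF.div (Res A) z).support, E Q)) Q₀ - Q₀.ord w, by
      push_cast at e1
      linear_combination -e1⟩
  exact_mod_cast (Int.prime_three.dvd_mul.mp h3d).resolve_left has

/-- **Orders at `p = 3` for an elliptic curve with irreducible `E[3]`**, at every level prime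
to `3`, with or without elliptic points. -/
theorem eigenOrd_three_ell [Fact (Nat.Prime 3)] {W : WeierstrassCurve ℤ} (hΔ : W.Δ ≠ 0)
    (hirr : W.ModRepIsIrreducible 3) (hA : A.LiesOverPrime r) (hM : (M : Res A) ≠ 0)
    (hr5 : 5 ≤ r) (h3 : ¬ 3 ∣ M) (T : Finset ℕ) :
    EigenOrd r 3 hrM hM (fun l => l ∉ T) (fun l => W.apOfModel l) := by
  obtain ⟨s, hs, hsS, -, -, hne⟩ :=
    EC.Rep.exists_apOfModel_ne (W := W) (p := 3) (by norm_num) hirr hΔ (T ∪ (r * M).primeFactors)
  rw [Finset.mem_union, not_or] at hsS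
  refine eigenOrd_three_of_prime hA hM hr5 h3 _ _ hs
    (fun h => hsS.2 (Nat.mem_primeFactors.mpr
      ⟨hs, h, mul_ne_zero hr.out.ne_zero (NeZero.ne M)⟩)) hsS.1 fun hd => hne ?_
  have h0 := (ZMod.intCast_zmod_eq_zero_iff_dvd _ 3).mpr hd
  push_cast at h0
  linear_combination h0

end Fermat.Agent.RT.Mazur
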