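import Fermat.Agent.ModFun.Ramification

/-!
# Elliptic points of order three and a prime of the level

At a point `τ` over `j = 0` fixed by a `γ = (a, b; c, d) ∈ Γ₀(M s)` of trace `±1`, the congruence
`a² - t a + 1 ≡ 0` modulo `s` and Thue's lemma give a form `x² + t x y + y² = s`, whence an element
of `Γ₀(M)` sending `τ` to `s τ`. So a function of level `M` has the same order at `τ` and at `s τ`.
-/

set_option autoImplicit false

noncomputable section

open UpperHalfPlane hiding I
open Function Filter Complex CongruenceSubgroup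
open scoped MatrixGroups Topology

namespace Fermat.Agent.RT.Mazur

open Fermat.Agent.ModFun

open scoped Classical in
/-- The order of `j - j τ` at the place of `τ`, from a generator of the rotations at `τ`. -/
theorem exists_stab_period {N : ℕ} [NeZero N] (τ : ℍ) : ∃ g : SL(2, ℤ), g • τ = τ ∧
    (∀ k : ℤ, (denom g τ ^ 2) ^ k = 1 → (ordHol τ (jSubHol (jH τ)) : ℤ) ∣ k) ∧
    (placeAt N τ).ord (jF N - algebraMap ℂ (FC N) (jH τ)) =
      Function.minimalPeriod (fun d : Coset N => g • d) ((1 : SL(2, ℤ)) : Coset N) := by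
  obtain ⟨g, hg, hprim, -, -, hper⟩ := places_over_point (N := N) τ
  refine ⟨g, hg, hprim, ?_⟩
  have h3 := hper ((1 : SL(2, ℤ)) : Coset N)
  rwa [placeAt_inv_out_smul, inv_one, one_smul] at h3

/-- A nonzero solution of `x + y a ≡ 0` with `x² + t x y + y² = s`, for a root `a` of
`X² - t X + 1` modulo a prime `s`. -/
theorem exists_form_eq_prime {s : ℕ} (hs : s.Prime) {a t : ℤ} (ht : t = 1 ∨ t = -1)
    (ha : (s : ℤ) ∣ a ^ 2 - t * a + 1) :
    ∃ x y : ℤ, (s : ℤ) ∣ x + y * a ∧ x ^ 2 + t * x * y + y ^ 2 = s := by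
  have : NeZero s := ⟨hs.ne_zero⟩
  set k := Nat.sqrt s with hk
  have hk1 : k * k < s := by
    refine lt_of_le_of_ne (Nat.sqrt_le s) fun e => ?_
    have e' : IsSquare s := ⟨k, e.symm⟩
    exact (Irreducible.not_isSquare hs) e'
  have hk2 : s < (k + 1) * (k + 1) := Nat.lt_succ_sqrt s
  -- Thue: a nonzero solution of `x + y a ≡ 0` with `|x|, |y| ≤ √s`.
  obtain ⟨p, q, hpq, he⟩ := Fintype.exists_ne_map_eq_of_card_lt
    (fun p : Fin (k + 1) × Fin (k + 1) => ((p.1 : ℕ) : ZMod s) + ((p.2 : ℕ) : ZMod s) *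
      (a : ZMod s))
    (by rw [ZMod.card, Fintype.card_prod, Fintype.card_fin]; exact hk2)
  set x : ℤ := ((p.1 : ℕ) : ℤ) - (q.1 : ℕ) with hx
  set y : ℤ := ((p.2 : ℕ) : ℤ) - (q.2 : ℕ) with hy
  have hxy : x ≠ 0 ∨ y ≠ 0 := by
    by_contra hc
    push Not at hc
    exact hpq (Prod.ext (Fin.ext (by omega)) (Fin.ext (by omega)))
  have hdvd : (s : ℤ) ∣ x + y * a := by
    rw [← ZMod.intCast_zmod_eq_zero_iff_dvd]
    simp only [hx, hy]
    push_cast
    linear_combination he
  -- The form is a multiple `s m` of `s` with `0 < m < 3`.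
  have hQdvd : (s : ℤ) ∣ x ^ 2 + t * x * y + y ^ 2 := by
    have h1 : x ^ 2 + t * x * y + y ^ 2 =
        (x + y * a) * (x - y * a + t * y) + y ^ 2 * (a ^ 2 - t * a + 1) := by ring
    rw [h1]
    exact dvd_add (dvd_mul_of_dvd_left hdvd _) (dvd_mul_of_dvd_right ha _)
  have hpos : 0 < x ^ 2 + t * x * y + y ^ 2 := by
    rcases ht with rfl | rfl <;> rcases hxy with h | h <;>
      nlinarith [sq_nonneg (x + y), sq_nonneg (x - y), mul_self_pos.mpr h]
  have hb : ∀ u : ℤ, -(k : ℤ) ≤ u → u ≤ k → u ^ 2 ≤ (k : ℤ) * k := fun u h1 h2 => by nlinarith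
  have hx2 := hb x (by omega) (by omega)
  have hy2 := hb y (by omega) (by omega)
  have hle : x ^ 2 + t * x * y + y ^ 2 ≤ 3 * ((k : ℤ) * k) := by
    rcases ht with rfl | rfl <;> nlinarith [sq_nonneg (x + y), sq_nonneg (x - y)]
  have hk1' : (k : ℤ) * k < s := by exact_mod_cast hk1
  obtain ⟨m, hm⟩ := hQdvd
  have hm0 : 0 < m := by
    by_contra h0
    nlinarith
  have hm3 : m < 3 := by
    by_contra h0
    nlinarith
  refine ⟨x, y, hdvd, ?_⟩
  interval_cases m
  · linarith
  -- For `m = 2` both `x` and `y` are even, so `s = 2`, which is too small.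
  · exfalso
    have hev : (2 : ℤ) ∣ x ∧ (2 : ℤ) ∣ y := by
      have h2 := congrArg (Int.cast : ℤ → ZMod 2) hm
      have ht' : (t : ZMod 2) = 1 := by rcases ht with rfl | rfl <;> decide
      push_cast at h2
      rw [ht', one_mul, show (2 : ZMod 2) = 0 from rfl, mul_zero] at h2
      have key : ∀ u v : ZMod 2, u ^ 2 + u * v + v ^ 2 = 0 → u = 0 ∧ v = 0 := by decide
      obtain ⟨h3, h4⟩ := key _ _ h2
      exact ⟨(ZMod.intCast_zmod_eq_zero_iff_dvd _ 2).mp h3,
        (ZMod.intCast_zmod_eq_zero_iff_dvd _ 2).mp h4⟩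
    obtain ⟨⟨x', hx'⟩, y', hy'⟩ := hev
    have h2s : (2 : ℤ) ∣ s := ⟨x' ^ 2 + t * x' * y' + y' ^ 2, by
      rw [hx', hy'] at hm
      linarith⟩
    have hs2 : s = 2 := ((Nat.prime_dvd_prime_iff_eq Nat.prime_two hs).mp
      (by exact_mod_cast h2s)).symm
    have hk' : k ≤ 1 := by
      by_contra h0
      push Not at h0
      have : 2 * 2 ≤ k * k := Nat.mul_le_mul h0 h0
      omega
    have : (k : ℤ) * k ≤ 1 := by exact_mod_cast (Nat.mul_le_mul hk' hk').trans_eq (one_mul 1)
    rw [hs2] at hm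
    push_cast at hm
    linarith

/-- If `c τ + d` is the automorphy factor at a fixed point of a matrix with `c ≠ 0`, and its
square has order divisible by three, then the trace is `1` or `-1`. -/
private theorem trace_eq_one_or_neg_one {a b c d : ℤ} (hdet : a * d - b * c = 1) (τ : ℍ)
    (hlin : (c : ℂ) * (τ : ℂ) ^ 2 + ((d : ℂ) - a) * τ - b = 0) (hc0 : c ≠ 0)
    (hprim : ∀ k : ℤ, (((c : ℂ) * τ + d) ^ 2) ^ k = 1 → (3 : ℤ) ∣ k) :
    a + d = 1 ∨ a + d = -1 := by
  set l : ℂ := (c : ℂ) * τ + d with hl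
  have hq : l ^ 2 - ((a + d : ℤ) : ℂ) * l + 1 = 0 := by
    have hdet' : (a : ℂ) * d - b * c = 1 := by exact_mod_cast hdet
    rw [hl]
    push_cast
    linear_combination (c : ℂ) * hlin - hdet'
  have hli : l.im ≠ 0 := by
    rw [hl]
    simp only [Complex.add_im, Complex.mul_im, Complex.intCast_re, Complex.intCast_im, zero_mul,
      add_zero]
    exact mul_ne_zero (Int.cast_ne_zero.mpr hc0) τ.im_pos.ne'
  have hre := congrArg Complex.re hq
  have him := congrArg Complex.im hq
  simp only [sq, Complex.add_re, Complex.sub_re, Complex.mul_re, Complex.add_im, Complex.sub_im,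
    Complex.mul_im, Complex.intCast_re, Complex.intCast_im, zero_mul, Complex.one_re,
    Complex.one_im, Complex.zero_re, Complex.zero_im, add_zero, sub_zero] at hre him
  have h2r : 2 * l.re = ((a + d : ℤ) : ℝ) := by
    have : (2 * l.re - ((a + d : ℤ) : ℝ)) * l.im = 0 := by linear_combination him
    have := (mul_eq_zero.mp this).resolve_right hli
    linarith
  have ht4 : (a + d) ^ 2 < 4 := by
    have hpos := mul_self_pos.mpr hli
    have : ((a + d : ℤ) : ℝ) ^ 2 < 4 := by
      rw [← h2r] at hre ⊢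
      nlinarith
    exact_mod_cast this
  have ht0 : a + d ≠ 0 := by
    intro h0
    rw [h0, Int.cast_zero, zero_mul, sub_zero] at hq
    have h1 : l ^ 2 = -1 := by linear_combination hq
    have := hprim 2 (by rw [h1]; norm_num)
    omega
  have h1 : a + d < 2 := by nlinarith
  have h2 : -2 < a + d := by nlinarith
  omega

/-- A fixing element of `Γ₀(M s)` of order three gives one of `Γ₀(M)` sending `τ` to `s τ`. -/
theorem exists_smul_eq_scaleH {M s : ℕ} [NeZero s] (hs : s.Prime) (g : SL(2, ℤ))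
    (hg : g ∈ Gamma0 (M * s)) (τ : ℍ) (hfix : g • τ = τ)
    (hprim : ∀ k : ℤ, (denom g τ ^ 2) ^ k = 1 → (3 : ℤ) ∣ k) :
    ∃ δ : SL(2, ℤ), δ ∈ Gamma0 M ∧ δ • τ = scaleH s τ := by
  rw [Gamma0_mem, ZMod.intCast_zmod_eq_zero_iff_dvd] at hg
  obtain ⟨c', hc'⟩ := hg
  set a := g 0 0
  set b := g 0 1
  set c := g 1 0
  set d := g 1 1
  have hdet : a * d - b * c = 1 := by
    have := g.det_coe
    rwa [Matrix.det_fin_two] at this
  have hden : (c : ℂ) * τ + d ≠ 0 := by
    intro h
    have h1 := congrArg Complex.im h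
    simp only [Complex.add_im, Complex.mul_im, Complex.intCast_re, Complex.intCast_im, zero_mul,
      add_zero, Complex.zero_im] at h1
    have hc0 : c = 0 := by exact_mod_cast (mul_eq_zero.mp h1).resolve_right τ.im_pos.ne'
    rw [hc0, Int.cast_zero, zero_mul, zero_add, Int.cast_eq_zero] at h
    rw [hc0, h] at hdet
    simp at hdet
  have hlin : (c : ℂ) * (τ : ℂ) ^ 2 + ((d : ℂ) - a) * τ - b = 0 := by
    have h := congrArg (fun z : ℍ => (z : ℂ)) hfix
    simp only [coe_SL_smul] at h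
    rw [div_eq_iff hden] at h
    linear_combination -h
  have hdenom : denom g τ = (c : ℂ) * τ + d := ModularGroup.denom_apply g τ
  have hc0 : c ≠ 0 := by
    intro h0
    rw [h0, mul_zero, sub_zero] at hdet
    have hd : (d : ℂ) ^ 2 = 1 := by
      rcases Int.eq_one_or_neg_one_of_mul_eq_one (by rw [mul_comm] at hdet; exact hdet : d * a = 1)
        with h | h <;> rw [h] <;> norm_num
    have := hprim 1 (by rw [hdenom, h0, Int.cast_zero, zero_mul, zero_add, zpow_one, hd])
    omega
  -- the denominator is a non-real root of `X ^ 2 - (a + d) X + 1`, so `a + d` is `1` or `-1`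
  -- as the automorphy factor has order three
  have ht : a + d = 1 ∨ a + d = -1 :=
    trace_eq_one_or_neg_one hdet τ hlin hc0 (by rwa [hdenom] at hprim)
  -- so `a` is a root modulo `s`, and `s` is a value of the form of discriminant `-3`
  have ha : (s : ℤ) ∣ a ^ 2 - (a + d) * a + 1 := by
    refine ⟨-(b * ((M : ℤ) * c')), ?_⟩
    have hc'' : c = (M : ℤ) * s * c' := by rw [hc']; push_cast; ring
    rw [hc''] at hdet
    linear_combination -hdet
  obtain ⟨x, y, ⟨z, hz⟩, hform⟩ := exists_form_eq_prime hs ht ha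
  have hc'' : c = (M : ℤ) * s * c' := by rw [hc']; push_cast; ring
  have hdet2 : (x + y * d) * z - -(y * b) * (-(y * ((M : ℤ) * c'))) = 1 := by
    refine mul_left_cancel₀ (Int.natCast_ne_zero.mpr (NeZero.ne s)) ?_
    rw [hc''] at hdet
    linear_combination hform + y ^ 2 * hdet - (x + y * d) * hz
  -- the matrix built from that representation sends `τ` to `s τ`
  let δ : SL(2, ℤ) := ⟨!![x + y * d, -(y * b); -(y * ((M : ℤ) * c')), z], by
    rw [Matrix.det_fin_two_of]; exact hdet2⟩
  have e00 : δ 0 0 = x + y * d := rfl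
  have e01 : δ 0 1 = -(y * b) := rfl
  have e10 : δ 1 0 = -(y * ((M : ℤ) * c')) := rfl
  have e11 : δ 1 1 = z := rfl
  refine ⟨δ, ?_, UpperHalfPlane.ext ?_⟩
  · rw [Gamma0_mem, ZMod.intCast_zmod_eq_zero_iff_dvd, e10]
    exact ⟨-(y * c'), by ring⟩
  · have hd0 := denom_ne_zero δ τ
    rw [ModularGroup.denom_apply] at hd0
    rw [coe_SL_smul, coe_scaleH, div_eq_iff hd0, e00, e01, e10, e11]
    have hc3 : (c : ℂ) = (M : ℂ) * s * c' := by exact_mod_cast hc''
    have hz' : (x : ℂ) + y * a = s * z := by exact_mod_cast hz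
    rw [hc3] at hlin
    push_cast
    linear_combination (y : ℂ) * hlin + (τ : ℂ) * hz'

/-! ### Scaling -/

section Scale

variable (s : ℕ) [NeZero s]

/-- `f ↦ f (s ·)` on holomorphic functions. -/
def scaleHol : HolH →ₐ[ℂ] HolH where
  toFun f := ⟨fun τ => (f : ℍ → ℂ) (scaleH s τ), mdifferentiable_comp_affine s 0 1 f.2⟩
  map_one' := rfl
  map_mul' _ _ := rfl
  map_zero' := rfl
  map_add' _ _ := rfl
  commutes' _ := rfl

theorem coe_scaleHol (f : HolH) (τ : ℍ) :
    (scaleHol s f : ℍ → ℂ) τ = (f : ℍ → ℂ) (scaleH s τ) := rfl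

theorem scaleHol_injective : Function.Injective (scaleHol s) := fun f g h => by
  refine Subtype.ext (funext fun τ => ?_)
  have h1 := congrFun (congrArg Subtype.val h) (affine 1 0 s τ)
  have e : scaleH s (affine 1 0 s τ) = τ := by
    apply UpperHalfPlane.ext
    have hs : (s : ℂ) ≠ 0 := Nat.cast_ne_zero.mpr (NeZero.ne s)
    rw [coe_scaleH, coe_affine]
    field_simp
    simp
  rwa [coe_scaleHol, coe_scaleHol, e] at h1

/-- `f ↦ f (s ·)` on meromorphic functions. -/
def scaleUp : MerH →ₐ[ℂ] MerH :=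
  IsFractionRing.liftAlgHom (A := HolH)
    (g := (IsScalarTower.toAlgHom ℂ HolH MerH).comp (scaleHol s))
    ((IsFractionRing.injective HolH MerH).comp (scaleHol_injective s))

theorem scaleUp_algebraMap (f : HolH) :
    scaleUp s (algebraMap HolH MerH f) = algebraMap HolH MerH (scaleHol s f) := by
  rw [scaleUp, IsFractionRing.liftAlgHom_apply]
  exact IsFractionRing.lift_algebraMap _ f

theorem ordHol_scaleHol (f : HolH) (τ : ℍ) : ordHol τ (scaleHol s f) = ordHol (scaleH s τ) f := by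
  have hs : (s : ℂ) ≠ 0 := Nat.cast_ne_zero.mpr (NeZero.ne s)
  have h1 : ((scaleHol s f : HolH) : ℍ → ℂ) ∘ ofComplex =ᶠ[𝓝 (τ : ℂ)]
      ((f : ℍ → ℂ) ∘ ofComplex) ∘ fun z : ℂ => (s : ℂ) * z := by
    filter_upwards [isOpen_upperHalfPlaneSet.mem_nhds τ.im_pos] with z hz
    have hz' : 0 < z.im := hz
    have hz2 : 0 < ((s : ℂ) * z).im := by
      simp only [Complex.mul_im, Complex.natCast_re, Complex.natCast_im, zero_mul, add_zero]
      exact mul_pos (by exact_mod_cast Nat.pos_of_ne_zero (NeZero.ne s)) hz'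
    simp only [comp_apply, coe_scaleHol, ofComplex_apply_of_im_pos hz',
      ofComplex_apply_of_im_pos hz2]
    exact congrArg _ (UpperHalfPlane.ext (coe_scaleH s _))
  have hg : AnalyticAt ℂ (fun z : ℂ => (s : ℂ) * z) (τ : ℂ) := by fun_prop
  have hd : deriv (fun z : ℂ => (s : ℂ) * z) (τ : ℂ) ≠ 0 := by
    rw [deriv_const_mul_field, deriv_id'', mul_one]
    exact hs
  rw [ordHol, ordHol, analyticOrderNatAt, analyticOrderNatAt, analyticOrderAt_congr h1,
    analyticOrderAt_comp_of_deriv_ne_zero hg hd, coe_scaleH]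

theorem valAt_scaleUp (x : MerH) (τ : ℍ) : valAt τ (scaleUp s x) = valAt (scaleH s τ) x := by
  obtain ⟨a, b, -, rfl⟩ := IsFractionRing.div_surjective HolH x
  have key : ∀ f : HolH, valHol τ (scaleHol s f) = valHol (scaleH s τ) f := by
    intro f
    rcases eq_or_ne f 0 with rfl | hf
    · simp
    · rw [valHol_apply hf,
        valHol_apply (fun h => hf (scaleHol_injective s (h.trans (map_zero _).symm))),
        ordHol_scaleHol]
  simp only [map_div₀, scaleUp_algebraMap, valAt_algebraMap, key]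

theorem ordMer_scaleUp (x : MerH) (τ : ℍ) : ordMer τ (scaleUp s x) = ordMer (scaleH s τ) x := by
  simp [ordMer, valAt_scaleUp]

end Scale

end Fermat.Agent.RT.Mazur
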