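import Fermat.Agent.RT.Mazur.EllForm
import Fermat.Agent.RT.Mazur.ResHecke
import Fermat.Agent.RT.Mazur.OrdersBasic
import Fermat.Agent.ModFun.HeckeRoots
import Fermat.Agent.Mazur.Eisenstein.CuspFibre

/-!
# The Hecke correspondence at the places over `j = 0` unramified over the `j`-line

At a place `w` of level `M s` lying over `j = 0` under one of the two maps to the `j`-line, with
ramification prime to `3`, both degeneracy maps agree. So `T_s [P] ≡ (s + 1) [P]` modulo `3` for an
unramified `P` over `j = 0`.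
-/

set_option autoImplicit false

noncomputable section

open UpperHalfPlane hiding I
open Function CongruenceSubgroup AlgebraicCurve ModularCurve
open scoped MatrixGroups

namespace Fermat.Agent.RT.Mazur

open Fermat.Agent.ModFun
open Fermat.Agent.Arith
open Fermat.Agent.Genus (Fbar jB)

/-- Shortcut: the search through `LaurentSeries` is slow. -/
local instance (priority := 10000) fbarAlgebra (N : ℕ) : Algebra Arith.QBar (Fbar N) :=
  SubalgebraClass.toAlgebra (modularFunctionFieldBar N)

/-- The model over `ℚ̄` inside the meromorphic functions. -/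
def embQ (N : ℕ) [NeZero N] : Fbar N →+* MerH :=
  (emb N ((1 : SL(2, ℤ)) : Coset N)).toRingHom.comp (toFCHom iotaC N)

variable {M s : ℕ} [NeZero M] [NeZero s]

theorem embQ_apply {N : ℕ} [NeZero N] (x : Fbar N) :
    embQ N x = emb N ((1 : SL(2, ℤ)) : Coset N) (toFCHom iotaC N x) := rfl

theorem embQ_algebraMap {N : ℕ} [NeZero N] (a : QBar) :
    embQ N (algebraMap QBar (Fbar N) a) = algebraMap ℂ MerH (iotaC a) := by
  rw [embQ_apply, toFCHom_algebraMap, AlgHom.commutes]

theorem embQ_eq_of_series {N d : ℕ} [NeZero N] [NeZero d] (hd : d ∣ N) (x : Fbar N)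
    (hx : (x : LaurentSeries QBar) = qExpand QBar d (jqModC QBar)) :
    embQ N x = algebraMap HolH MerH ⟨fun τ => jH (scaleH d τ), (jdC d).2.1⟩ := by
  have h : toFCHom iotaC N x = toFC N (jd hd) := Subtype.ext (by
    rw [coe_toFC_jd, coe_toFCHom, hx, coeffMap_qExpand, coeffMap_jqModC])
  rw [embQ_apply, h, emb_toFC, toMerH_apply]
  exact congrArg _ (Subtype.ext (funext fun τ => (tr_one (jd hd) τ).trans (jd_apply hd τ)))

theorem embQ_alpha (x : Fbar M) : embQ (M * s) (heckeAlphaBar QBar M s x) = embQ M x := by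
  refine RingHom.congr_fun (f := (embQ (M * s)).comp (heckeAlphaBar QBar M s).toRingHom)
    (g := embQ M) (ringHom_ext_level _ _ (fun a => ?_) fun y hy => ?_) x
  · show embQ (M * s) (heckeAlphaBar QBar M s (algebraMap QBar _ a)) = _
    rw [AlgHom.commutes, embQ_algebraMap, embQ_algebraMap]
  · obtain ⟨d, hd, hdM, hyd⟩ := hy
    show embQ (M * s) (heckeAlphaBar QBar M s y) = _
    rw [embQ_eq_of_series (hdM.trans (dvd_mul_right M s)) _ ((coe_heckeAlphaBar _ _ _).trans hyd),
      embQ_eq_of_series hdM y hyd]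

theorem embQ_beta (x : Fbar M) :
    embQ (M * s) (heckeBetaBar QBar M s x) = scaleUp s (embQ M x) := by
  refine RingHom.congr_fun (f := (embQ (M * s)).comp (heckeBetaBar QBar M s).toRingHom)
    (g := (scaleUp s).toRingHom.comp (embQ M))
      (ringHom_ext_level _ _ (fun a => ?_) fun y hy => ?_) x
  · show embQ (M * s) (heckeBetaBar QBar M s (algebraMap QBar _ a)) =
      scaleUp s (embQ M (algebraMap QBar _ a))
    rw [AlgHom.commutes, embQ_algebraMap, embQ_algebraMap, AlgHom.commutes]
  · obtain ⟨d, hd, hdM, hyd⟩ := hy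
    show embQ (M * s) (heckeBetaBar QBar M s y) = scaleUp s (embQ M y)
    have hyd' : (heckeBetaBar QBar M s y : LaurentSeries QBar) =
        qExpand QBar (d * s) (jqModC QBar) := by
      rw [coe_heckeBetaBar, hyd, qExpand_qExpand]
      exact qExpand_congr (mul_comm s d) _
    rw [embQ_eq_of_series (mul_dvd_mul_right hdM s) _ hyd', embQ_eq_of_series hdM y hyd,
      scaleUp_algebraMap]
    exact congrArg _ (Subtype.ext (funext fun τ => congrArg jH (scaleH_mul d s τ)))

/-- A place of the `ℚ̄`-model is dominated by a place of the complex one, with the same orders. -/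
theorem exists_place_over_toFCHom {N : ℕ} [NeZero N] (P : Place QBar (Fbar N)) :
    ∃ v : Place ℂ (FC N), ∀ x : Fbar N, v.ord (toFCHom iotaC N x) = P.ord x := by
  have : Module.Finite QBar P.ResidueField := FF.finite_residueField P
  obtain ⟨w, hw⟩ := JacTorsion.exists_place_over
    (JacTorsion.cScalarExt iotaC (modularFunctionFieldBar N)) P
    (JacTorsion.residueConst_of_finite P)
  have key : ∀ (E : IntermediateField ℂ (LaurentSeries ℂ)) (hE : E = FC N) (w : Place ℂ E),
      ∃ v : Place ℂ (FC N), ∀ (y : E) (z : FC N), (y : LaurentSeries ℂ) = z →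
        v.ord z = w.ord y := by
    rintro E rfl w
    exact ⟨w, fun y z h => by rw [Subtype.ext h]⟩
  obtain ⟨v, hv⟩ := key _ cExt_bar w
  refine ⟨v, fun x => (hv (JacTorsion.cEmb iotaC _ x) _
    ((JacTorsion.coe_cEmb _ _ _).trans (coe_toFCHom iotaC x).symm)).trans ?_⟩
  rw [← hw, JacTorsion.cScalarExt_emb]

/-- If `j` has order prime to `3` at a zero `w` in level `M s`, both degeneracy maps agree
there. -/
theorem ord_alpha_eq_ord_beta (hs : s.Prime) {w : Place QBar (Fbar (M * s))}
    (hpos : 0 < w.ord (heckeAlphaBar QBar M s (jB M)))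
    (h3 : ¬ (3 : ℤ) ∣ w.ord (heckeAlphaBar QBar M s (jB M))) (f : Fbar M) :
    w.ord (heckeAlphaBar QBar M s f) = w.ord (heckeBetaBar QBar M s f) := by
  -- `w` comes from a point `τ` with `j τ = 0`
  obtain ⟨v, hv⟩ := exists_place_over_toFCHom w
  have hjF : toFCHom iotaC (M * s) (heckeAlphaBar QBar M s (jB M)) = jF (M * s) := Subtype.ext (by
    rw [coe_toFCHom, coe_heckeAlphaBar, coe_jF]
    exact coeffMap_jqModC iotaC)
  have hvj : v.ord (jF (M * s)) = w.ord (heckeAlphaBar QBar M s (jB M)) := by rw [← hjF, hv]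
  have hjne : jF (M * s) ≠ 0 := fun h => by rw [h, Place.ord_zero] at hvj; omega
  obtain ⟨τ, hvτ⟩ := exists_eq_placeAt (v := v) ((FF.mem_iff_ord v hjne).mpr (by omega))
  have hτ0 : jH τ = 0 := by
    by_contra hne
    have h1 := ord_jF_sub_placeAt_pos (N := M * s) τ
    rw [← hvτ] at h1
    have h2 : algebraMap ℂ (FC (M * s)) (jH τ) ∈ FF.ordGe v 1 := by
      have h := sub_mem (FF.mem_ordGe_of_le v (show (1 : ℤ) ≤ v.ord (jF (M * s)) by omega))
        (FF.mem_ordGe_of_le v (show (1 : ℤ) ≤ v.ord (jF (M * s) - algebraMap ℂ _ (jH τ)) by omega))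
      rwa [sub_sub_cancel] at h
    have := FF.le_ord_of_mem_ordGe v ((_root_.map_ne_zero _).mpr hne) h2
    rw [FF.ord_algebraMap] at this
    omega
  -- the ramification is the period of the stabiliser of `τ` on cosets
  obtain ⟨g, hgfix, hprim, hper⟩ := exists_stab_period (N := M * s) τ
  rw [ordHol_jSubHol_jH, if_pos hτ0] at hprim
  rw [← hvτ, hτ0, map_zero, sub_zero, hvj] at hper
  have hdvd := ord_jF_sub_dvd v 0 (by rw [map_zero, sub_zero, hvj]; exact hpos)
  rw [if_pos rfl, map_zero, sub_zero, hvj, hper, Int.natCast_dvd_natCast] at hdvd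
  -- prime to three, so one: the stabiliser lies in `Γ₀(M s)`
  have hone : Function.minimalPeriod (fun c : Coset (M * s) => g • c)
      ((1 : SL(2, ℤ)) : Coset (M * s)) = 1 :=
    ((Nat.dvd_prime Nat.prime_three).mp hdvd).resolve_right fun e => h3 (by rw [hper, e]; rfl)
  have hgmem : g ∈ Gamma0 (M * s) := by
    have h := (Function.minimalPeriod_eq_one_iff_isFixedPt.mp hone).eq
    simp only [MulAction.Quotient.smul_coe, smul_eq_mul, mul_one, QuotientGroup.eq] at h
    simpa using h
  -- hence `s τ` is equivalent to `τ` at level `M`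
  obtain ⟨δ, hδ, hδτ⟩ := exists_smul_eq_scaleH hs g hgmem τ hgfix hprim
  obtain ⟨m, hm, hord⟩ := exists_ordMer_eq_mul (N := M * s) τ
  -- and orders at `w` are orders at `τ`
  have key : ∀ x : Fbar (M * s), x ≠ 0 → ordMer τ (embQ (M * s) x) = m * w.ord x := fun x hx => by
    rw [embQ_apply, hord _ ((_root_.map_ne_zero _).mpr hx), ← hvτ, hv]
  rcases eq_or_ne f 0 with rfl | hf
  · simp
  have ea := key _ ((_root_.map_ne_zero (heckeAlphaBar QBar M s)).mpr hf)
  have eb := key _ ((_root_.map_ne_zero (heckeBetaBar QBar M s)).mpr hf)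
  rw [embQ_alpha] at ea
  rw [embQ_beta, ordMer_scaleUp, ← hδτ, ← ordMer_actMer, embQ_apply, emb_smul,
    MulAction.Quotient.smul_coe, smul_eq_mul, mul_one,
    show ((δ⁻¹ : SL(2, ℤ)) : Coset M) = ((1 : SL(2, ℤ)) : Coset M) from
      QuotientGroup.eq.mpr (by simpa using hδ), ← embQ_apply, ea] at eb
  exact mul_left_cancel₀ hm.ne' eb

/-- The same, for the second map. -/
theorem ord_alpha_eq_ord_beta' (hs : s.Prime) (hsM : ¬ s ∣ M) {w : Place QBar (Fbar (M * s))}
    (hpos : 0 < w.ord (heckeBetaBar QBar M s (jB M)))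
    (h3 : ¬ (3 : ℤ) ∣ w.ord (heckeBetaBar QBar M s (jB M))) (f : Fbar M) :
    w.ord (heckeAlphaBar QBar M s f) = w.ord (heckeBetaBar QBar M s f) := by
  obtain ⟨W, hWa, hWb, -⟩ := ModFun.exists_alEquiv M s hs hsM
  rw [← hWa, ord_algEquiv] at hpos h3
  rw [show w.ord (heckeAlphaBar QBar M s f) = (W⁻¹ • w).ord (heckeBetaBar QBar M s f) from
      (congrArg w.ord (hWb f)).symm.trans (ord_algEquiv W w _),
    show w.ord (heckeBetaBar QBar M s f) = (W⁻¹ • w).ord (heckeAlphaBar QBar M s f) from
      (congrArg w.ord (hWa f)).symm.trans (ord_algEquiv W w _)]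
  exact (ord_alpha_eq_ord_beta hs hpos h3 f).symm

/-- **`T_s [P] ≡ (s + 1) [P]` modulo `3`**, for `P` over `j = 0` unramified over the `j`-line. -/
theorem exists_barT_single_ell (hs : s.Prime) (hsM : ¬ s ∣ M) {P : Place QBar (Fbar M)}
    (hP : P.ord (jB M) = 1) :
    ∃ E : Divisor QBar (Fbar M), barT M s (Finsupp.single P 1) =
      ((s : ℤ) + 1) • Finsupp.single P 1 + (3 : ℤ) • E := by
  classical
  set β := heckeBetaBar QBar M s
  set α := heckeAlphaBar QBar M s
  set S := Place.fiberAlong β (FF.isIntegralAlong β) P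
  -- a place over `P` has index divisible by three or lies over `P` by both maps
  have hterm : ∀ w ∈ S, ∃ E : Divisor QBar (Fbar M),
      Finsupp.single (w.restrictAlong α (FF.isIntegralAlong α)) (w.ramificationIndexAlong β : ℤ) =
        Finsupp.single P (w.ramificationIndexAlong β : ℤ) + (3 : ℤ) • E := by
    intro w hw
    by_cases h3 : (3 : ℤ) ∣ (w.ramificationIndexAlong β : ℤ)
    · obtain ⟨k, hk⟩ := h3
      refine ⟨Finsupp.single (w.restrictAlong α (FF.isIntegralAlong α)) k - Finsupp.single P k, ?_⟩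
      rw [hk, smul_sub, Finsupp.smul_single, Finsupp.smul_single, smul_eq_mul]
      abel
    · refine ⟨0, ?_⟩
      rw [smul_zero, add_zero]
      congr 1
      have hr := Place.mem_fiberAlong.mp hw
      have he : w.ord (β (jB M)) = (w.ramificationIndexAlong β : ℤ) := by
        rw [Place.ord_restrictAlong β (FF.isIntegralAlong β), hr, hP, mul_one]
      have hb := Mazur.Eisenstein.ramificationIndexAlong_pos β w
      have ha := Mazur.Eisenstein.ramificationIndexAlong_pos α w
      have heq := ord_alpha_eq_ord_beta' hs hsM (w := w) (by rw [he]; exact_mod_cast hb)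
        (by rw [he]; exact h3)
      refine Place.ext (SetLike.ext fun f => ?_)
      rcases eq_or_ne f 0 with rfl | hf
      · simp [zero_mem]
      have h := heq f
      rw [Place.ord_restrictAlong α (FF.isIntegralAlong α),
        Place.ord_restrictAlong β (FF.isIntegralAlong β), hr] at h
      rw [FF.mem_iff_ord _ hf, FF.mem_iff_ord P hf]
      have hb' : (0 : ℤ) < w.ramificationIndexAlong β := by exact_mod_cast hb
      have ha' : (0 : ℤ) < w.ramificationIndexAlong α := by exact_mod_cast ha
      constructor <;> intro h' <;> nlinarith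
  choose E hE using hterm
  -- the indices sum to `s + 1`
  have hsum : ∑ w ∈ S.attach, ((w : Place QBar (Fbar (M * s))).ramificationIndexAlong β : ℤ) =
      (s : ℤ) + 1 := by
    refine (Finset.sum_attach S (fun w => (w.ramificationIndexAlong β : ℤ))).trans ?_
    rw [Mazur.Eisenstein.sum_ramification_eq, finrankAlong_beta_bar hs hsM]
    simp
  refine ⟨∑ w ∈ S.attach, E w.1 w.2, ?_⟩
  rw [barT, Mazur.Eisenstein.correspondence_single, ← Finset.sum_attach,
    Finset.sum_congr rfl (fun w _ => hE w.1 w.2), Finset.sum_add_distrib, ← Finset.smul_sum,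
    ← Finsupp.single_finsetSum, Finsupp.smul_single, smul_eq_mul, mul_one]
  exact congrArg₂ (· + ·) (congrArg (Finsupp.single P) hsum) rfl

end Fermat.Agent.RT.Mazur
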