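import Fermat.Agent.RT.Mazur.HeckeEnd
import Fermat.Agent.RT.MazurP.Basic
import Fermat.Agent.Arith.Chebotarev.Main
import Fermat.Agent.GaloisReps.Models
import Fermat.Agent.Semistable.Classes

/-!
# The `p`-torsion eigen space of `J₀(N)` as a Galois module

On torsion classes which are eigen for the good Hecke correspondences the Eichler–Shimura
congruences and the density theorem give the quadratic relations of the residual representation.
-/

set_option autoImplicit false

noncomputable section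

open AlgebraicCurve ModularCurve Fermat.Agent.GaloisReps

namespace Fermat.Agent.RT.Mazur

variable (N p : ℕ) [NeZero N] [Fact p.Prime]

/-- The `p`-torsion of `J₀(N)`. -/
abbrev TP : AddSubgroup (JZero N) :=
  Pic0.torsion (AlgebraicClosure ℚ) (modularFunctionFieldBar N) p

/-- Galois on the `p`-torsion. -/
def galTP : Arith.GQ →* Module.End (ZMod p) (TP N p) :=
  (SemilinearAut.torsionRep (AlgebraicClosure ℚ) (modularFunctionFieldBar N) p).comp
    (arithmeticGalois (L := AlgebraicClosure ℚ) (modularFunctionFieldFull N))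

omit [NeZero N] in
theorem coe_galTP (σ : Arith.GQ) (x : TP N p) :
    (galTP N p σ x : JZero N) = σ • (x : JZero N) := rfl

theorem finite_TP : Finite (TP N p) := by
  have : NeZero p := ⟨(Fact.out : p.Prime).ne_zero⟩
  exact Finite.of_injective _ (tCoord_injective (N := N) p)

omit [NeZero N] in
theorem coe_smul_TP (c : ZMod p) (x : TP N p) :
    ((c • x : TP N p) : JZero N) = (c.val : ℤ) • (x : JZero N) := by
  have : NeZero p := ⟨(Fact.out : p.Prime).ne_zero⟩
  conv_lhs => rw [← ZMod.natCast_zmod_val c, Nat.cast_smul_eq_nsmul]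
  rw [AddSubgroup.coe_nsmul, natCast_zsmul]

omit [NeZero N] in
theorem coe_intCast_smul_TP (a : ℤ) (x : TP N p) :
    (((a : ZMod p) • x : TP N p) : JZero N) = a • (x : JZero N) := by
  rw [Int.cast_smul_eq_zsmul, AddSubgroup.coe_zsmul]

/-- The eigen classes in the `p`-torsion. -/
def eigenTP (G : ℕ → Prop) (a : ℕ → ℤ) : Submodule (ZMod p) (TP N p) where
  carrier := {x | MazurP.IsEigen N G a (x : JZero N)}
  add_mem' := fun {x y} hx hy l hl hG => by
    rw [AddSubgroup.coe_add, map_add, hx l hl hG, hy l hl hG]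
    exact (zsmul_add _ _ _).symm
  zero_mem' := fun l hl hG => by simp
  smul_mem' := fun c x hx l hl hG => by
    rw [coe_smul_TP, map_zsmul, hx l hl hG, smul_comm]

theorem eigenTP_stable (G : ℕ → Prop) (a : ℕ → ℤ) (σ : Arith.GQ) :
    ∀ x ∈ eigenTP N p G a, galTP N p σ x ∈ eigenTP N p G a := fun x hx l hl hG => by
  rw [coe_galTP]
  rw [← galois_heckeOperatorBar, hx l hl hG]
  exact map_zsmul (DistribSMul.toAddMonoidHom (JZero N) σ) (a l) _

variable {N p}

/-- **The quadratic relations** of a representation with the traces `a` of Frobenius elements. -/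
theorem galTP_quad (r : Arith.GQ →* Matrix (Fin 2) (Fin 2) (ZMod p))
    (hr : ∃ L : IntermediateField ℚ (AlgebraicClosure ℚ), FiniteDimensional ℚ L ∧
      ∀ σ : Arith.GQ, (∀ z ∈ L, σ z = z) → r σ = 1)
    (T : Finset ℕ) (G : ℕ → Prop) (a : ℕ → ℤ) (hG : ∀ l, l.Prime → l ∉ T → G l ∧ ¬ l ∣ N * p)
    (hfrob : ∀ l : ℕ, l.Prime → l ∉ T → ∀ A : ValuationSubring (AlgebraicClosure ℚ),
      A.LiesOverPrime l → ∀ σ : Arith.GQ, A.IsFrobeniusAt σ l →
        (r σ).trace = (a l : ZMod p) ∧ (r σ).det = (l : ZMod p))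
    (g : Arith.GQ) {x : TP N p} (hx : x ∈ eigenTP N p G a) :
    galTP N p g (galTP N p g x) - (r g).trace • galTP N p g x + (r g).det • x = 0 := by
  classical
  have : NeZero p := ⟨(Fact.out : p.Prime).ne_zero⟩
  have := finite_TP N p
  obtain ⟨L₁, hL₁, h₁⟩ := hr
  choose L hL hfix using fun y : TP N p => exists_fixing_torsion N y
  have : ∀ y, FiniteDimensional ℚ (L y) := hL
  have : FiniteDimensional ℚ L₁ := hL₁
  obtain ⟨l, hl, hlT, A, hA, σ, hσ, he⟩ := Arith.Chebotarev.exists_frobenius_eq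
    (r.prod (galTP N p)) (L₁ ⊔ ⨆ y, L y) (fun τ hτ => Prod.ext
      (h₁ τ fun z hz => hτ z ((le_sup_left : L₁ ≤ _) hz))
      (LinearMap.ext fun y => Subtype.ext (hfix y τ fun z hz => hτ z
        ((le_sup_right : (⨆ y, L y) ≤ L₁ ⊔ ⨆ y, L y) (le_iSup L y hz))))) g T
  rw [show r g = r σ from (congrArg Prod.fst he).symm,
    show galTP N p g = galTP N p σ from (congrArg Prod.snd he).symm]
  obtain ⟨hGl, hlN⟩ := hG l hl hlT
  obtain ⟨ht, hd⟩ := hfrob l hl hlT A hA σ hσ
  have hx1 : (x : JZero N) ∈ JTors N p 1 := by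
    rw [JTors, pow_one]; exact x.2
  have h := (eichlerShimuraCongruence N p l hl hlN A hA 1 ⟨_, hx1⟩).2 σ hσ
  change σ • σ • (x : JZero N) - heckeOperatorBar N ⟨l, hl⟩ (σ • (x : JZero N)) +
    l • (x : JZero N) = 0 at h
  have hT : heckeOperatorBar N ⟨l, hl⟩ (σ • (x : JZero N)) = σ • a l • (x : JZero N) :=
    (galois_heckeOperatorBar N ⟨l, hl⟩ σ _).symm.trans
      (congrArg (fun z : JZero N => σ • z) (hx l hl hGl))
  rw [hT] at h
  rw [ht, hd, ← Int.cast_natCast l]
  refine Subtype.ext ?_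
  show σ • σ • (x : JZero N) - (((a l : ZMod p) • galTP N p σ x : TP N p) : JZero N) +
    ((((l : ℤ) : ZMod p) • x : TP N p) : JZero N) = 0
  rw [coe_intCast_smul_TP, coe_intCast_smul_TP, natCast_zsmul]
  show σ • σ • (x : JZero N) - a l • σ • (x : JZero N) + l • (x : JZero N) = 0
  rw [show σ • a l • (x : JZero N) = a l • σ • (x : JZero N) from
    map_zsmul (DistribSMul.toAddMonoidHom (JZero N) σ) (a l) _] at h
  exact h

section Involution

open Semistable

variable {q M : ℕ} [Fact q.Prime] [NeZero M] {A : ValuationSubring Arith.QBar} [CharP (Res A) q]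
  [FF.IsFunctionField (Res A) (KM A M)] (h : Setup A M q)

omit [CharP (Res A) q] [FF.IsFunctionField (Res A) ↥(KM A M)] in
theorem wAut_mul_self : wAut h * wAut h = 1 := by
  rw [wAut, ← map_mul, ← map_one (SemilinearAut.ofAlgAut (K := Arith.QBar) (F := FB (q * M)))]
  exact congrArg _ (AlgEquiv.ext fun x => wEquiv_wEquiv q M h.hqM x)

/-- The involution on the `p`-torsion. -/
def wTP : Module.End (ZMod p) (TP (q * M) p) :=
  SemilinearAut.torsionRep (AlgebraicClosure ℚ) (modularFunctionFieldBar (q * M)) p (wAut h)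

omit [CharP (Res A) q] [FF.IsFunctionField (Res A) ↥(KM A M)] in
theorem coe_wTP (x : TP (q * M) p) :
    (wTP (p := p) h x : JZero (q * M)) = wAut h • (x : JZero (q * M)) := rfl

omit [CharP (Res A) q] [FF.IsFunctionField (Res A) ↥(KM A M)] in
theorem wTP_wTP (x : TP (q * M) p) : wTP h (wTP h x) = x := by
  rw [wTP, ← Module.End.mul_apply, ← map_mul, wAut_mul_self, map_one, Module.End.one_apply]

omit [CharP (Res A) q] [FF.IsFunctionField (Res A) ↥(KM A M)] in
theorem wTP_galTP (σ : Arith.GQ) (x : TP (q * M) p) :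
    wTP h (galTP (q * M) p σ x) = galTP (q * M) p σ (wTP h x) := by
  simp only [wTP, galTP, MonoidHom.comp_apply, ← Module.End.mul_apply, ← map_mul, wAut_galois]

end Involution

end Fermat.Agent.RT.Mazur
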