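import Fermat.Agent.RT.Mazur.Rational
import Fermat.Agent.RT.Mazur.Torsion
import Fermat.Agent.RT.MazurP.Level
import Fermat.Agent.RT.MazurP.HeckeSeries

/-!
# Normalised Kummer functions of inertia-fixed eigen classes

The norm at `l` multiplies both orders at `q` by `l + 1`, so for the Kummer function `f` of an
inertia-fixed class with `T_l = a` the function `N_l f / f ^ (l + 1)` has both reductions nonzero
and gives the multiple `a - l - 1` of the class.
-/

set_option autoImplicit false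

noncomputable section

open AlgebraicCurve ModularCurve
open Fermat.Agent.Semistable Fermat.Agent.Arith

namespace Fermat.Agent.RT.Mazur

variable {A : ValuationSubring QBar} {q M : ℕ} [hq : Fact q.Prime] [NeZero M] {hqM : ¬ q ∣ M}

theorem fix_iota2 (hA : A.LiesOverPrime q) {y : FB (q * M)}
    (hy : InertiaFixed A (y : LSer)) (s : Fin 2) :
    (MazurP.unramField (p := q) hA).Fix (iota2 M q hqM s y) := fun τ hτ => by
  rw [← Semistable.iota2_galF,
    show galF (q * M) τ y = y from Subtype.ext ((coe_arithmeticRingAut τ y).trans (hy τ hτ))]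

theorem gord_zpow (hA : A.LiesOverPrime q) {x : LSer} (hx : x ∈ fracS A) (hx0 : x ≠ 0)
    (hfx : (MazurP.unramField (p := q) hA).Fix x) (n : ℤ) :
    (MazurP.unramField (p := q) hA).gord (x ^ n) =
      n * (MazurP.unramField (p := q) hA).gord x := by
  rcases Int.eq_nat_or_neg n with ⟨m, rfl | rfl⟩
  · rw [zpow_natCast, MazurP.CoefField.gord_pow hA hq.out hx hx0 hfx]
  · rw [zpow_neg, zpow_natCast, MazurP.CoefField.gord_inv hA hq.out (pow_mem hx m)
      (pow_ne_zero m hx0) (hfx.pow m), MazurP.CoefField.gord_pow hA hq.out hx hx0 hfx]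
    ring

variable {p : ℕ} [Fact p.Prime]

/-- **Normalised Kummer functions.** For a Kummer function `f`, the function `N_l f / f ^ (l + 1)`
has both reductions nonzero and gives the class `(a - l - 1) x`. -/
theorem exists_normalized [CharP (Res A) q] (hA : A.LiesOverPrime q) {l : ℕ} [NeZero l]
    (hl : l.Prime) (hlN : ¬ l ∣ q * M) {a : ℤ} (x : TP (q * M) p)
    (hx : ∀ τ ∈ A.inertiaSubgroupIn ℚ, τ • (x : JZero (q * M)) = x)
    (heig : heckeOperatorBar (q * M) ⟨l, hl⟩ (x : JZero (q * M)) = a • (x : JZero (q * M))) :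
    ∃ (F : loc2 A (iota2 M q hqM)) (D : Divisor.degZero (K := QBar) (F := FB (q * M))),
      InertiaFixed A ((F : FB (q * M)) : LSer) ∧
      (∀ v, v.ord (F : FB (q * M)) = (p : ℤ) * (D : Divisor QBar (FB (q * M))) v) ∧
      (∀ s, red2 A (iota2 M q hqM) F s ≠ 0) ∧
      Pic0.mk D = (a - ((l : ℤ) + 1)) • (x : JZero (q * M)) := by
  have : NeZero p := ⟨(Fact.out : p.Prime).ne_zero⟩
  set C := MazurP.unramField (p := q) hA with hC
  -- An inertia-fixed Kummer function `f`, with `N_l f = f ^ a * h ^ p`.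
  obtain ⟨f, hfx, -, hfix⟩ := exists_rational_kummer A x hx
  have hx' : heckeOperatorBar (q * M) ⟨l, hl⟩
      (JacTorsion.toTorsion (Additive.ofMul f) : JZero (q * M)) =
      a • (JacTorsion.toTorsion (Additive.ofMul f) : JZero (q * M)) := by rw [hfx]; exact heig
  obtain ⟨h, hh, hN⟩ := MazurP.exists_heckeNorm_eq l hl f a hx'
  set f₀ : FB (q * M) := ((f : (FB (q * M))ˣ) : FB (q * M)) with hf₀
  have hf0 : f₀ ≠ 0 := Units.ne_zero _
  set g := MazurP.heckeNorm (q * M) l f₀ with hgdef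
  have hg0 : g ≠ 0 := MazurP.heckeNorm_ne_zero (N := q * M) (l := l) hf0
  set F₀ : FB (q * M) := g * f₀ ^ (-((l : ℤ) + 1)) with hF₀
  have hgf : ∀ τ ∈ A.inertiaSubgroupIn ℚ, galF (q * M) τ f₀ = f₀ := fun τ hτ =>
    Subtype.ext ((coe_arithmeticRingAut τ _).trans (hfix τ hτ))
  have hgg : ∀ τ ∈ A.inertiaSubgroupIn ℚ, galF (q * M) τ g = g := fun τ hτ => by
    rw [hgdef, ← MazurP.heckeNorm_galF hl hlN, hgf τ hτ]
  have hfixg : InertiaFixed A (g : LSer) := fun τ hτ =>
    (coe_arithmeticRingAut τ g).symm.trans (congrArg Subtype.val (hgg τ hτ))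
  -- `F₀` has order zero on both sides, as the norm multiplies orders by `l + 1`.
  have hu : ∀ s, IsGUnit A (iota2 M q hqM s F₀) := by
    intro s
    have hs1 : iota2 M q hqM s f₀ ≠ 0 := (_root_.map_ne_zero _).mpr hf0
    have hs2 : iota2 M q hqM s g ≠ 0 := (_root_.map_ne_zero _).mpr hg0
    have hF1 := fix_iota2 (hqM := hqM) hA hfix s
    have hF2 := fix_iota2 (hqM := hqM) hA hfixg s
    have m1 := iota2_fracS (A := A) M q hqM s f₀
    have m2 := iota2_fracS (A := A) M q hqM s g
    have e : C.gord (iota2 M q hqM s g * iota2 M q hqM s f₀ ^ (-((l : ℤ) + 1))) = 0 := by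
      rw [MazurP.CoefField.gord_mul hA hq.out m2 (zpow_mem m1 _) hs2 (zpow_ne_zero _ hs1) hF2
          (hF1.zpow _), gord_zpow hA m1 hs1 hF1,
        MazurP.gord_heckeImage hA hq.out C m1 hs1 hF1 m2
          (fun ζ hζ => MazurP.qExpand_iota2_heckeNorm q M l hqM hl hlN s hζ f₀)]
      ring
    have h1 := MazurP.CoefField.gord_spec (C := C) hA hq.out
      (mul_mem m2 (zpow_mem m1 (-((l : ℤ) + 1))))
      (mul_ne_zero hs2 (zpow_ne_zero _ hs1)) (hF2.mul (hF1.zpow _))
    rw [e, neg_zero, zpow_zero, map_one, one_mul] at h1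
    rw [hF₀, map_mul, map_zpow₀]
    exact h1
  have hmem : F₀ ∈ loc2 A (iota2 M q hqM) := (mem_loc2 _).mpr fun s => (hu s).1
  -- Its divisor is `p` times `(a - (l + 1)) • divQuot f + div h`.
  refine ⟨⟨F₀, hmem⟩,
    ⟨(a - ((l : ℤ) + 1)) • JacTorsion.divQuot f + FF.div QBar h, ?_⟩, fun τ hτ => ?_,
    fun v => ?_, fun s => ?_, ?_⟩
  · rw [Divisor.mem_degZero, map_add, map_zsmul, FF.degree_div,
      Divisor.mem_degZero.mp (JacTorsion.divQuot_mem_degZero f), smul_zero, zero_add]
  · rw [← coe_arithmeticRingAut]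
    refine congrArg Subtype.val ?_
    show galF (q * M) τ F₀ = F₀
    rw [hF₀, map_mul, map_zpow₀, hgg τ hτ, hgf τ hτ]
  · have e := congrArg (fun E : Divisor QBar (FB (q * M)) => E v) (JacTorsion.smul_divQuot f)
    simp only [Finsupp.smul_apply, smul_eq_mul, FF.div_apply] at e
    show v.ord F₀ = _
    rw [hF₀, v.ord_mul hg0 (zpow_ne_zero _ hf0), v.ord_zpow, hN,
      v.ord_mul (zpow_ne_zero _ hf0) (pow_ne_zero _ hh), v.ord_zpow, FF.ord_pow, ← e,
      Finsupp.add_apply, Finsupp.smul_apply, FF.div_apply, smul_eq_mul]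
    ring
  · rw [red2_apply]; exact (hu s).2
  · have hx2 : (x : JZero (q * M)) = Pic0.mk ⟨JacTorsion.divQuot f,
        JacTorsion.divQuot_mem_degZero f⟩ := (congrArg Subtype.val hfx).symm
    rw [hx2]
    refine ((QuotientAddGroup.eq_iff_sub_mem).mpr ?_).trans
      (map_zsmul (QuotientAddGroup.mk' _) (a - ((l : ℤ) + 1)) _)
    rw [AddSubgroup.mem_addSubgroupOf, AddSubgroupClass.coe_sub, AddSubgroupClass.coe_zsmul,
      add_sub_cancel_left]
    exact show FF.div QBar h ∈ Divisor.principal (K := QBar) (F := FB (q * M))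
      from ⟨h, hh, fun v => FF.div_apply h v⟩

end Fermat.Agent.RT.Mazur
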