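import Fermat.Agent.RT.Mazur.OrdersBasic
import Fermat.Agent.RT.Mazur.Scale

/-!
# Bounds on the orders of reductions at level `q M`

For `y ^ m * f` with poles bounded by `n ∞` the orders of the reductions satisfy
`m ord ȳ + ord f̄ ≥ -n ord_∞`; when the first reduction of `y` vanishes, the second one gains the
order of the reduction of the vertical unit.
-/

set_option autoImplicit false

noncomputable section

namespace Fermat.Agent.RT.Mazur

open AlgebraicCurve Polynomial
open Fermat.Agent.Semistable Fermat.Agent.Arith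

variable {A : ValuationSubring QBar} {q : ℕ} [hq : Fact q.Prime] [CharP (Res A) q]
  {M : ℕ} [NeZero M] [FF.IsFunctionField (Res A) (KM A M)] {hqM : ¬ q ∣ M}

/-- The reduction on side `s` as an element of the function field of level `M`. -/
def redK (hM : (M : Res A) ≠ 0) (x : loc2 A (iota2 M q hqM)) (s : Fin 2) : KM A M :=
  ⟨red2 A (iota2 M q hqM) x s, red2_mem_KM M q hqM hM x s⟩

omit [FF.IsFunctionField (Res A) (KM A M)] in
/-- The series of `redK` is the reduction. -/
theorem coe_redK (hM : (M : Res A) ≠ 0) (x : loc2 A (iota2 M q hqM)) (s : Fin 2) :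
    (redK hM x s : LaurentSeries (Res A)) = red2 A (iota2 M q hqM) x s := rfl

omit [FF.IsFunctionField (Res A) (KM A M)] in
/-- Reduction on each side is multiplicative. -/
theorem redK_mul (hM : (M : Res A) ≠ 0) (x y : loc2 A (iota2 M q hqM)) (s : Fin 2) :
    redK hM (x * y) s = redK hM x s * redK hM y s :=
  Subtype.ext (by rw [coe_redK, map_mul]; rfl)

omit [FF.IsFunctionField (Res A) (KM A M)] in
/-- Reduction on each side commutes with powers. -/
theorem redK_pow (hM : (M : Res A) ≠ 0) (x : loc2 A (iota2 M q hqM)) (n : ℕ) (s : Fin 2) :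
    redK hM (x ^ n) s = redK hM x s ^ n :=
  Subtype.ext (by rw [coe_redK, map_pow]; rfl)

/-- The reduction of a function with bounded poles has bounded poles. -/
theorem redK_mem_Hk (hA : A.LiesOverPrime q) (hM : (M : Res A) ≠ 0)
    {x : loc2 A (iota2 M q hqM)} {n : ℕ} (hx : (x : FB (q * M)) ∈ HN M q n) (s : Fin 2) :
    redK hM x s ∈ Hk A M (sideDeg q s * n) := by
  have h := red2_mem_Pk M q hqM hA hM hx
  rw [mem_Pk, mem_HkS, mem_HkS] at h
  obtain ⟨⟨_, h0⟩, ⟨_, h1⟩⟩ := h
  fin_cases s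
  · show redK hM x 0 ∈ Hk A M (1 * n)
    rw [one_mul]
    exact h0
  · exact h1

/-- The bound from the pole order. -/
theorem pow_order_bound (hA : A.LiesOverPrime q) (hM : (M : Res A) ≠ 0)
    {y F : loc2 A (iota2 M q hqM)} {m n : ℕ}
    (hyF : ((y ^ m * F : loc2 A (iota2 M q hqM)) : FB (q * M)) ∈ HN M q n) (s : Fin 2)
    (hy : redK hM y s ≠ 0) (hF : redK hM F s ≠ 0) (v : Place (Res A) (KM A M)) :
    -((sideDeg q s * n : ℕ) * FF.poles (Res A) (jK A M) v : ℤ) ≤
      (m : ℤ) * v.ord (redK hM y s) + v.ord (redK hM F s) := by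
  have h := mem_riemannRochSpace_iff.mp (redK_mem_Hk hA hM hyF s) v
  rw [redK_mul, redK_pow] at h
  have h' := h.resolve_left (mul_ne_zero (pow_ne_zero m hy) hF)
  rwa [v.ord_mul (pow_ne_zero m hy) hF, FF.ord_pow, Finsupp.smul_apply, nsmul_eq_mul] at h'

omit [CharP (Res A) q] [FF.IsFunctionField (Res A) ↥(KM A M)] in
/-- The twist of `y ^ (12 m) f ^ 12` by the vertical unit, for `y` divisible by `q` on the first
side, is integral on both sides. -/
theorem twist_mem_loc2 (hA : A.LiesOverPrime q) {y F : loc2 A (iota2 M q hqM)} (m : ℕ)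
    (hyfix : InertiaFixed A ((y : FB (q * M)) : LSer)) (hy0 : red2 A (iota2 M q hqM) y 0 = 0) :
    ∃ h : algebraMap QBar (FB (q * M)) (((q : QBar)⁻¹) ^ (12 * m)) *
        (y : FB (q * M)) ^ (12 * m) * (F : FB (q * M)) ^ 12 * unitU q M hqM ^ m ∈
          loc2 A (iota2 M q hqM),
      red2 A (iota2 M q hqM) ⟨_, h⟩ 1 = red2 A (iota2 M q hqM) y 1 ^ (12 * m) *
        red2 A (iota2 M q hqM) F 1 ^ 12 * (rhoSer q (Res A))⁻¹ ^ m := by
  -- `y / q` is integral on the first side
  have hy' : algebraMap QBar LSer (q : QBar)⁻¹ * ((y : FB (q * M)) : LSer) ∈ locS A := by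
    refine inv_mul_mem_locS hA ((mem_loc2_iff M q hqM).mp y.2).1 hyfix (mem_fracS_of_mem _) ?_
    rw [red2_apply] at hy0
    exact (redL_congr _ _ (iota2_zero M q hqM _).symm).trans hy0
  set U := unitU q M hqM
  have hUl : (U : LSer) ∈ locS A := intS_le_locS (unitU_mem_intS q M hqM A)
  obtain ⟨hUi, hUie⟩ := inv_mem_locS hUl (by rw [redL_unitU]; exact rhoSer_ne_zero q)
  -- `w U = q ^ 12 / U` makes up the powers of `q` on the second side
  have hwU : algebraMap QBar LSer ((q : QBar)⁻¹ ^ 12) * (wEquiv q M hqM U : LSer) =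
      (U : LSer)⁻¹ := by
    refine eq_inv_of_mul_eq_one_left ?_
    have h2 : (wEquiv q M hqM U : LSer) * (U : LSer) = algebraMap QBar LSer ((q : QBar) ^ 12) :=
      congrArg Subtype.val (wEquiv_unitU_mul q M hqM)
    rw [mul_assoc, h2, ← map_mul, ← mul_pow,
      inv_mul_cancel₀ (Nat.cast_ne_zero.mpr hq.out.ne_zero), one_pow, map_one]
  set H : FB (q * M) := algebraMap QBar (FB (q * M)) (((q : QBar)⁻¹) ^ (12 * m)) *
    (y : FB (q * M)) ^ (12 * m) * (F : FB (q * M)) ^ 12 * U ^ m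
  -- the two expansions
  have e0 : iota2 M q hqM 0 H = (algebraMap QBar LSer (q : QBar)⁻¹ * ((y : FB (q * M)) : LSer)) ^
      (12 * m) * iota2 M q hqM 0 (F : FB (q * M)) ^ 12 * (U : LSer) ^ m := by
    simp only [H, map_mul, map_pow, AlgHom.commutes, mul_pow]
    rfl
  have e1 : iota2 M q hqM 1 H = iota2 M q hqM 1 (y : FB (q * M)) ^ (12 * m) *
      iota2 M q hqM 1 (F : FB (q * M)) ^ 12 * (U : LSer)⁻¹ ^ m := by
    rw [← hwU, ← iota2_one M q hqM U, map_pow (algebraMap QBar LSer), mul_pow, ← pow_mul]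
    simp only [H, map_mul, map_pow, AlgHom.commutes]
    ring
  have hF := (mem_loc2 (iota2 M q hqM)).mp F.2
  have hy1 := (mem_loc2 (iota2 M q hqM)).mp y.2 1
  have hH : H ∈ loc2 A (iota2 M q hqM) := by
    refine (mem_loc2 _).mpr fun s => ?_
    fin_cases s
    · show iota2 M q hqM 0 H ∈ locS A
      rw [e0]
      exact mul_mem (mul_mem (pow_mem hy' _) (pow_mem (hF 0) _)) (pow_mem hUl _)
    · show iota2 M q hqM 1 H ∈ locS A
      rw [e1]
      exact mul_mem (mul_mem (pow_mem hy1 _) (pow_mem (hF 1) _)) (pow_mem hUi _)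
  refine ⟨hH, ?_⟩
  rw [← redL_unitU q M hqM A, ← hUie, red2_apply, red2_apply, red2_apply, ← map_pow, ← map_pow,
    ← map_pow, ← map_mul, ← map_mul]
  exact congrArg _ (Subtype.ext e1)

/-- The gain from the vertical unit at finite places. -/
theorem unit_order_bound (hA : A.LiesOverPrime q) (hM : (M : Res A) ≠ 0)
    {y F : loc2 A (iota2 M q hqM)} {m n : ℕ}
    (hyF : ((y ^ m * F : loc2 A (iota2 M q hqM)) : FB (q * M)) ∈ HN M q n)
    (hyfix : InertiaFixed A ((y : FB (q * M)) : LSer)) (hy0 : red2 A (iota2 M q hqM) y 0 = 0)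
    (hy : redK hM y 1 ≠ 0) (hF : redK hM F 1 ≠ 0) {ρ : KM A M}
    (hρ : (ρ : LaurentSeries (Res A)) = rhoSer q (Res A)) {v : Place (Res A) (KM A M)}
    (hv : 0 ≤ v.ord (jK A M)) :
    (m : ℤ) * v.ord ρ ≤ 12 * (m : ℤ) * v.ord (redK hM y 1) + 12 * v.ord (redK hM F 1) := by
  obtain ⟨hH, he⟩ := twist_mem_loc2 hA (F := F) m hyfix hy0
  set H := algebraMap QBar (FB (q * M)) (((q : QBar)⁻¹) ^ (12 * m)) *
    (y : FB (q * M)) ^ (12 * m) * (F : FB (q * M)) ^ 12 * unitU q M hqM ^ m with hHdef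
  have hy0' : (y : FB (q * M)) ≠ 0 := fun h => hy (Subtype.ext (by
    rw [coe_redK, show y = 0 from Subtype.ext h, map_zero]; rfl))
  have hF0' : (F : FB (q * M)) ≠ 0 := fun h => hF (Subtype.ext (by
    rw [coe_redK, show F = 0 from Subtype.ext h, map_zero]; rfl))
  have hc0 : algebraMap QBar (FB (q * M)) (((q : QBar)⁻¹) ^ (12 * m)) ≠ 0 :=
    (_root_.map_ne_zero _).mpr (pow_ne_zero _ (inv_ne_zero (Nat.cast_ne_zero.mpr hq.out.ne_zero)))
  -- the twist has poles only over those of `j`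
  obtain ⟨N', hN'⟩ := RedTorsion.exists_mem_polesSpace (K := QBar) (x := upF M q (jM M)) (f := H)
    fun u hu => by
      refine FF.mem_ordGe_of_le u ?_
      have h := mem_riemannRochSpace_iff.mp hyF u
      push_cast at h
      have h' := h.resolve_left (mul_ne_zero (pow_ne_zero m hy0') hF0')
      rw [u.ord_mul (pow_ne_zero m hy0') hF0', FF.ord_pow, Pi.smul_apply, FF.poles_apply,
        max_eq_left (by omega), smul_zero, neg_zero] at h'
      rw [hHdef, u.ord_mul (mul_ne_zero (mul_ne_zero hc0 (pow_ne_zero _ hy0'))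
          (pow_ne_zero _ hF0')) (pow_ne_zero _ (unitU_ne_zero q M hqM)),
        u.ord_mul (mul_ne_zero hc0 (pow_ne_zero _ hy0')) (pow_ne_zero _ hF0'),
        u.ord_mul hc0 (pow_ne_zero _ hy0'), FF.ord_algebraMap, FF.ord_pow, FF.ord_pow, FF.ord_pow,
        ord_unitU q M hqM hu]
      push_cast
      linarith
  have hρ0 : ρ ≠ 0 := fun h => rhoSer_ne_zero (k := Res A) q (by rw [← hρ, h]; rfl)
  -- so has its reduction; read off the order at `v`
  have h := mem_riemannRochSpace_iff.mp (redK_mem_Hk hA hM (x := ⟨H, hH⟩) hN' 1) v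
  have e : redK hM ⟨H, hH⟩ 1 = redK hM y 1 ^ (12 * m) * redK hM F 1 ^ 12 * ρ⁻¹ ^ m :=
    Subtype.ext (by
      rw [coe_redK, he, IntermediateField.coe_mul, IntermediateField.coe_mul,
        IntermediateField.coe_pow, IntermediateField.coe_pow, IntermediateField.coe_pow,
        IntermediateField.coe_inv, hρ, coe_redK, coe_redK])
  rw [e] at h
  have hb := pow_ne_zero (12 * m) hy
  have ht := pow_ne_zero 12 hF
  have hr := pow_ne_zero m (inv_ne_zero hρ0)
  have h' := h.resolve_left (mul_ne_zero (mul_ne_zero hb ht) hr)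
  rw [v.ord_mul (mul_ne_zero hb ht) hr, v.ord_mul hb ht, FF.ord_pow, FF.ord_pow, FF.ord_pow,
    v.ord_inv, Finsupp.smul_apply, FF.poles_apply, max_eq_left (by omega), smul_zero,
    neg_zero] at h'
  push_cast at h'
  linarith

end Fermat.Agent.RT.Mazur

end
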