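import Fermat.Agent.RT.Mazur.ResidualClass

/-!
# Orders of reductions through a Hecke operator

If both pullbacks of a reduction to level `M s` have divisor divisible by `p`, so has the norm of
the second, and the relation `N_s F = F ^ a h ^ p` makes the divisor of the reduction divisible by
`p` as soon as `a` is prime to `p`.
-/

set_option autoImplicit false

noncomputable section

open AlgebraicCurve ModularCurve
open Fermat.Agent.Semistable Fermat.Agent.Arith

namespace Fermat.Agent.RT.Mazur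

/-- A level divisible by `3` and by a prime `s ≡ 2` modulo `3` has no elliptic points. -/
theorem noEll_of_three_dvd {M s : ℕ} (hs : s.Prime) (hs3 : s % 3 = 2) (h3 : 3 ∣ M) (hsM : s ∣ M) :
    nuTwo M = 0 ∧ nuThree M = 0 := by
  have : Fact s.Prime := ⟨hs⟩
  constructor
  · refine Nat.card_eq_zero.mpr (Or.inl ⟨fun ⟨y, hy⟩ => ?_⟩)
    have h := congrArg (ZMod.castHom h3 (ZMod 3)) hy
    simp only [map_add, map_pow, map_one, map_zero] at h
    have key : ∀ z : ZMod 3, z ^ 2 + 1 ≠ 0 := by decide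
    exact key _ h
  · refine Nat.card_eq_zero.mpr (Or.inl ⟨fun ⟨y, hy⟩ => ?_⟩)
    have h := congrArg (ZMod.castHom hsM (ZMod s)) hy
    simp only [map_add, map_pow, map_one, map_zero] at h
    set z := ZMod.castHom hsM (ZMod s) y
    have hz3 : z ^ 3 = 1 := by linear_combination (z - 1) * h
    have hz0 : z ≠ 0 := fun e => by simp [e] at h
    have hd : orderOf z ∣ Nat.gcd 3 (s - 1) :=
      Nat.dvd_gcd (orderOf_dvd_of_pow_eq_one hz3)
        (orderOf_dvd_of_pow_eq_one (ZMod.pow_card_sub_one_eq_one hz0))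
    have hg : Nat.gcd 3 (s - 1) = 1 :=
      (Nat.Prime.coprime_iff_not_dvd Nat.prime_three).mpr (by omega)
    rw [hg] at hd
    have hz1 : z = 1 := orderOf_eq_one_iff.mp (Nat.dvd_one.mp hd)
    rw [hz1] at h
    have h3' : ((3 : ℕ) : ZMod s) = 0 := by push_cast; linear_combination h
    rw [ZMod.natCast_eq_zero_iff] at h3'
    have := (Nat.prime_dvd_prime_iff_eq hs Nat.prime_three).mp h3'
    omega

section PullbackDiv

variable {K F F' : Type*} [Field K] [Field F] [Field F'] [Algebra K F] [Algebra K F']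
  [FF.IsFunctionField K F] [FF.IsFunctionField K F']

theorem pullbackAlong_div (φ : F →ₐ[K] F') (f : F) :
    Divisor.pullbackAlong φ (FF.isIntegralAlong _) (FF.div K f) = FF.div K (φ f) := by
  ext w
  rw [Divisor.pullbackAlong_apply, FF.div_apply, FF.div_apply, Place.ord_restrictAlong]

end PullbackDiv

section Levels

variable {q M s : ℕ} [hq : Fact q.Prime] [NeZero M] [NeZero s]

/-- `q ↦ q ^ s` from level `q M` to level `q (M s)`. -/
def incBeta (q M s : ℕ) [Fact q.Prime] [NeZero M] [NeZero s] :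
    FB (q * M) →ₐ[QBar] FB (q * (M * s)) :=
  haveI : NeZero q := ⟨(Fact.out : q.Prime).ne_zero⟩
  (IntermediateField.inclusion (FiniteFlat.bar_le (dvd_of_eq (mul_assoc q M s)))).comp
    (heckeBetaBar QBar (q * M) s)

theorem coe_incBeta (x : FB (q * M)) :
    (incBeta q M s x : LSer) = qExpand QBar s (x : LSer) :=
  (IntermediateField.coe_inclusion (FiniteFlat.bar_le (dvd_of_eq (mul_assoc q M s))) _).trans
    (coe_heckeBetaBar (q * M) s x)

theorem incBeta_genF {d e : ℕ} (hd : d ∣ q * M) (he' : e ∣ q * (M * s)) (he : e = s * d) :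
    incBeta q M s (genF (q * M) ⟨d, hd⟩) = genF (q * (M * s)) ⟨e, he'⟩ := by
  subst he
  exact Subtype.ext ((coe_incBeta _).trans (by
    rw [coe_genF, coe_genF, gen, gen, qExpand_qExpand]))

theorem iota2_incBeta (hqM : ¬ q ∣ M) (hqM' : ¬ q ∣ M * s) (t : Fin 2) (x : FB (q * M)) :
    iota2 (M * s) q hqM' t (incBeta q M s x) = qExpand QBar s (iota2 M q hqM t x) := by
  fin_cases t
  · show iota2 (M * s) q hqM' 0 (incBeta q M s x) = qExpand QBar s (iota2 M q hqM 0 x)
    rw [iota2_zero, iota2_zero, coe_incBeta]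
  · show iota2 (M * s) q hqM' 1 (incBeta q M s x) = qExpand QBar s (iota2 M q hqM 1 x)
    rw [iota2_one, iota2_one]
    refine DFunLike.congr_fun (fb_ringHom_ext
      (φ := ((FB (q * (M * s))).val.comp ((wEquiv q (M * s) hqM').toAlgHom.comp
        (incBeta q M s))).toRingHom)
      (ψ := (qExpand QBar s).comp ((FB (q * M)).val.comp (wEquiv q M hqM).toAlgHom).toRingHom)
      (fun a => ?_) fun d => ?_) x
    · show ((wEquiv q (M * s) hqM' (incBeta q M s (algebraMap QBar _ a)) : FB (q * (M * s))) :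
          LSer) = qExpand QBar s ((wEquiv q M hqM (algebraMap QBar _ a) : FB (q * M)) : LSer)
      rw [AlgHom.commutes, AlgEquiv.commutes, AlgEquiv.commutes]
      show algebraMap QBar LSer a = qExpand QBar s (algebraMap QBar LSer a)
      rw [algebraMap_laurentSeries_eq_single, qExpand_single, mul_zero]
    · show (wEquiv q (M * s) hqM' (incBeta q M s (genF _ d)) : LSer) =
        qExpand QBar s (wEquiv q M hqM (genF _ d) : LSer)
      obtain ⟨d, hd⟩ := d
      rcases dvs_cases q M hq.out hd with hdM | ⟨d', hd', rfl⟩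
      · have : NeZero d := ⟨fun h => NeZero.ne M (Nat.eq_zero_of_zero_dvd (h ▸ hdM))⟩
        have hsd : s * d ∣ M * s := by rw [mul_comm M s]; exact mul_dvd_mul_left s hdM
        rw [wEquiv_gen_of_dvd q M hqM hdM,
          incBeta_genF (e := s * d) hd (dvd_mul_of_dvd_right hsd q) rfl,
          wEquiv_gen_of_dvd q (M * s) hqM' hsd, qExpand_qExpand]
        apply qExpand_congr
        ring
      · have : NeZero d' := ⟨fun h => NeZero.ne M (Nat.eq_zero_of_zero_dvd (h ▸ hd'))⟩
        have hsd : s * d' ∣ M * s := by rw [mul_comm M s]; exact mul_dvd_mul_left s hd'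
        rw [wEquiv_gen_mul q M hqM hd',
          incBeta_genF (e := q * (s * d')) hd (mul_dvd_mul_left q hsd) (by ring),
          wEquiv_gen_mul q (M * s) hqM' hsd, qExpand_qExpand]

end Levels

variable {A : ValuationSubring QBar} {q M : ℕ} [hq : Fact q.Prime] [CharP (Res A) q] [NeZero M]
  [FF.IsFunctionField (Res A) (KM A M)] {hqM : ¬ q ∣ M} {p : ℕ} [Fact p.Prime]

/-- **Orders from the level `M s`.** -/
theorem dvd_ord_of_lift (hA : A.LiesOverPrime q) (hM : (M : Res A) ≠ 0) {s : ℕ} [NeZero s]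
    (hs : s.Prime) (hsN : ¬ s ∣ q * M)
    (up : ∀ [NeZero (M * s)] [FF.IsFunctionField (Res A) (KM A (M * s))] (hqM' : ¬ q ∣ M * s)
      (hM' : ((M * s : ℕ) : Res A) ≠ 0), OrdDvd q p hqM' hM')
    {F : loc2 A (iota2 M q hqM)} (hfix : InertiaFixed A ((F : FB (q * M)) : LSer))
    (hdiv : ∀ v : Place QBar (FB (q * M)), (p : ℤ) ∣ v.ord (F : FB (q * M)))
    (hne : ∀ t, red2 A (iota2 M q hqM) F t ≠ 0) {a : ℤ} (ha : ¬ (p : ℤ) ∣ a)
    {h : FB (q * M)} (hh : h ≠ 0)
    (hN : MazurP.heckeNorm (q * M) s (F : FB (q * M)) = (F : FB (q * M)) ^ a * h ^ p)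
    (t : Fin 2) (Q : Place (Res A) (KM A M)) : (p : ℤ) ∣ Q.ord (redK hM F t) := by
  classical
  have hqs : ¬ q ∣ s := fun h =>
    hsN ((Nat.prime_dvd_prime_iff_eq hq.out hs).mp h ▸ dvd_mul_right q M)
  have hqM' : ¬ q ∣ M * s := fun h => (hq.out.dvd_mul.mp h).elim hqM hqs
  have hM' : ((M * s : ℕ) : Res A) ≠ 0 := fun h =>
    hqM' ((CharP.cast_eq_zero_iff (Res A) q _).mp h)
  have : FF.IsFunctionField (Res A) (KM A (M * s)) :=
    RedTorsion.isFunctionField_full (F := KM A (M * s)) rfl hM'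
  have hU := up hqM' hM'
  -- the second pullback
  have hloc : ∀ r, iota2 M q hqM r (F : FB (q * M)) ∈ locS A := fun r => (mem_loc2 _).mp F.2 r
  have hGmem : incBeta q M s (F : FB (q * M)) ∈ loc2 A (iota2 (M * s) q hqM') :=
    (mem_loc2 _).mpr fun r => by
      rw [iota2_incBeta hqM hqM']; exact qExpand_mem_locS s (hloc r)
  have hGred : ∀ r, red2 A (iota2 (M * s) q hqM') ⟨_, hGmem⟩ r =
      qExpand (Res A) s (red2 A (iota2 M q hqM) F r) := fun r => by
    rw [red2_apply, red2_apply]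
    exact (redL_congr _ (qExpand_mem_locS s (hloc r)) (iota2_incBeta hqM hqM' r _)).trans
      (redL_qExpand s (hloc r))
  have hGfix : InertiaFixed A (incBeta q M s (F : FB (q * M)) : LSer) := fun τ hτ => by
    rw [coe_incBeta, coeffMap_qExpand, hfix τ hτ]
  have hG := hU ⟨_, hGmem⟩ hGfix
    (fun v => by
      show (p : ℤ) ∣ v.ord (incBeta q M s (F : FB (q * M)))
      rw [Place.ord_restrictAlong (incBeta q M s) (FF.isIntegralAlong _)]
      exact Dvd.dvd.mul_left (hdiv _) _)
    (fun r => by rw [hGred]; exact (_root_.map_ne_zero _).mpr (hne r)) t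
  set z : KM A M := redK hM F t with hz
  have hz0 : z ≠ 0 := fun e => hne t (congrArg Subtype.val e)
  have hGz : redK hM' ⟨_, hGmem⟩ t = resBeta A M s z :=
    Subtype.ext ((coe_redK hM' ⟨_, hGmem⟩ t).trans ((hGred t).trans
      ((congrArg (qExpand (Res A) s) (coe_redK hM F t).symm).trans (coe_resBeta z).symm)))
  rw [hGz] at hG
  -- its norm
  set E : Divisor (Res A) (KM A (M * s)) := resDiv p (resBeta A M s z)
  have hX : FF.div (Res A) (resNorm A M s z) =
      (p : ℤ) • Divisor.pushforwardAlong (resAlpha A M s) (FF.isIntegralAlong _) E := by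
    rw [← resT_div hz0, resT, Divisor.correspondence_apply, pullbackAlong_div,
      ← smul_resDiv hG, map_zsmul]
  obtain ⟨u, w, hu, hw, e⟩ := exists_resNorm_eq (s := t) hA hM hne hM' hs hsN a hh hN
  have e1 := congrArg Q.ord e
  rw [Q.ord_mul ((_root_.map_ne_zero _).mpr hu) (resNorm_ne_zero hz0), FF.ord_algebraMap,
    zero_add, Q.ord_mul (zpow_ne_zero _ hz0) (pow_ne_zero _ hw), Q.ord_zpow, FF.ord_pow] at e1
  have e2 : (p : ℤ) ∣ Q.ord (resNorm A M s z) := by
    have := congrArg (fun D => D Q) hX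
    simp only [FF.div_apply, Finsupp.smul_apply, smul_eq_mul] at this
    exact ⟨_, this⟩
  rw [e1, dvd_add_left (Dvd.intro _ rfl)] at e2
  exact ((Nat.prime_iff_prime_int.mp Fact.out).dvd_mul.mp e2).resolve_left ha

/-- The divisibility for eigen Kummer functions at `p = 3`: at level `M s`, `s ≡ 2` modulo `3`,
there are no elliptic points after a cover of degree prime to `3`. -/
theorem eigenOrd_three [Fact (Nat.Prime 3)] (hA : A.LiesOverPrime q) (hM : (M : Res A) ≠ 0)
    (hq3 : q ≠ 3) (G : ℕ → Prop) (a : ℕ → ℤ) {s : ℕ} (hs : s.Prime) (hs3 : s % 3 = 2)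
    (hsN : ¬ s ∣ q * M) (hGs : G s) (has : ¬ (3 : ℤ) ∣ a s) :
    EigenOrd q 3 hqM hM G a := by
  intro F hfix hdiv hne hrel t Q
  have : NeZero s := ⟨hs.ne_zero⟩
  obtain ⟨h, hh, hN⟩ := hrel s hs hGs
  refine dvd_ord_of_lift hA hM hs hsN (fun {_} {_} hqM' hM' => ?_) hfix hdiv hne
    (a := a s) (by exact_mod_cast has) hh hN t Q
  by_cases h3 : 3 ∣ M
  · exact ordDvd_of_noEll hA hM'
      (noEll_of_three_dvd hs hs3 (dvd_mul_of_dvd_left h3 s) (dvd_mul_left s M))
  · have h3' : ¬ 3 ∣ M * s := fun h => (Nat.prime_three.dvd_mul.mp h).elim h3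
      fun h' => by omega
    have hqM'' : ¬ q ∣ 3 * (M * s) := fun h => (hq.out.dvd_mul.mp h).elim
      (fun h' => hq3 ((Nat.prime_dvd_prime_iff_eq hq.out Nat.prime_three).mp h')) hqM'
    have hM'' : ((3 * (M * s) : ℕ) : Res A) ≠ 0 := fun h =>
      hqM'' ((CharP.cast_eq_zero_iff (Res A) q _).mp h)
    have : FF.IsFunctionField (Res A) (KM A (3 * (M * s))) :=
      RedTorsion.isFunctionField_full (F := KM A (3 * (M * s))) rfl hM''
    exact ordDvd_descend (dvd_mul_left (M * s) 3) hqM'' hM' hM''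
      (Gamma0.dedekindPsi_mul_of_not_dvd Nat.prime_three h3') (by norm_num)
      (ordDvd_of_noEll hA hM'' (noEll_of_three_dvd hs hs3 (dvd_mul_right 3 _)
        (dvd_mul_of_dvd_right (dvd_mul_left s M) 3)))

end Fermat.Agent.RT.Mazur
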