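import Fermat.Agent.RT.Mazur.ResidualExit
import Fermat.Agent.RT.Mazur.Pullback
import Fermat.Agent.RT.Mazur.Residual
import Fermat.Agent.Semistable.LocalTheory
import Fermat.Agent.RT.Mazur.Kummer

/-!
# Mazur's principle

`mazur_principle`: for primes `p ≠ q`, an irreducible two dimensional mod `p`
representation carried by an eigensystem of level `q M` and unramified at `q` comes from level
`M`, given `EigenOrd`, unless it has scalar Frobenius at `q` and `q ≡ 1` modulo `p`. Indeed an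
inertia-fixed eigen class either reduces to a nonzero eigen class of level `M`, or its Kummer
function has constant reductions, and then a Frobenius at `q` acts on it as `-q w`.
It is used in `RT/Mazur/CurveCaseA`.
-/

set_option autoImplicit false

noncomputable section

open AlgebraicCurve ModularCurve CongruenceSubgroup
open Fermat.Agent.Semistable Fermat.Agent.Arith

namespace Fermat.Agent.RT.Mazur

/-- Shortcut: the search is slow. -/
local instance (priority := 30000) algebraFB (N : ℕ) : Algebra QBar (FB N) := inferInstance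

variable {A : ValuationSubring QBar} {q M : ℕ} [hq : Fact q.Prime] [CharP (Res A) q] [NeZero M]
  [FF.IsFunctionField (Res A) (KM A M)] [FF.IsFunctionField QBar (FB M)] {p : ℕ} [Fact p.Prime]

variable (A) in
/-- A nonzero `p`-torsion eigen class of the reduced curve of level `M`. -/
def HasResidualClass (hM : (M : Res A) ≠ 0) (p : ℕ) (G : ℕ → Prop) (a : ℕ → ℤ) : Prop :=
  ∃ y : Pic0 (Res A) (KM A M), y ≠ 0 ∧ p • y = 0 ∧
    ∀ (l : ℕ) (hl : l.Prime), G l → ∀ z : JZero M, redJ hM z = y →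
      redJ hM (heckeOperatorBar M ⟨l, hl⟩ z) = a l • y

omit [NeZero M] [FF.IsFunctionField QBar (FB M)] in
/-- A function whose residual class is zero is a constant times a `p`-th power. -/
private theorem exists_eq_const_mul_pow {z : KM A M} (hz0 : z ≠ 0)
    (hdiv : ∀ Q : Place (Res A) (KM A M), (p : ℤ) ∣ Q.ord z) (h0 : resClass hdiv = 0) :
    ∃ (g : KM A M) (c : Res A), g ≠ 0 ∧ c ≠ 0 ∧
      z = algebraMap (Res A) (KM A M) c * g ^ p := by
  have := residueField_isAlgClosed A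
  have h1 := (QuotientAddGroup.eq_zero_iff _).mp h0
  rw [AddSubgroup.mem_addSubgroupOf] at h1
  obtain ⟨g, hg, hg'⟩ := h1
  obtain ⟨c, hc⟩ := FF.eq_algebraMap_of_ord_nonneg (K := Res A) (f := z / g ^ p)
    (fun Q => le_of_eq (by
      have e := congrArg (fun E : Divisor (Res A) (KM A M) => E Q) (smul_resDiv hdiv)
      simp only [Finsupp.smul_apply, smul_eq_mul, FF.div_apply] at e
      rw [FF.ord_div Q hz0 (pow_ne_zero p hg), FF.ord_pow, ← hg' Q, ← e, sub_self]))
  refine ⟨g, c, hg, fun hc0 => ?_, by rw [← hc, div_mul_cancel₀ _ (pow_ne_zero p hg)]⟩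
  rw [hc0, map_zero] at hc
  exact div_ne_zero hz0 (pow_ne_zero p hg) hc

/-- The class of an inertia-fixed eigen class reduces, or has a Kummer function with constant
reductions. -/
theorem residual_or_hasKummer (h : Setup A M q) (G : ℕ → Prop)
    (a : ℕ → ℤ) (hord : EigenOrd q p h.hqM h.hM G a) (hG : ∀ l, l.Prime → G l → ¬ l ∣ q * M)
    {l₀ : ℕ} (hl₀ : l₀.Prime) (hGl₀ : G l₀) (x : TP (q * M) p) (hx : x ∈ eigenTP (q * M) p G a)
    (hfix : ∀ τ ∈ A.inertiaSubgroupIn ℚ, τ • (x : JZero (q * M)) = x) :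
    HasResidualClass A h.hM p G a ∨
      ∃ (D : Divisor.degZero (K := QBar) (F := FB (q * M))) (b : Fin 2 → Res A),
        HasKummer h (D : Divisor QBar (FB (q * M))) p b ∧
          Pic0.mk D = (a l₀ - ((l₀ : ℤ) + 1)) • (x : JZero (q * M)) := by
  classical
  have := residueField_isAlgClosed A
  have : NeZero p := ⟨(Fact.out : p.Prime).ne_zero⟩
  have : NeZero l₀ := ⟨hl₀.ne_zero⟩
  have : FF.IsFunctionField QBar (FB (q * M)) := ModFun.isFunctionField_bar (q * M)
  obtain ⟨F, D, hfixF, hFD, hne2, hD⟩ := exists_normalized (hqM := h.hqM) h.hA hl₀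
    (hG _ hl₀ hGl₀) x hfix (hx _ hl₀ hGl₀)
  have hF0 : (F : FB (q * M)) ≠ 0 := fun e => hne2 0 (by
    rw [show F = 0 from Subtype.ext e, map_zero, Pi.zero_apply])
  have hdiv : ∀ v : Place QBar (FB (q * M)), (p : ℤ) ∣ v.ord (F : FB (q * M)) := fun v =>
    ⟨_, hFD v⟩
  let f : JacTorsion.divGrp QBar (FB (q * M)) p := ⟨Units.mk0 (F : FB (q * M)) hF0, hdiv⟩
  have hfD : (JacTorsion.toTorsion (Additive.ofMul f) : JZero (q * M)) = Pic0.mk D := by
    refine congrArg Pic0.mk (Subtype.ext (JacTorsion.eq_of_smul_eq (m := p) ?_))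
    show (p : ℤ) • JacTorsion.divQuot f = (p : ℤ) • (D : Divisor QBar (FB (q * M)))
    rw [JacTorsion.smul_divQuot]
    refine Finsupp.ext fun v => ?_
    rw [FF.div_apply, Finsupp.smul_apply, smul_eq_mul]
    exact hFD v
  have hrel : ∀ (l : ℕ) [NeZero l], l.Prime → G l → ∃ g : FB (q * M), g ≠ 0 ∧
      MazurP.heckeNorm (q * M) l (F : FB (q * M)) = (F : FB (q * M)) ^ a l * g ^ p :=
    fun l _ hl hGl => MazurP.exists_heckeNorm_eq l hl f (a l) (by
      rw [hfD, hD, map_zsmul, hx l hl hGl, smul_comm])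
  -- `F` has reductions with orders divisible by `p`
  have hred := hord F hfixF hdiv hne2 hrel
  have hz0 : ∀ s, redK h.hM F s ≠ 0 := fun s e => hne2 s (congrArg Subtype.val e)
  by_cases hex : ∃ s, resClass (p := p) (hred s) ≠ 0
  · -- some reduction has a nonzero class, which is then an eigen class
    obtain ⟨s, hs⟩ := hex
    refine Or.inl ⟨_, hs, nsmul_resClass (hz0 s) (hred s), fun l hl hGl z hz => ?_⟩
    have : NeZero l := ⟨hl.ne_zero⟩
    obtain ⟨g, hg, hN⟩ := hrel l hl hGl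
    exact redJ_hecke_resClass h.hA h.hM hne2 hl (hG l hl hGl) (a l) hg hN s (hred s) z hz
  · -- both reductions are constants times `p`-th powers: divide `F` by a lift of the roots
    right
    have hex' : ∀ s, resClass (p := p) (hred s) = 0 := fun s => by
      by_contra hs
      exact hex ⟨s, hs⟩
    have hdec : ∀ s, ∃ (g : KM A M) (c : Res A), g ≠ 0 ∧ c ≠ 0 ∧
        redK h.hM F s = algebraMap (Res A) (KM A M) c * g ^ p :=
      fun s => exists_eq_const_mul_pow (hz0 s) (hred s) (hex' s)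
    choose g c hg0 hc0 hgc using hdec
    obtain ⟨X, hX⟩ := red2_surjective M q h.hqM h.hM (g 0).2 (g 1).2
    have hXs : ∀ s, red2 A (iota2 M q h.hqM) X s = (g s : LaurentSeries (Res A)) := fun s => by
      rw [hX]; fin_cases s <;> rfl
    have hXne : ∀ s, red2 A (iota2 M q h.hqM) X s ≠ 0 := fun s e =>
      hg0 s (Subtype.ext ((hXs s).symm.trans e))
    have hX0 : (X : FB (q * M)) ≠ 0 := fun e => hXne 0 (by
      rw [show X = 0 from Subtype.ext e, map_zero, Pi.zero_apply])
    obtain ⟨hXi, hXir⟩ := inv_mem_loc2 (iota2 M q h.hqM) X hXne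
    refine ⟨⟨(D : Divisor QBar (FB (q * M))) - FF.div QBar (X : FB (q * M)), ?_⟩, c, ⟨hc0,
      F * (⟨_, hXi⟩ : loc2 A (iota2 M q h.hqM)) ^ p, fun v => ?_, fun s => ?_⟩, ?_⟩
    · rw [Divisor.mem_degZero, map_sub, FF.degree_div, Divisor.mem_degZero.mp D.2, sub_zero]
    · rw [MulMemClass.coe_mul, SubmonoidClass.coe_pow,
        v.ord_mul hF0 (pow_ne_zero _ (inv_ne_zero hX0)), FF.ord_pow, v.ord_inv, hFD,
        Finsupp.sub_apply, FF.div_apply]
      ring
    · rw [map_mul, map_pow, Pi.mul_apply, Pi.pow_apply, hXir, hXs,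
        ← coe_redK h.hM F s, hgc s, IntermediateField.coe_mul, IntermediateField.coe_pow,
        inv_pow, mul_assoc, mul_inv_cancel₀ (pow_ne_zero p fun e => hg0 s (Subtype.ext e)),
        mul_one]
      rfl
    · rw [← hD]
      refine QuotientAddGroup.eq_iff_sub_mem.mpr ?_
      rw [AddSubgroup.mem_addSubgroupOf, AddSubgroupClass.coe_sub, sub_sub_cancel_left]
      exact neg_mem (FF.div_mem_principal hX0)

/-- Without a residual class, Frobenius at `q` is `-q w` on inertia-fixed eigen classes. -/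
theorem galTP_add_wTP_eq_zero (h : Setup A M q) (hpq : p ≠ q)
    (G : ℕ → Prop) (a : ℕ → ℤ) (hord : EigenOrd q p h.hqM h.hM G a)
    (hG : ∀ l, l.Prime → G l → ¬ l ∣ q * M) {l₀ : ℕ}
    (hl₀ : l₀.Prime) (hGl₀ : G l₀) (hne : ¬ (p : ℤ) ∣ (l₀ : ℤ) + 1 - a l₀)
    (hres : ¬ HasResidualClass A h.hM p G a) {σ : GQ} (hσ : A.IsFrobeniusAt σ q)
    (x : TP (q * M) p) (hx : x ∈ eigenTP (q * M) p G a)
    (hfix : ∀ τ ∈ A.inertiaSubgroupIn ℚ, τ • (x : JZero (q * M)) = x) :
    galTP (q * M) p σ x + (q : ZMod p) • wTP h x = 0 := by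
  have hp : p.Prime := Fact.out
  obtain ⟨D, b, hk, hD⟩ := (residual_or_hasKummer h G a hord hG hl₀ hGl₀ x hx
    hfix).resolve_left hres
  have hP := h.frobenius_add_wAut_principal hσ hp.ne_zero
    (fun e => hpq ((Nat.prime_dvd_prime_iff_eq hq.out hp).mp e).symm) hk
  have h1 : σ • Pic0.mk D + q • (wAut h • Pic0.mk D) = (0 : JZero (q * M)) := by
    rw [galois_smul_pic0_def, SemilinearAut.pic0_smul_mk, SemilinearAut.pic0_smul_mk]
    refine Eq.trans ?_ ((QuotientAddGroup.eq_zero_iff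
      (SemilinearAut.degZeroSMulHom
          (arithmeticGalois (L := QBar) (modularFunctionFieldFull (q * M)) σ) D +
        q • SemilinearAut.degZeroSMulHom (wAut h) D)).mpr ?_)
    · exact ((map_add (QuotientAddGroup.mk' _) _ _).trans
        (congrArg _ (map_nsmul (QuotientAddGroup.mk' _) _ _))).symm
    · rw [AddSubgroup.mem_addSubgroupOf, AddSubgroup.coe_add, AddSubgroup.coe_nsmul,
        SemilinearAut.coe_degZeroSMulHom, SemilinearAut.coe_degZeroSMulHom]
      exact hP
  let wHom : JZero (q * M) →+ JZero (q * M) :=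
    { toFun := fun z => wAut h • z
      map_zero' := DistribMulAction.smul_zero (A := Pic0 QBar (FB (q * M))) (wAut h)
      map_add' := DistribMulAction.smul_add (A := Pic0 QBar (FB (q * M))) (wAut h) }
  set c : ℤ := a l₀ - ((l₀ : ℤ) + 1) with hc
  have e1 : σ • (c • (x : JZero (q * M))) = c • σ • (x : JZero (q * M)) :=
    map_zsmul (DistribSMul.toAddMonoidHom (JZero (q * M)) σ) c _
  have e2 : wAut h • (c • (x : JZero (q * M))) = c • (wAut h • (x : JZero (q * M))) :=
    map_zsmul wHom c _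
  rw [hD, e1, e2, smul_comm q c, ← zsmul_add] at h1
  have hcv : (c : ZMod p) • (galTP (q * M) p σ x + (q : ZMod p) • wTP h x) = 0 := by
    refine Subtype.ext ?_
    rw [coe_intCast_smul_TP, Nat.cast_smul_eq_nsmul, AddSubgroup.coe_add, AddSubgroup.coe_nsmul,
      coe_galTP, coe_wTP, AddSubgroup.coe_zero]
    exact h1
  refine (smul_eq_zero.mp hcv).resolve_left fun e => hne ?_
  rw [ZMod.intCast_zmod_eq_zero_iff_dvd] at e
  rw [show (l₀ : ℤ) + 1 - a l₀ = -c by rw [hc]; ring]
  exact e.neg_right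

omit [CharP (Res A) q] [FF.IsFunctionField (Res A) (KM A M)] [FF.IsFunctionField QBar (FB M)] in
/-- A nonzero stable subspace preserved by the involution `wTP` has a nonzero stable subspace
on which it is a sign. -/
private theorem exists_sign_subspace (h : Setup A M q) {U : Submodule (ZMod p) (TP (q * M) p)}
    (hU : IsStableUnder (galTP (q * M) p) U) (hU0 : U ≠ ⊥) (hwU : ∀ v ∈ U, wTP h v ∈ U) :
    ∃ ε : ZMod p, ε * ε = 1 ∧ ∃ V ≤ U, IsStableUnder (galTP (q * M) p) V ∧ V ≠ ⊥ ∧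
      ∀ v ∈ V, wTP h v = ε • v := by
  classical
  obtain ⟨u, hu, hu0⟩ := Submodule.exists_mem_ne_zero_of_ne_bot hU0
  -- an eigenvector in `U` gives the whole eigenspace, which Galois preserves
  have key : ∀ ε : ZMod p, ∀ v ∈ U, v ≠ 0 → wTP h v = ε • v →
      ∃ V ≤ U, IsStableUnder (galTP (q * M) p) V ∧ V ≠ ⊥ ∧ ∀ w ∈ V, wTP h w = ε • w := by
    intro ε v hv hv0 he
    let E : Submodule (ZMod p) (TP (q * M) p) :=
      LinearMap.ker (wTP h - ε • (LinearMap.id : Module.End (ZMod p) (TP (q * M) p)))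
    have hE : ∀ w, w ∈ E ↔ wTP h w = ε • w := fun w => by
      simp [E, LinearMap.mem_ker, sub_eq_zero]
    refine ⟨U ⊓ E, inf_le_left, fun g w hw => ⟨hU g w hw.1, (hE _).mpr ?_⟩,
      fun e0 => hv0 ((Submodule.mem_bot (ZMod p)).mp ?_), fun w hw => (hE w).mp hw.2⟩
    · rw [wTP_galTP h g w, (hE w).mp hw.2, map_smul]
    · rw [← e0]; exact ⟨hv, (hE v).mpr he⟩
  by_cases hplus : u + wTP h u = 0
  · refine ⟨-1, by ring, key _ u hu hu0 ?_⟩
    rw [eq_neg_of_add_eq_zero_right hplus]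
    simp
  · refine ⟨1, one_mul 1, key _ (u + wTP h u) (U.add_mem hu (hwU u hu)) hplus ?_⟩
    rw [map_add, wTP_wTP, one_smul, add_comm]

/-- **Mazur's principle**: given `EigenOrd`, an irreducible mod `p` representation of level `q M`,
unramified at `q ≠ p`, comes from level `M` unless its Frobenius at `q` is scalar and `q ≡ 1`
modulo `p`. -/
theorem mazur_principle (h : Setup A M q) (hpq : p ≠ q)
    (r : GQ →* Matrix (Fin 2) (Fin 2) (ZMod p))
    (hr : ∃ L : IntermediateField ℚ (AlgebraicClosure ℚ), FiniteDimensional ℚ L ∧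
      ∀ σ : GQ, (∀ z ∈ L, σ z = z) → r σ = 1)
    (hspan : Submodule.span (ZMod p) (Set.range r) = ⊤)
    (T : Finset ℕ) (G : ℕ → Prop) (a : ℕ → ℤ)
    (hGT : ∀ l, l.Prime → l ∉ T → G l ∧ ¬ l ∣ q * M * p)
    (hG : ∀ l, l.Prime → G l → ¬ l ∣ q * M)
    (hfrob : ∀ l : ℕ, l.Prime → l ∉ T → ∀ B : ValuationSubring (AlgebraicClosure ℚ),
      B.LiesOverPrime l → ∀ σ : GQ, B.IsFrobeniusAt σ l →
        (r σ).trace = (a l : ZMod p) ∧ (r σ).det = (l : ZMod p))
    (hI : ∀ τ ∈ A.inertiaSubgroupIn ℚ, r τ = 1) {l₀ : ℕ} (hl₀ : l₀.Prime) (hGl₀ : G l₀)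
    (hne : ¬ (p : ℤ) ∣ (l₀ : ℤ) + 1 - a l₀) (hord : EigenOrd q p h.hqM h.hM G a) {x : TP (q * M) p}
    (hx : x ∈ eigenTP (q * M) p G a) (hx0 : x ≠ 0) {σ : GQ} (hσ : A.IsFrobeniusAt σ q)
    (hdet : (r σ).det = (q : ZMod p))
    (hns : (∀ c : ZMod p, r σ ≠ c • 1) ∨ (q : ZMod p) ≠ 1) :
    ∃ (g : CuspForm (Gamma0 M) 2) (_ : g.IsNormalizedEigenform)
      (𝔪 : Ideal (integralClosure ℤ ℂ)), 𝔪.IsMaximal ∧
      ((p : ℕ) : integralClosure ℤ ℂ) ∈ 𝔪 ∧
      ∀ l, l.Prime → G l → ∃ c : integralClosure ℤ ℂ,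
        (c : ℂ) = ModularFormClass.qCoeff g l ∧ c - (a l : integralClosure ℤ ℂ) ∈ 𝔪 := by
  classical
  have : NeZero p := ⟨(Fact.out : p.Prime).ne_zero⟩
  have := finite_TP (q * M) p
  -- a residual class gives the eigenform of level `M`
  by_cases hres : HasResidualClass A h.hM p G a
  · obtain ⟨y, hy, hpy, heig⟩ := hres
    exact exists_eigenform_of_residual (q := q) h.hM hy hpy G a heig
  -- otherwise, find a contradiction on the eigen space, a module over the image of `r`
  exfalso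
  let ψ := galTP (q * M) p
  have hquad : ∀ g, ∀ v ∈ eigenTP (q * M) p G a,
      ψ g (ψ g v) - (r g).trace • ψ g v + (r g).det • v = 0 := fun g v hv =>
    galTP_quad r hr T G a hGT hfrob g hv
  have hV0 : eigenTP (q * M) p G a ≠ ⊥ := fun e => hx0 ((Submodule.mem_bot _).mp (e ▸ hx))
  obtain ⟨U, hUle, hU0, hU, htriv, -⟩ := exists_submodule_kernel ψ r hspan _
    (eigenTP_stable (q * M) p G a) hV0 hquad
  -- inertia fixes `U`, so Frobenius acts on it as `-q w`
  have hsig : ∀ v ∈ U, ψ σ v + (q : ZMod p) • wTP h v = 0 := fun v hv =>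
    galTP_add_wTP_eq_zero h hpq G a hord hG hl₀ hGl₀ hne hres hσ v (hUle hv)
      fun τ hτ => congrArg Subtype.val (htriv τ (hI τ hτ) v hv)
  have hq0 : (q : ZMod p) ≠ 0 := fun e => by
    rw [ZMod.natCast_eq_zero_iff] at e
    exact hpq ((Nat.prime_dvd_prime_iff_eq Fact.out hq.out).mp e)
  have hwU : ∀ v ∈ U, wTP h v ∈ U := fun v hv => by
    have e : wTP h v = -(q : ZMod p)⁻¹ • ψ σ v := by
      rw [eq_neg_of_add_eq_zero_left (hsig v hv), neg_smul, smul_neg, neg_neg, smul_smul,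
        inv_mul_cancel₀ hq0, one_smul]
    rw [e]
    exact U.smul_mem _ (hU σ v hv)
  obtain ⟨ε, hε, V, hVU, hV, hV0', hVw⟩ := exists_sign_subspace h hU hU0 hwU
  -- on `W ≤ V` Frobenius is the scalar `d = -q ε`, so `r σ` is scalar
  obtain ⟨W, hWle, hW0, -, -, hWns⟩ := exists_submodule_kernel ψ r hspan V hV hV0'
    fun g v hv => hquad g v (hUle (hVU hv))
  set d : ZMod p := -((q : ZMod p) * ε)
  have hd : ∀ v ∈ W, ψ σ v = d • v := fun v hv => by
    rw [eq_neg_of_add_eq_zero_left (hsig v (hVU (hWle hv))), hVw v (hWle hv), smul_smul,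
      neg_smul]
  obtain ⟨c, hc⟩ : ∃ c : ZMod p, r σ = c • 1 := by
    by_contra hcon
    obtain ⟨v, hv, hvne⟩ := hWns σ (fun c hc => hcon ⟨c, hc⟩) d
    exact hvne (hd v hv)
  -- the characteristic polynomial at a vector of `W` makes that scalar `d`; then `d² = q`
  -- forces `q = 1`
  obtain ⟨v, hv, hv0⟩ := Submodule.exists_mem_ne_zero_of_ne_bot hW0
  have hchar := hquad σ v (hUle (hVU (hWle hv)))
  rw [hc] at hdet
  rw [hd v hv, map_smul, hd v hv, hc, smul_smul, smul_smul, ← sub_smul, ← add_smul] at hchar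
  have hpoly := (smul_eq_zero.mp hchar).resolve_right hv0
  simp only [Matrix.trace_smul, Matrix.trace_one, Matrix.det_smul, Matrix.det_one, mul_one,
    Fintype.card_fin, smul_eq_mul, Nat.cast_ofNat] at hpoly hdet
  have hdc : d = c := by
    have : (d - c) * (d - c) = 0 := by linear_combination hpoly
    exact sub_eq_zero.mp (mul_self_eq_zero.mp this)
  have hq1 : (q : ZMod p) = 1 := by
    refine mul_left_cancel₀ hq0 ?_
    rw [mul_one]
    have e : d * d = (q : ZMod p) := by rw [hdc, ← sq]; exact hdet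
    calc (q : ZMod p) * q = d * d := by
          simp only [d]; linear_combination -((q : ZMod p) * q) * hε
      _ = q := e
  exact hns.elim (fun hn => hn c hc) (fun hn => hn hq1)

end Fermat.Agent.RT.Mazur
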